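import Mathlib

/-!
# First case of Fermat's Last Theorem for the exponents 5, 7, 11, 13

Sophie Germain / Legendre criterion: if `q` is an auxiliary prime such that
* `x ^ p + y ^ p + z ^ p = 0` in `ZMod q` forces `x * y * z = 0`, and
* `p` is not a `p`-th power in `ZMod q`,
then every integer solution of `x ^ p + y ^ p + z ^ p = 0` has `p ∣ x * y * z`.
-/

set_option autoImplicit false

namespace Fermat.Agent.S11

open Finset

/-- The cofactor `(y ^ p + z ^ p) / (y + z)` (for odd `p`). -/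
def sgPhi {R : Type*} [CommRing R] (p : ℕ) (y z : R) : R :=
  ∑ i ∈ range p, y ^ i * (-z) ^ (p - 1 - i)

lemma sgPhi_mul {R : Type*} [CommRing R] {p : ℕ} (hp : Odd p) (y z : R) :
    sgPhi p y z * (y + z) = y ^ p + z ^ p := by
  have h := geom_sum₂_mul y (-z) p
  rw [sub_neg_eq_add, hp.neg_pow, sub_neg_eq_add] at h
  exact h

lemma map_sgPhi {R S : Type*} [CommRing R] [CommRing S] (f : R →+* S) (p : ℕ) (y z : R) :
    f (sgPhi p y z) = sgPhi p (f y) (f z) := by
  simp [sgPhi, map_sum]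

lemma sgPhi_neg_self {R : Type*} [CommRing R] (p : ℕ) (y : R) :
    sgPhi p y (-y) = p * y ^ (p - 1) := by
  simp only [sgPhi, neg_neg]
  exact geom_sum₂_self y p

lemma sgPhi_zero_left {R : Type*} [CommRing R] {p : ℕ} (hp : Odd p) (y : R) :
    sgPhi p 0 y = y ^ (p - 1) := by
  have hpos : 0 < p := hp.pos
  have heven : Even (p - 1) := by
    obtain ⟨k, hk⟩ := hp
    exact ⟨k, by omega⟩
  unfold sgPhi
  rw [Finset.sum_eq_single 0]
  · simp [heven.neg_pow]
  · intro i _ hi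
    simp [hi]
  · intro h0
    exact absurd (Finset.mem_range.mpr hpos) h0

/-- The two factors `y + z` and `sgPhi p y z` of `(-x) ^ p` are both `p`-th powers. -/
lemma sg_factor {p : ℕ} (hp : p.Prime) (hp2 : p ≠ 2) {x y z : ℤ} (hyz : IsCoprime y z)
    (h : x ^ p + y ^ p + z ^ p = 0) (hpx : ¬ (p : ℤ) ∣ x) :
    (∃ a : ℤ, y + z = a ^ p) ∧ (∃ α : ℤ, sgPhi p y z = α ^ p) := by
  have hodd : Odd p := hp.odd_of_ne_two hp2
  have hprod : (y + z) * sgPhi p y z = (-x) ^ p := by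
    rw [mul_comm, sgPhi_mul hodd, hodd.neg_pow]
    linarith
  have hx0 : x ≠ 0 := fun h0 => hpx (h0 ▸ dvd_zero _)
  have hcop : IsCoprime (y + z) (sgPhi p y z) := by
    apply isCoprime_of_prime_dvd
    · rintro ⟨h1, -⟩
      rw [h1, zero_mul] at hprod
      exact hx0 (neg_eq_zero.mp (pow_eq_zero_iff hp.ne_zero |>.mp hprod.symm))
    · intro r hr hr1 hr2
      have hrn : (r.natAbs).Prime := Int.prime_iff_natAbs_prime.mp hr
      have : Fact (r.natAbs).Prime := ⟨hrn⟩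
      have hr1' : ((r.natAbs : ℕ) : ℤ) ∣ y + z := Int.natAbs_dvd.mpr hr1
      have hr2' : ((r.natAbs : ℕ) : ℤ) ∣ sgPhi p y z := Int.natAbs_dvd.mpr hr2
      have e1 : ((y + z : ℤ) : ZMod r.natAbs) = 0 :=
        (ZMod.intCast_zmod_eq_zero_iff_dvd _ _).mpr hr1'
      have e2 : ((sgPhi p y z : ℤ) : ZMod r.natAbs) = 0 :=
        (ZMod.intCast_zmod_eq_zero_iff_dvd _ _).mpr hr2'
      have e3 : (z : ZMod r.natAbs) = -(y : ZMod r.natAbs) := by
        have : (y : ZMod r.natAbs) + (z : ZMod r.natAbs) = 0 := by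
          rw [← Int.cast_add]; exact e1
        exact eq_neg_of_add_eq_zero_right this
      have e4 : ((sgPhi p y z : ℤ) : ZMod r.natAbs)
          = (p : ZMod r.natAbs) * (y : ZMod r.natAbs) ^ (p - 1) := by
        have := map_sgPhi (Int.castRingHom (ZMod r.natAbs)) p y z
        simp only [eq_intCast] at this
        rw [this, e3, sgPhi_neg_self]
      rw [e4] at e2
      rcases mul_eq_zero.mp e2 with hp0 | hy0
      · -- `r = p`
        have hdvd : r.natAbs ∣ p := (ZMod.natCast_eq_zero_iff p r.natAbs).mp hp0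
        have hrp : r.natAbs = p := (Nat.prime_dvd_prime_iff_eq hrn hp).mp hdvd
        rw [hrp] at hr1'
        have h3 : (p : ℤ) ∣ (-x) ^ p := hprod ▸ Dvd.dvd.mul_right hr1' _
        have h4 : (p : ℤ) ∣ -x := Int.Prime.dvd_pow' hp h3
        exact hpx ((dvd_neg).mp h4)
      · have hy0' : (y : ZMod r.natAbs) = 0 :=
          (pow_eq_zero_iff (by have := hp.two_le; omega)).mp hy0
        have hz0' : (z : ZMod r.natAbs) = 0 := by rw [e3, hy0', neg_zero]
        have d1 : ((r.natAbs : ℕ) : ℤ) ∣ y := (ZMod.intCast_zmod_eq_zero_iff_dvd _ _).mp hy0'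
        have d2 : ((r.natAbs : ℕ) : ℤ) ∣ z := (ZMod.intCast_zmod_eq_zero_iff_dvd _ _).mp hz0'
        have hu : IsUnit ((r.natAbs : ℕ) : ℤ) := hyz.isUnit_of_dvd' d1 d2
        have : r.natAbs = 1 := by
          have h7 := Int.isUnit_iff_natAbs_eq.mp hu
          rwa [Int.natAbs_natCast] at h7
        exact hrn.one_lt.ne' this
  exact Int.eq_pow_of_mul_eq_pow_odd hcop hodd hprod

/-- Core of the Sophie Germain argument: the case where the auxiliary prime divides `x`. -/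
lemma sg_aux {p q : ℕ} (hp : p.Prime) (hp2 : p ≠ 2) (hq : q.Prime)
    (h1 : ∀ x y z : ZMod q, x ^ p + y ^ p + z ^ p = 0 → x = 0 ∨ y = 0 ∨ z = 0)
    (h2 : ∀ x : ZMod q, x ^ p ≠ (p : ZMod q))
    {x y z : ℤ} (hxy : IsCoprime x y) (hyz : IsCoprime y z) (hzx : IsCoprime z x)
    (h : x ^ p + y ^ p + z ^ p = 0)
    (hpx : ¬ (p : ℤ) ∣ x) (hpy : ¬ (p : ℤ) ∣ y) (hpz : ¬ (p : ℤ) ∣ z)
    (hqx : (q : ℤ) ∣ x) : False := by
  have : Fact q.Prime := ⟨hq⟩
  have hodd : Odd p := hp.odd_of_ne_two hp2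
  obtain ⟨⟨a, ha⟩, ⟨α, hα⟩⟩ := sg_factor hp hp2 hyz h hpx
  obtain ⟨⟨b, hb⟩, -⟩ := sg_factor (x := y) (y := z) (z := x) hp hp2 hzx (by linarith) hpy
  obtain ⟨⟨c, hc⟩, ⟨γ, hγ⟩⟩ :=
    sg_factor (x := z) (y := x) (z := y) hp hp2 hxy (by linarith) hpz
  -- notation for reductions mod `q`
  have ex : (x : ZMod q) = 0 := (ZMod.intCast_zmod_eq_zero_iff_dvd _ _).mpr hqx
  have notq : ∀ {u v : ℤ}, IsCoprime u v → (u : ZMod q) = 0 → (v : ZMod q) = 0 → False := by
    intro u v huv hu hv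
    have d1 : (q : ℤ) ∣ u := (ZMod.intCast_zmod_eq_zero_iff_dvd _ _).mp hu
    have d2 : (q : ℤ) ∣ v := (ZMod.intCast_zmod_eq_zero_iff_dvd _ _).mp hv
    have hu' : IsUnit (q : ℤ) := huv.isUnit_of_dvd' d1 d2
    have : q = 1 := by
      have h7 := Int.isUnit_iff_natAbs_eq.mp hu'
      rwa [Int.natAbs_natCast] at h7
    exact hq.one_lt.ne' this
  have ha' : (y : ZMod q) + (z : ZMod q) = (a : ZMod q) ^ p := by
    have := congrArg (Int.cast : ℤ → ZMod q) ha
    push_cast at this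
    exact this
  have hb' : (z : ZMod q) + (x : ZMod q) = (b : ZMod q) ^ p := by
    have := congrArg (Int.cast : ℤ → ZMod q) hb
    push_cast at this
    exact this
  have hc' : (x : ZMod q) + (y : ZMod q) = (c : ZMod q) ^ p := by
    have := congrArg (Int.cast : ℤ → ZMod q) hc
    push_cast at this
    exact this
  have hsum : (b : ZMod q) ^ p + (c : ZMod q) ^ p + (-(a : ZMod q)) ^ p = 0 := by
    rw [hodd.neg_pow, ← ha', ← hb', ← hc', ex]
    ring
  rcases h1 _ _ _ hsum with hb0 | hc0 | ha0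
  · -- `q ∣ z` and `q ∣ x`
    rw [hb0, zero_pow hp.ne_zero, ex, add_zero] at hb'
    exact notq hzx hb' ex
  · rw [hc0, zero_pow hp.ne_zero, ex, zero_add] at hc'
    exact notq hxy ex hc'
  · have ha0' : (a : ZMod q) = 0 := neg_eq_zero.mp ha0
    rw [ha0', zero_pow hp.ne_zero] at ha'
    have ez : (z : ZMod q) = -(y : ZMod q) := eq_neg_of_add_eq_zero_right ha'
    have hy0 : (y : ZMod q) ≠ 0 := fun hy => notq hxy ex hy
    have hα' : (α : ZMod q) ^ p = (p : ZMod q) * (y : ZMod q) ^ (p - 1) := by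
      have := congrArg (Int.cast : ℤ → ZMod q) hα
      rw [Int.cast_pow] at this
      rw [← this]
      have h5 := map_sgPhi (Int.castRingHom (ZMod q)) p y z
      simp only [eq_intCast] at h5
      rw [h5, ez, sgPhi_neg_self]
    have hγ' : (γ : ZMod q) ^ p = (y : ZMod q) ^ (p - 1) := by
      have := congrArg (Int.cast : ℤ → ZMod q) hγ
      rw [Int.cast_pow] at this
      rw [← this]
      have h5 := map_sgPhi (Int.castRingHom (ZMod q)) p x y
      simp only [eq_intCast] at h5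
      rw [h5, ex, sgPhi_zero_left hodd]
    have hγ0 : (γ : ZMod q) ^ p ≠ 0 := by
      rw [hγ']
      exact pow_ne_zero _ hy0
    apply h2 ((α : ZMod q) * ((γ : ZMod q))⁻¹)
    rw [mul_pow, inv_pow, hα', hγ']
    field_simp

/-- **Sophie Germain's theorem** (Legendre's form): first case of FLT for exponent `p`,
given an auxiliary prime `q`. -/
theorem sophieGermain {p q : ℕ} (hp : p.Prime) (hp2 : p ≠ 2) (hq : q.Prime)
    (h1 : ∀ x y z : ZMod q, x ^ p + y ^ p + z ^ p = 0 → x = 0 ∨ y = 0 ∨ z = 0)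
    (h2 : ∀ x : ZMod q, x ^ p ≠ (p : ZMod q))
    {x y z : ℤ} (hxy : IsCoprime x y) (hyz : IsCoprime y z) (hzx : IsCoprime z x)
    (h : x ^ p + y ^ p + z ^ p = 0) : (p : ℤ) ∣ x * y * z := by
  by_contra hdiv
  have hpx : ¬ (p : ℤ) ∣ x := fun hd => hdiv ((hd.mul_right y).mul_right z)
  have hpy : ¬ (p : ℤ) ∣ y := fun hd => hdiv ((hd.mul_left x).mul_right z)
  have hpz : ¬ (p : ℤ) ∣ z := fun hd => hdiv (hd.mul_left (x * y))
  have hmod : (x : ZMod q) ^ p + (y : ZMod q) ^ p + (z : ZMod q) ^ p = 0 := by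
    have := congrArg (Int.cast : ℤ → ZMod q) h
    push_cast at this
    exact this
  rcases h1 _ _ _ hmod with hx | hy | hz
  · exact sg_aux hp hp2 hq h1 h2 hxy hyz hzx h hpx hpy hpz
      ((ZMod.intCast_zmod_eq_zero_iff_dvd _ _).mp hx)
  · exact sg_aux (x := y) (y := z) (z := x) hp hp2 hq h1 h2 hyz hzx hxy (by linarith) hpy hpz hpx
      ((ZMod.intCast_zmod_eq_zero_iff_dvd _ _).mp hy)
  · exact sg_aux (x := z) (y := x) (z := y) hp hp2 hq h1 h2 hzx hxy hyz (by linarith) hpz hpx hpy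
      ((ZMod.intCast_zmod_eq_zero_iff_dvd _ _).mp hz)

/-- First case of FLT from an auxiliary prime, without any coprimality hypothesis. -/
theorem caseOne_of_aux {p q : ℕ} (hp : p.Prime) (hp2 : p ≠ 2) (hq : q.Prime)
    (h1 : ∀ x y z : ZMod q, x ^ p + y ^ p + z ^ p = 0 → x = 0 ∨ y = 0 ∨ z = 0)
    (h2 : ∀ x : ZMod q, x ^ p ≠ (p : ZMod q))
    {a b c : ℤ} (h : a ^ p + b ^ p = c ^ p) : (p : ℤ) ∣ a * b * c := by
  have hodd : Odd p := hp.odd_of_ne_two hp2
  rcases eq_or_ne a 0 with ha0 | ha0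
  · simp [ha0]
  set d : ℤ := (Int.gcd a b : ℤ) with hd
  have hd0 : d ≠ 0 := by
    rw [hd]
    exact_mod_cast (Int.gcd_pos_of_ne_zero_left b ha0).ne'
  obtain ⟨a', ha'⟩ : d ∣ a := Int.gcd_dvd_left a b
  obtain ⟨b', hb'⟩ : d ∣ b := Int.gcd_dvd_right a b
  have hcop : IsCoprime a' b' := by
    rw [Int.isCoprime_iff_gcd_eq_one]
    have hg : Int.gcd a b = Int.gcd a b * Int.gcd a' b' := by
      conv_lhs => rw [ha', hb', Int.gcd_mul_left]
      simp [hd]
    have hpos : 0 < Int.gcd a b := Int.gcd_pos_of_ne_zero_left b ha0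
    have := Nat.eq_of_mul_eq_mul_left hpos (by rw [mul_one]; exact hg : Int.gcd a b * 1 = Int.gcd a b * Int.gcd a' b')
    exact this.symm
  have hdc : d ∣ c := by
    have : d ^ p ∣ c ^ p := by
      rw [← h, ha', hb', mul_pow, mul_pow]
      exact dvd_add (dvd_mul_right _ _) (dvd_mul_right _ _)
    exact (Int.pow_dvd_pow_iff hp.ne_zero).mp this
  obtain ⟨c', hc'⟩ := hdc
  have h' : a' ^ p + b' ^ p = c' ^ p := by
    have h3 : d ^ p * (a' ^ p + b' ^ p) = d ^ p * c' ^ p := by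
      rw [mul_add, ← mul_pow, ← mul_pow, ← mul_pow, ← ha', ← hb', ← hc']
      exact h
    exact mul_left_cancel₀ (pow_ne_zero p hd0) h3
  -- coprimality of `b', c'` and `c', a'`
  have hbc : IsCoprime b' c' := by
    have : IsCoprime b' (c' ^ p) := by
      rw [← h']
      have h4 : IsCoprime b' (a' ^ p) := (hcop.symm).pow_right
      have h5 := h4.add_mul_left_right (b' ^ (p - 1))
      have h6 : b' * b' ^ (p - 1) = b' ^ p := by
        rw [← pow_succ', Nat.sub_add_cancel hp.one_le]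
      rwa [h6] at h5
    exact (IsCoprime.pow_right_iff hp.pos).mp this
  have hca : IsCoprime c' a' := by
    have : IsCoprime a' (c' ^ p) := by
      rw [← h']
      have h4 : IsCoprime a' (b' ^ p) := hcop.pow_right
      have h5 := h4.add_mul_left_right (a' ^ (p - 1))
      have h6 : a' * a' ^ (p - 1) = a' ^ p := by
        rw [← pow_succ', Nat.sub_add_cancel hp.one_le]
      rw [h6, add_comm] at h5
      exact h5
    exact ((IsCoprime.pow_right_iff hp.pos).mp this).symm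
  have key : (p : ℤ) ∣ a' * b' * (-c') :=
    sophieGermain hp hp2 hq h1 h2 hcop hbc.neg_right hca.neg_left
      (by rw [hodd.neg_pow]; linarith)
  have key' : (p : ℤ) ∣ a' * b' * c' := by
    have := key
    rw [mul_neg, dvd_neg] at this
    exact this
  rw [ha', hb', hc']
  have : d * a' * (d * b') * (d * c') = (a' * b' * c') * (d * d * d) := by ring
  rw [this]
  exact key'.mul_right _

/-! ### The auxiliary primes for `p = 5, 7, 11, 13` -/

private lemma aux_5_11 :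
    (∀ x y z : ZMod 11, x ^ 5 + y ^ 5 + z ^ 5 = 0 → x = 0 ∨ y = 0 ∨ z = 0) ∧
    ∀ x : ZMod 11, x ^ 5 ≠ ((5 : ℕ) : ZMod 11) := by
  have key0 : ∀ x : ZMod 11, x = 0 ∨ (x ^ 5 = 1 ∨ x ^ 5 = -1) := by decide
  have key : ∀ x : ZMod 11, x = 0 ∨ x ^ 5 ∈ ({1, -1} : Finset (ZMod 11)) := by
    intro x
    rcases key0 x with h | h
    · exact Or.inl h
    · right
      simp only [Finset.mem_insert, Finset.mem_singleton]
      exact h
  have h3 : ∀ u ∈ ({1, -1} : Finset (ZMod 11)), ∀ v ∈ ({1, -1} : Finset (ZMod 11)),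
      ∀ w ∈ ({1, -1} : Finset (ZMod 11)), u + v + w ≠ 0 := by decide
  refine ⟨fun x y z h => ?_, by decide⟩
  rcases key x with hx | hx
  · exact Or.inl hx
  rcases key y with hy | hy
  · exact Or.inr (Or.inl hy)
  rcases key z with hz | hz
  · exact Or.inr (Or.inr hz)
  exact absurd h (h3 _ hx _ hy _ hz)

private lemma aux_11_23 :
    (∀ x y z : ZMod 23, x ^ 11 + y ^ 11 + z ^ 11 = 0 → x = 0 ∨ y = 0 ∨ z = 0) ∧
    ∀ x : ZMod 23, x ^ 11 ≠ ((11 : ℕ) : ZMod 23) := by
  have key0 : ∀ x : ZMod 23, x = 0 ∨ (x ^ 11 = 1 ∨ x ^ 11 = -1) := by decide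
  have key : ∀ x : ZMod 23, x = 0 ∨ x ^ 11 ∈ ({1, -1} : Finset (ZMod 23)) := by
    intro x
    rcases key0 x with h | h
    · exact Or.inl h
    · right
      simp only [Finset.mem_insert, Finset.mem_singleton]
      exact h
  have h3 : ∀ u ∈ ({1, -1} : Finset (ZMod 23)), ∀ v ∈ ({1, -1} : Finset (ZMod 23)),
      ∀ w ∈ ({1, -1} : Finset (ZMod 23)), u + v + w ≠ 0 := by decide
  refine ⟨fun x y z h => ?_, by decide⟩
  rcases key x with hx | hx
  · exact Or.inl hx
  rcases key y with hy | hy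
  · exact Or.inr (Or.inl hy)
  rcases key z with hz | hz
  · exact Or.inr (Or.inr hz)
  exact absurd h (h3 _ hx _ hy _ hz)

set_option maxRecDepth 100000 in
private lemma aux_7_29 :
    (∀ x y z : ZMod 29, x ^ 7 + y ^ 7 + z ^ 7 = 0 → x = 0 ∨ y = 0 ∨ z = 0) ∧
    ∀ x : ZMod 29, x ^ 7 ≠ ((7 : ℕ) : ZMod 29) := by
  have key0 : ∀ x : ZMod 29, x = 0 ∨ (x ^ 7 = 1 ∨ x ^ 7 = -1 ∨ x ^ 7 = 12 ∨ x ^ 7 = -12) := by decide
  have key : ∀ x : ZMod 29, x = 0 ∨ x ^ 7 ∈ ({1, -1, 12, -12} : Finset (ZMod 29)) := by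
    intro x
    rcases key0 x with h | h
    · exact Or.inl h
    · right
      simp only [Finset.mem_insert, Finset.mem_singleton]
      exact h
  have h3 : ∀ u ∈ ({1, -1, 12, -12} : Finset (ZMod 29)), ∀ v ∈ ({1, -1, 12, -12} : Finset (ZMod 29)),
      ∀ w ∈ ({1, -1, 12, -12} : Finset (ZMod 29)), u + v + w ≠ 0 := by decide
  refine ⟨fun x y z h => ?_, by decide⟩
  rcases key x with hx | hx
  · exact Or.inl hx
  rcases key y with hy | hy
  · exact Or.inr (Or.inl hy)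
  rcases key z with hz | hz
  · exact Or.inr (Or.inr hz)
  exact absurd h (h3 _ hx _ hy _ hz)

set_option maxRecDepth 100000 in
private lemma aux_13_53 :
    (∀ x y z : ZMod 53, x ^ 13 + y ^ 13 + z ^ 13 = 0 → x = 0 ∨ y = 0 ∨ z = 0) ∧
    ∀ x : ZMod 53, x ^ 13 ≠ ((13 : ℕ) : ZMod 53) := by
  have key0 : ∀ x : ZMod 53, x = 0 ∨ (x ^ 13 = 1 ∨ x ^ 13 = -1 ∨ x ^ 13 = 23 ∨ x ^ 13 = -23) := by decide
  have key : ∀ x : ZMod 53, x = 0 ∨ x ^ 13 ∈ ({1, -1, 23, -23} : Finset (ZMod 53)) := by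
    intro x
    rcases key0 x with h | h
    · exact Or.inl h
    · right
      simp only [Finset.mem_insert, Finset.mem_singleton]
      exact h
  have h3 : ∀ u ∈ ({1, -1, 23, -23} : Finset (ZMod 53)), ∀ v ∈ ({1, -1, 23, -23} : Finset (ZMod 53)),
      ∀ w ∈ ({1, -1, 23, -23} : Finset (ZMod 53)), u + v + w ≠ 0 := by decide
  refine ⟨fun x y z h => ?_, by decide⟩
  rcases key x with hx | hx
  · exact Or.inl hx
  rcases key y with hy | hy
  · exact Or.inr (Or.inl hy)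
  rcases key z with hz | hz
  · exact Or.inr (Or.inr hz)
  exact absurd h (h3 _ hx _ hy _ hz)

/-- **First case of Fermat's Last Theorem for `p ∈ {5, 7, 11, 13}`**: any integer solution of
`a ^ p + b ^ p = c ^ p` has `p ∣ a * b * c`. -/
theorem caseOne {p : ℕ} (hp : p = 5 ∨ p = 7 ∨ p = 11 ∨ p = 13) {a b c : ℤ}
    (h : a ^ p + b ^ p = c ^ p) : (p : ℤ) ∣ a * b * c := by
  rcases hp with rfl | rfl | rfl | rfl
  · exact caseOne_of_aux (q := 11) (by norm_num) (by norm_num) (by norm_num)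
      aux_5_11.1 aux_5_11.2 h
  · exact caseOne_of_aux (q := 29) (by norm_num) (by norm_num) (by norm_num)
      aux_7_29.1 aux_7_29.2 h
  · exact caseOne_of_aux (q := 23) (by norm_num) (by norm_num) (by norm_num)
      aux_11_23.1 aux_11_23.2 h
  · exact caseOne_of_aux (q := 53) (by norm_num) (by norm_num) (by norm_num)
      aux_13_53.1 aux_13_53.2 h

end Fermat.Agent.S11
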