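import Mathlib

/-!
# Shared definitions for the classical proof of Fermat's Last Theorem for small regular primes
-/

set_option autoImplicit false

open NumberField

namespace Fermat.Agent.S11

/-- The statement of Kummer's lemma for a prime `p` and a number field `K` (meant to be the
`p`-th cyclotomic field): a unit of `𝓞 K` congruent to a rational integer modulo `p` is a
`p`-th power of a unit. -/
def KummerLemmaHolds (p : ℕ) (K : Type*) [Field K] [NumberField K] : Prop :=
  ∀ (u : (𝓞 K)ˣ) (n : ℤ), (p : 𝓞 K) ∣ (u : 𝓞 K) - (n : 𝓞 K) → ∃ v : (𝓞 K)ˣ, u = v ^ p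

end Fermat.Agent.S11
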