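import Mathlib

/-!
# Fermat's Last Theorem for a prime exponent from case 1 and case 2
-/

set_option autoImplicit false

namespace Fermat.Agent.S11

/-- If `{a, b, c}` has gcd one and `a ^ p + b ^ p = c ^ p` with `p ≠ 0`, then `a` and `b` are
coprime. -/
theorem isCoprime_of_gcd_eq_one_of_eq {p : ℕ} (hp0 : p ≠ 0) {a b c : ℤ}
    (hgcd : ({a, b, c} : Finset ℤ).gcd id = 1) (h : a ^ p + b ^ p = c ^ p) : IsCoprime a b := by
  rw [Int.isCoprime_iff_gcd_eq_one]
  by_contra hne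
  obtain ⟨q, hq, hqd⟩ := Nat.exists_prime_and_dvd hne
  have hqa : (q : ℤ) ∣ a := (Int.natCast_dvd_natCast.mpr hqd).trans (Int.gcd_dvd_left a b)
  have hqb : (q : ℤ) ∣ b := (Int.natCast_dvd_natCast.mpr hqd).trans (Int.gcd_dvd_right a b)
  have hqc : (q : ℤ) ∣ c := by
    have hq' : Prime (q : ℤ) := Nat.prime_iff_prime_int.mp hq
    apply hq'.dvd_of_dvd_pow (n := p)
    rw [← h]
    exact dvd_add (dvd_pow hqa hp0) (dvd_pow hqb hp0)
  have hdvd : (q : ℤ) ∣ ({a, b, c} : Finset ℤ).gcd id := by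
    apply Finset.dvd_gcd
    intro x hx
    simp only [Finset.mem_insert, Finset.mem_singleton] at hx
    rcases hx with rfl | rfl | rfl <;> simpa
  rw [hgcd] at hdvd
  have := Int.isUnit_iff.mp (isUnit_of_dvd_one hdvd)
  have hq1 := hq.one_lt
  omega

/-- If `a`, `b` are coprime and `a ^ p + b ^ p = c ^ p` with `p ≠ 0`, then `a` and `c` are
coprime. -/
theorem isCoprime_left_of_eq {p : ℕ} (hp0 : p ≠ 0) {a b c : ℤ}
    (hab : IsCoprime a b) (h : a ^ p + b ^ p = c ^ p) : IsCoprime a c := by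
  rw [Int.isCoprime_iff_gcd_eq_one]
  by_contra hne
  obtain ⟨q, hq, hqd⟩ := Nat.exists_prime_and_dvd hne
  have hqa : (q : ℤ) ∣ a := (Int.natCast_dvd_natCast.mpr hqd).trans (Int.gcd_dvd_left a c)
  have hqc : (q : ℤ) ∣ c := (Int.natCast_dvd_natCast.mpr hqd).trans (Int.gcd_dvd_right a c)
  have hq' : Prime (q : ℤ) := Nat.prime_iff_prime_int.mp hq
  have hqb : (q : ℤ) ∣ b := by
    apply hq'.dvd_of_dvd_pow (n := p)
    have : b ^ p = c ^ p - a ^ p := by linear_combination h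
    rw [this]
    exact dvd_sub (dvd_pow hqc hp0) (dvd_pow hqa hp0)
  exact hq'.not_isUnit (hab.isUnit_of_dvd' hqa hqb)

/-- Fermat's Last Theorem over `ℤ` for an odd prime exponent `p` follows from case 1
(`p ∣ a * b * c` for every solution) and case 2 (no solution with `a`, `b` coprime and
`p ∣ c ≠ 0`). -/
theorem flt_of_caseOne_of_caseTwo {p : ℕ} (hp : p.Prime) (hp2 : p ≠ 2)
    (h1 : ∀ {a b c : ℤ}, a ^ p + b ^ p = c ^ p → (p : ℤ) ∣ a * b * c)
    (h2 : ∀ {a b c : ℤ}, IsCoprime a b → c ≠ 0 → (p : ℤ) ∣ c → a ^ p + b ^ p = c ^ p → False) :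
    FermatLastTheoremWith ℤ p := by
  have hodd : Odd p := hp.odd_of_ne_two hp2
  apply fermatLastTheoremWith_of_fermatLastTheoremWith_coprime
  intro a b c ha hb hc hgcd h
  have hab : IsCoprime a b := isCoprime_of_gcd_eq_one_of_eq hp.ne_zero hgcd h
  have hpZ : Prime (p : ℤ) := Nat.prime_iff_prime_int.mp hp
  have hac : IsCoprime a c := isCoprime_left_of_eq hp.ne_zero hab h
  have hbc : IsCoprime b c :=
    isCoprime_left_of_eq hp.ne_zero hab.symm (by rw [add_comm]; exact h)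
  have hdvd := h1 h
  rcases hpZ.dvd_or_dvd hdvd with hdvd | hpc
  · rcases hpZ.dvd_or_dvd hdvd with hpa | hpb
    · -- p ∣ a : c ^ p + (-b) ^ p = a ^ p
      refine h2 (a := c) (b := -b) (c := a) hbc.symm.neg_right ha hpa ?_
      rw [hodd.neg_pow]; linear_combination -h
    · -- p ∣ b : c ^ p + (-a) ^ p = b ^ p
      refine h2 (a := c) (b := -a) (c := b) hac.symm.neg_right hb hpb ?_
      rw [hodd.neg_pow]; linear_combination -h
  · exact h2 hab hc hpc h

end Fermat.Agent.S11
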