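import Mathlib

/-!
# `ℤ[ζ₁₁]` is a principal ideal domain

Helper for S11 (route: classical FLT for exponent `11`).  Minkowski bound `< 60`; the only
primes `q ≤ 59` with a prime of norm `≤ 59` above them are `11` (ramified, `(ζ - 1)`) and `23`
(split, `(23, ζ - 4) = (1 + ζ + ζ ^ 3)`).
-/

open NumberField Polynomial Ideal

namespace Fermat.Agent.S11.PID

variable (K : Type*) [Field K] [NumberField K]

section Minkowski

open InfinitePlace Nat Real


/-- The Minkowski bound of `ℚ(ζ₁₁)` is `< 60`. -/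
theorem minkowski_eleven_lt [IsCyclotomicExtension {11} ℚ K] :
    (4 / π) ^ nrComplexPlaces K *
      ((Module.finrank ℚ K)! / (Module.finrank ℚ K) ^ (Module.finrank ℚ K) * √|discr K|) < 60 := by
  have : Fact (Nat.Prime 11) := ⟨by norm_num⟩
  rw [IsCyclotomicExtension.Rat.discr_prime 11 K, IsCyclotomicExtension.finrank (n := 11) K
    (cyclotomic.irreducible_rat (by simp)), IsCyclotomicExtension.Rat.nrComplexPlaces_eq_totient_div_two 11,
    totient_prime (by norm_num : Nat.Prime 11)]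
  have h10 : (10 : ℕ)! = 3628800 := by decide
  simp only [Nat.add_one_sub_one, Nat.reduceSub, Nat.reduceDiv, h10]
  have hd : |(((-1 : ℤ) ^ 5 * ((11 : ℕ) : ℤ) ^ 9 : ℤ) : ℝ)| = 11 ^ 9 := by norm_num
  rw [hd]
  have hs : √((11 : ℝ) ^ 9) ≤ 48559 := by
    rw [Real.sqrt_le_iff]
    constructor <;> norm_num
  have hπ : (4 / π) ^ 5 ≤ (4 / 3.14) ^ 5 := by
    have := Real.pi_gt_d2
    gcongr
  calc (4 / π) ^ 5 * (((3628800 : ℕ) : ℝ) / ((10 : ℕ) : ℝ) ^ 10 * √((11 : ℝ) ^ 9))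
      ≤ (4 / 3.14) ^ 5 * (((3628800 : ℕ) : ℝ) / ((10 : ℕ) : ℝ) ^ 10 * 48559) := by gcongr
    _ < 60 := by norm_num

theorem floor_minkowski_eleven_le [IsCyclotomicExtension {11} ℚ K] :
    ⌊(4 / π) ^ nrComplexPlaces K *
      ((Module.finrank ℚ K)! / (Module.finrank ℚ K) ^ (Module.finrank ℚ K) * √|discr K|)⌋₊ ≤ 59 := by
  have h := minkowski_eleven_lt K
  have : ⌊(4 / π) ^ nrComplexPlaces K *
      ((Module.finrank ℚ K)! / (Module.finrank ℚ K) ^ (Module.finrank ℚ K) * √|discr K|)⌋₊ < 60 := by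
    rw [Nat.floor_lt (by positivity)]
    exact_mod_cast h
  omega


end Minkowski

theorem geom_sum_eleven_eq_zero {R : Type*} [CommRing R] [IsDomain R] {ζ : R}
    (hζ : IsPrimitiveRoot ζ 11) :
    1 + ζ + ζ ^ 2 + ζ ^ 3 + ζ ^ 4 + ζ ^ 5 + ζ ^ 6 + ζ ^ 7 + ζ ^ 8 + ζ ^ 9 + ζ ^ 10 = 0 := by
  have h := hζ.geom_sum_eq_zero (by norm_num)
  simp only [Finset.sum_range_succ, Finset.range_zero, Finset.sum_empty, pow_zero, pow_one,
    zero_add] at h
  exact h

theorem exists_int_sub_mem_span {R : Type*} [CommRing R] (ζ : R) (a : ℤ)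
    (htop : Algebra.adjoin ℤ {ζ} = ⊤) (x : R) :
    ∃ n : ℤ, x - (n : R) ∈ Ideal.span {ζ - (a : R)} := by
  have hx : x ∈ Algebra.adjoin ℤ {ζ} := htop ▸ Algebra.mem_top
  induction hx using Algebra.adjoin_induction with
  | mem y hy =>
    rw [Set.mem_singleton_iff] at hy
    subst hy
    exact ⟨a, Ideal.subset_span rfl⟩
  | algebraMap r =>
    refine ⟨r, ?_⟩
    rw [algebraMap_int_eq, eq_intCast, sub_self]
    exact Ideal.zero_mem _
  | add y z _ _ hy hz =>
    obtain ⟨n, hn⟩ := hy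
    obtain ⟨m, hm⟩ := hz
    refine ⟨n + m, ?_⟩
    have : y + z - ((n + m : ℤ) : R) = (y - n) + (z - m) := by push_cast; ring
    rw [this]
    exact Ideal.add_mem _ hn hm
  | mul y z _ _ hy hz =>
    obtain ⟨n, hn⟩ := hy
    obtain ⟨m, hm⟩ := hz
    refine ⟨n * m, ?_⟩
    have : y * z - ((n * m : ℤ) : R) = (y - n) * z + (n : R) * (z - m) := by push_cast; ring
    rw [this]
    exact Ideal.add_mem _ (Ideal.mul_mem_right _ _ hn) (Ideal.mul_mem_left _ _ hm)

/-- Abstract principal-prime criterion: if `φ : R →+* ZMod q` is a ring hom with `φ ζ = a`,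
`R = ℤ[ζ]`, and `α` divides both `q` and `ζ - a` and lies in `ker φ`, then `ker φ = (α)`. -/
theorem ker_eq_span_of_dvd {R : Type*} [CommRing R] (q : ℕ) (φ : R →+* ZMod q) (ζ : R) (a : ℤ)
    (htop : Algebra.adjoin ℤ {ζ} = ⊤) (hφ : φ ζ = (a : ZMod q)) (α : R) (hα : φ α = 0)
    (h1 : α ∣ (q : R)) (h2 : α ∣ ζ - (a : R)) :
    RingHom.ker φ = Ideal.span {α} := by
  apply le_antisymm
  · intro x hx
    rw [RingHom.mem_ker] at hx
    obtain ⟨n, hn⟩ := exists_int_sub_mem_span ζ a htop x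
    have hζa : Ideal.span {ζ - (a : R)} ≤ Ideal.span {α} := by
      rw [Ideal.span_singleton_le_iff_mem, Ideal.mem_span_singleton]
      exact h2
    have hn' : x - (n : R) ∈ Ideal.span {α} := hζa hn
    have hker : φ (x - (n : R)) = 0 := by
      have : Ideal.span {ζ - (a : R)} ≤ RingHom.ker φ := by
        rw [Ideal.span_singleton_le_iff_mem, RingHom.mem_ker, map_sub, hφ, map_intCast, sub_self]
      exact this hn
    rw [map_sub, hx, zero_sub, neg_eq_zero, map_intCast] at hker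
    rw [ZMod.intCast_zmod_eq_zero_iff_dvd] at hker
    obtain ⟨m, rfl⟩ := hker
    have hq : ((((q : ℤ) * m : ℤ)) : R) ∈ Ideal.span {α} := by
      push_cast
      apply Ideal.mul_mem_right
      rw [Ideal.mem_span_singleton]
      exact h1
    have := Ideal.add_mem _ hn' hq
    simpa using this
  · rw [Ideal.span_singleton_le_iff_mem, RingHom.mem_ker]
    exact hα

theorem sum_range_eleven_four_pow : ∑ x ∈ Finset.range 11, (4 : ZMod 23) ^ x = 0 := by decide

theorem one_add_four_add_four_cube : (1 : ZMod 23) + ((4 : ℤ) : ZMod 23) + ((4 : ℤ) : ZMod 23) ^ 3 = 0 := by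
  decide

theorem exists_principal_prime_over_23 [IsCyclotomicExtension {11} ℚ K] :
    ∃ P ∈ Ideal.primesOver (Ideal.span {((23 : ℕ) : ℤ)}) (𝓞 K), Submodule.IsPrincipal P := by
  have : Fact (Nat.Prime 11) := ⟨by norm_num⟩
  have : Fact (Nat.Prime 23) := ⟨by norm_num⟩
  have hζ := IsCyclotomicExtension.zeta_spec 11 ℚ K
  set ζ : 𝓞 K := hζ.toInteger with hζdef
  have hζ' : IsPrimitiveRoot ζ 11 := hζ.toInteger_isPrimitiveRoot
  have hsum := geom_sum_eleven_eq_zero hζ'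
  have htop : Algebra.adjoin ℤ {ζ} = ⊤ := IsCyclotomicExtension.Rat.adjoin_singleton_eq_top hζ
  -- the ring hom `𝓞 K → ZMod 23`, `ζ ↦ 4`
  have hmin : minpoly ℤ hζ.integralPowerBasis.gen = cyclotomic 11 ℤ := by
    rw [hζ.integralPowerBasis_gen, ← RingOfIntegers.minpoly_coe, cyclotomic_eq_minpoly hζ (by norm_num)]
    rfl
  have hroot : aeval (4 : ZMod 23) (minpoly ℤ hζ.integralPowerBasis.gen) = 0 := by
    rw [hmin, cyclotomic_prime, aeval_def, eval₂_finsetSum]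
    simp only [eval₂_X_pow]
    exact sum_range_eleven_four_pow
  let φ : 𝓞 K →+* ZMod 23 := (hζ.integralPowerBasis.lift (4 : ZMod 23) hroot).toRingHom
  have hφζ : φ ζ = ((4 : ℤ) : ZMod 23) := by
    have := hζ.integralPowerBasis.lift_gen (4 : ZMod 23) hroot
    rw [hζ.integralPowerBasis_gen] at this
    simpa [φ] using this
  set α : 𝓞 K := 1 + ζ + ζ ^ 3 with hα
  have hφα : φ α = 0 := by
    rw [hα, map_add, map_add, map_one, map_pow, hφζ]
    exact one_add_four_add_four_cube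
  have h1 : α ∣ ((23 : ℕ) : 𝓞 K) := by
    refine ⟨(-2) + (-14) * ζ + (-17) * ζ ^ 2 + (-12) * ζ ^ 3 + (-5) * ζ ^ 4 + (-9) * ζ ^ 5 +
      (-10) * ζ ^ 6 + (-16) * ζ ^ 7 + (-6) * ζ ^ 8 + (-15) * ζ ^ 9, ?_⟩
    push_cast
    linear_combination (-((-25) + (9) * ζ + (-15) * ζ ^ 2)) * hsum
  have h2 : α ∣ ζ - ((4 : ℤ) : 𝓞 K) := by
    refine ⟨(1) + (3) * ζ + (3) * ζ ^ 2 + (2) * ζ ^ 3 + (1) * ζ ^ 4 + (2) * ζ ^ 5 + (2) * ζ ^ 6 +
      (3) * ζ ^ 7 + (1) * ζ ^ 8 + (3) * ζ ^ 9, ?_⟩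
    push_cast
    linear_combination (-((5) + (-2) * ζ + (3) * ζ ^ 2)) * hsum
  have hker : RingHom.ker φ = Ideal.span {α} := ker_eq_span_of_dvd 23 φ ζ 4 htop hφζ α hφα h1 h2
  refine ⟨RingHom.ker φ, ⟨RingHom.ker_isPrime φ, ?_⟩, ⟨α, hker⟩⟩
  rw [Ideal.liesOver_iff]
  ext n
  rw [Ideal.mem_span_singleton, Ideal.under_def, Ideal.mem_comap, RingHom.mem_ker,
    algebraMap_int_eq, eq_intCast, map_intCast, ZMod.intCast_zmod_eq_zero_iff_dvd]


theorem small_primes_orderOf_aux :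
    ∀ p ∈ Finset.range 60, p.Prime → p ≠ 11 → p ≠ 23 →
      ∃ m ∈ Finset.range 7, 59 < p ^ m ∧ ((p : ℕ) : ZMod 11) ≠ 0 ∧
        ∀ k ∈ Finset.range m, 0 < k → ((p : ℕ) : ZMod 11) ^ k ≠ 1 := by
  decide

theorem le_orderOf_of_forall_pow_ne_one {x : ZMod 11} (hx : x ≠ 0) (m : ℕ)
    (h : ∀ k ∈ Finset.range m, 0 < k → x ^ k ≠ 1) : m ≤ orderOf x := by
  have : Fact (Nat.Prime 11) := ⟨by norm_num⟩
  by_contra hlt
  rw [not_le] at hlt
  have hfin : IsOfFinOrder x := by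
    rw [isOfFinOrder_iff_pow_eq_one]
    exact ⟨10, by norm_num, ZMod.pow_card_sub_one_eq_one hx⟩
  exact h (orderOf x) (Finset.mem_range.mpr hlt) hfin.orderOf_pos (pow_orderOf_eq_one x)

/-- If `IsCyclotomicExtension {11} ℚ K` then `𝓞 K` is a principal ideal domain. -/
theorem eleven_pid [IsCyclotomicExtension {11} ℚ K] : IsPrincipalIdealRing (𝓞 K) := by
  have : Fact (Nat.Prime 11) := ⟨by norm_num⟩
  have : IsGalois ℚ K := IsCyclotomicExtension.isGalois {11} ℚ K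
  apply RingOfIntegers.isPrincipalIdealRing_of_isPrincipal_of_lt_or_isPrincipal_of_mem_primesOver_of_mem_Icc
  intro p hp hpp
  have hM := floor_minkowski_eleven_le K
  rw [Finset.mem_Icc] at hp
  have hp59 : p ≤ 59 := hp.2.trans hM
  by_cases h11 : p = 11
  · subst h11
    have hζ := IsCyclotomicExtension.zeta_spec 11 ℚ K
    have hlies : (Ideal.span {hζ.toInteger - 1}).LiesOver (Ideal.span {((11 : ℕ) : ℤ)}) := by
      have hK : IsCyclotomicExtension {11 ^ (0 + 1)} ℚ K := by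
        rw [zero_add, pow_one]; infer_instance
      have hζ' : IsPrimitiveRoot (IsCyclotomicExtension.zeta 11 ℚ K) (11 ^ (0 + 1)) := by
        rw [zero_add, pow_one]; exact hζ
      exact IsCyclotomicExtension.Rat.liesOver_span_zeta_sub_one 11 0 hζ'
    exact ⟨Ideal.span {hζ.toInteger - 1},
      ⟨IsCyclotomicExtension.Rat.isPrime_span_zeta_sub_one' 11 hζ, hlies⟩, Or.inr ⟨_, rfl⟩⟩
  by_cases h23 : p = 23
  · subst h23
    obtain ⟨P, hP, hprin⟩ := exists_principal_prime_over_23 K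
    exact ⟨P, hP, Or.inr hprin⟩
  · have : Fact p.Prime := ⟨hpp⟩
    have hprime : (Ideal.span {(p : ℤ)}).IsPrime :=
      (Ideal.span_singleton_prime (by exact_mod_cast hpp.ne_zero)).mpr
        (Nat.prime_iff_prime_int.mp hpp)
    obtain ⟨⟨P, hP1, hP2⟩⟩ := (Ideal.span {(p : ℤ)}).nonempty_primesOver (S := 𝓞 K)
    refine ⟨P, ⟨hP1, hP2⟩, Or.inl ?_⟩
    have hndvd : ¬ p ∣ 11 := by
      intro h
      rcases (Nat.dvd_prime (by norm_num : Nat.Prime 11)).mp h with h1 | h1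
      · exact hpp.one_lt.ne' h1
      · exact h11 h1
    rw [IsCyclotomicExtension.Rat.inertiaDeg_eq_of_not_dvd p K P (m := 11) hndvd]
    obtain ⟨m, -, hm, hne, hk⟩ :=
      small_primes_orderOf_aux p (Finset.mem_range.mpr (by omega)) hpp h11 h23
    have hle := le_orderOf_of_forall_pow_ne_one hne m hk
    calc ⌊_⌋₊ ≤ 59 := hM
      _ < p ^ m := hm
      _ ≤ p ^ orderOf ((p : ℕ) : ZMod 11) := Nat.pow_le_pow_right hpp.pos hle

end Fermat.Agent.S11.PID

namespace Fermat.Agent.S11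

/-- Interface name for module (B) of the FLT₁₁ project: `ℤ[ζ₁₁]` is a PID. -/
theorem eleven_pid (K : Type*) [Field K] [NumberField K] [IsCyclotomicExtension {11} ℚ K] :
    IsPrincipalIdealRing (NumberField.RingOfIntegers K) :=
  PID.eleven_pid K

end Fermat.Agent.S11
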