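import Mathlib
import Fermat.Agent.S11.Defs

/-!
# `p`-th powers in `ℤ[ζ_p]` are congruent to rational integers modulo `p`
-/

set_option autoImplicit false

open NumberField Polynomial

namespace Fermat.Agent.S11

variable {p : ℕ} [hp : Fact p.Prime] {K : Type*} [Field K] [NumberField K]
  [IsCyclotomicExtension {p} ℚ K]

/-- In any commutative ring, the set of elements whose `p`-th power is congruent to an integer
modulo `p` is closed under addition. -/
theorem exists_int_sub_pow_dvd_add {R : Type*} [CommRing R] {x y : R}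
    (hx : ∃ n : ℤ, (p : R) ∣ x ^ p - (n : R)) (hy : ∃ n : ℤ, (p : R) ∣ y ^ p - (n : R)) :
    ∃ n : ℤ, (p : R) ∣ (x + y) ^ p - (n : R) := by
  obtain ⟨n, a, ha⟩ := hx
  obtain ⟨m, b, hb⟩ := hy
  obtain ⟨r, hr⟩ := exists_add_pow_prime_eq hp.out x y
  refine ⟨n + m, a + b + x * y * r, ?_⟩
  rw [hr]
  push_cast
  linear_combination ha + hb

omit hp in
/-- In any commutative ring, the set of elements whose `p`-th power is congruent to an integer
modulo `p` is closed under multiplication. -/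
theorem exists_int_sub_pow_dvd_mul {R : Type*} [CommRing R] {x y : R}
    (hx : ∃ n : ℤ, (p : R) ∣ x ^ p - (n : R)) (hy : ∃ n : ℤ, (p : R) ∣ y ^ p - (n : R)) :
    ∃ n : ℤ, (p : R) ∣ (x * y) ^ p - (n : R) := by
  obtain ⟨n, a, ha⟩ := hx
  obtain ⟨m, b, hb⟩ := hy
  refine ⟨n * m, a * y ^ p + n * b, ?_⟩
  rw [mul_pow]
  push_cast
  linear_combination y ^ p * ha + (n : R) * hb

/-- `p`-th powers in the ring of integers of the `p`-th cyclotomic field are congruent to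
rational integers modulo `p` (version without the superfluous hypothesis `p ≠ 2`). -/
theorem exists_int_sub_pow_dvd' (x : 𝓞 K) : ∃ n : ℤ, (p : 𝓞 K) ∣ x ^ p - (n : 𝓞 K) := by
  have hζ := IsCyclotomicExtension.zeta_spec p ℚ K
  obtain ⟨f, rfl⟩ := hζ.integralPowerBasis.exists_eq_aeval' x
  rw [hζ.integralPowerBasis_gen]
  induction f using Polynomial.induction_on' with
  | add f g hf hg =>
    rw [map_add]
    exact exists_int_sub_pow_dvd_add hf hg
  | monomial k a =>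
    refine ⟨a ^ p, 0, ?_⟩
    rw [← C_mul_X_pow_eq_monomial, map_mul, map_pow, aeval_X, aeval_C, mul_pow, ← pow_mul,
      mul_comm k p, pow_mul, hζ.toInteger_isPrimitiveRoot.pow_eq_one, one_pow, mul_one, mul_zero,
      sub_eq_zero]
    simp

/-- `p`-th powers in the ring of integers of the `p`-th cyclotomic field are congruent to
rational integers modulo `p`. -/
theorem exists_int_sub_pow_dvd (_hp2 : p ≠ 2) (x : 𝓞 K) :
    ∃ n : ℤ, (p : 𝓞 K) ∣ x ^ p - (n : 𝓞 K) :=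
  exists_int_sub_pow_dvd' x

/-- `λ = ζ - 1` divides `p` in the ring of integers of the `p`-th cyclotomic field. -/
theorem lambda_dvd_p {ζ : K} (hζ : IsPrimitiveRoot ζ p) : (hζ.toInteger - 1) ∣ (p : 𝓞 K) := by
  have h := IsCyclotomicExtension.Rat.zeta_sub_one_dvd_intCast_iff' (K := K) p hζ (n := (p : ℤ))
  have h2 : (hζ.toInteger - 1) ∣ ((p : ℤ) : 𝓞 K) := h.mpr dvd_rfl
  simpa using h2

/-- If `λ ∤ x` and `x ≡ n mod p` with `n` a rational integer, then `p ∤ n`. -/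
theorem not_dvd_int_of_not_lambda_dvd {ζ : K} (hζ : IsPrimitiveRoot ζ p) {x : 𝓞 K} {n : ℤ}
    (hx : ¬ (hζ.toInteger - 1) ∣ x) (h : (p : 𝓞 K) ∣ x - (n : 𝓞 K)) : ¬ (p : ℤ) ∣ n := by
  intro hn
  apply hx
  have h1 : (hζ.toInteger - 1) ∣ (n : 𝓞 K) :=
    (IsCyclotomicExtension.Rat.zeta_sub_one_dvd_intCast_iff' (K := K) p hζ).mpr hn
  have h2 : (hζ.toInteger - 1) ∣ x - (n : 𝓞 K) := (lambda_dvd_p hζ).trans h
  have := dvd_add h2 h1
  simpa using this

/-- If `λ ∤ x` and `x ^ p ≡ n mod p` with `n` a rational integer, then `p ∤ n`. -/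
theorem not_dvd_int_of_not_lambda_dvd_pow {ζ : K} (hζ : IsPrimitiveRoot ζ p) {x : 𝓞 K} {n : ℤ}
    (hx : ¬ (hζ.toInteger - 1) ∣ x) (h : (p : 𝓞 K) ∣ x ^ p - (n : 𝓞 K)) : ¬ (p : ℤ) ∣ n :=
  not_dvd_int_of_not_lambda_dvd hζ
    (fun hdvd => hx ((hζ.zeta_sub_one_prime').dvd_of_dvd_pow hdvd)) h

/-- A unit is not divisible by `λ`. -/
theorem not_lambda_dvd_unit {ζ : K} (hζ : IsPrimitiveRoot ζ p) (u : (𝓞 K)ˣ) :
    ¬ (hζ.toInteger - 1) ∣ (u : 𝓞 K) := fun h =>
  (hζ.zeta_sub_one_prime').not_isUnit (isUnit_of_dvd_unit h u.isUnit)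

/-- If a unit is congruent to the rational integer `n` modulo `p`, then `p ∤ n`. -/
theorem not_dvd_int_of_unit_congr {u : (𝓞 K)ˣ} {n : ℤ}
    (h : (p : 𝓞 K) ∣ (u : 𝓞 K) - (n : 𝓞 K)) : ¬ (p : ℤ) ∣ n :=
  not_dvd_int_of_not_lambda_dvd (IsCyclotomicExtension.zeta_spec p ℚ K)
    (not_lambda_dvd_unit _ u) h

end Fermat.Agent.S11
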