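import Mathlib
import Fermat.Agent.S11.Defs
import Fermat.Agent.S11.Glue
import Fermat.Agent.S11.CaseOne
import Fermat.Agent.S11.PID
import Fermat.Agent.S11.PowModP
import Fermat.Agent.S11.KummerLemma11
import Fermat.Agent.S11.CaseTwo.Defs
import Fermat.Agent.S11.CaseTwo.Local
import Fermat.Agent.S11.CaseTwo.Factor
import Fermat.Agent.S11.CaseTwo.DescentCore
import Fermat.Agent.S11.CaseTwo.OfInt

/-!
# Fermat's Last Theorem for exponent 11

Assembly of the classical proof: case 1 by Sophie Germain's theorem, case 2 by Kummer's descent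
in `ℤ[ζ₁₁]`, which is a principal ideal domain in which Kummer's lemma holds.
-/

set_option autoImplicit false

open NumberField

namespace Fermat.Agent.S11

/-- Case 2 of Fermat's Last Theorem for an odd prime `p` such that the ring of integers of the
`p`-th cyclotomic field is a principal ideal domain in which Kummer's lemma holds. -/
theorem flt11_caseTwo_of_pid_of_kummer {p : ℕ} [Fact p.Prime] (hp2 : p ≠ 2) (K : Type*) [Field K]
    [NumberField K] [IsCyclotomicExtension {p} ℚ K] [IsPrincipalIdealRing (𝓞 K)]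
    (hK : KummerLemmaHolds p K) {a b c : ℤ} (hab : IsCoprime a b) (hc : c ≠ 0)
    (hpc : (p : ℤ) ∣ c) (h : a ^ p + b ^ p = c ^ p) : False := by
  have hζ := IsCyclotomicExtension.zeta_spec p ℚ K
  obtain ⟨S⟩ := exists_KSol_of_int hζ hp2 hab hc hpc h
  refine Descent.false_of hζ (fun S => S.exists_normalized hζ hp2) (fun S hS => ?_) S
  exact Descent.descent_of hζ hp2 hK (fun x => exists_int_sub_pow_dvd' x) S
    (S.two_le_n hζ hp2 hS) (S.exists_factorization hζ hp2 hS)

/-- Fermat's Last Theorem for exponent `11` over `ℤ`. -/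
theorem flt_eleven : FermatLastTheoremWith ℤ 11 := by
  have : Fact (Nat.Prime 11) := ⟨by norm_num⟩
  refine flt_of_caseOne_of_caseTwo (by norm_num) (by norm_num)
    (fun h => caseOne (Or.inr (Or.inr (Or.inl rfl))) h) ?_
  intro a b c hab hc hpc h
  have : IsCyclotomicExtension {11} ℚ (CyclotomicField 11 ℚ) :=
    CyclotomicField.isCyclotomicExtension 11 ℚ
  have : IsPrincipalIdealRing (𝓞 (CyclotomicField 11 ℚ)) := eleven_pid (CyclotomicField 11 ℚ)
  exact flt11_caseTwo_of_pid_of_kummer (p := 11) (by norm_num) (CyclotomicField 11 ℚ)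
    (kummerLemma_eleven (CyclotomicField 11 ℚ)) hab hc hpc h

end Fermat.Agent.S11
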