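import Fermat.Agent.S11.KummerUnits
import Fermat.Agent.S11.Defs

/-!
# Kummer's lemma for `p = 13`

A unit of `ℤ[ζ_13]` congruent to a rational integer modulo `13` is a `13`-th power.
The proof is a finite computation: the logarithmic derivatives of the cyclotomic units
`ζ, 1 + ζ, …` in `𝔽_13[t]/(t^12)` are linearly independent over `𝔽_13`.
This file is generated from explicit certificates.
-/

set_option autoImplicit false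

open NumberField

namespace Fermat.Agent.S11

private lemma kum13_char : (13 : ZMod 13) = 0 := by
  have := ZMod.natCast_self 13
  exact_mod_cast this

private lemma kum13_charR : (13 : KumR 13) = 0 := by
  exact_mod_cast kumR_natCast_self 13

private lemma kum13_tpow : kumT 13 ^ 12 = 0 := kumT_pow 13

private lemma kum13_log_0 {K : Type*} [Field K] [NumberField K] [Fact (Nat.Prime 13)]
    [IsCyclotomicExtension {13} ℚ K] {ζ : K} (hζ : IsPrimitiveRoot ζ 13) :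
    Multiplicative.toAdd (kumLog hζ (kumZetaUnit hζ)) =
      kumT 13 + 12 * kumT 13 ^ 2 + kumT 13 ^ 3 + 12 * kumT 13 ^ 4 + kumT 13 ^ 5 + 12 * kumT 13 ^ 6 + kumT 13 ^ 7 + 12 * kumT 13 ^ 8 + kumT 13 ^ 9 + 12 * kumT 13 ^ 10 + kumT 13 ^ 11 := by
  apply kumLog_zeta
  linear_combination (1) * kum13_tpow +
    (kumT 13 ^ 2 + kumT 13 ^ 3 + kumT 13 ^ 4 + kumT 13 ^ 5 + kumT 13 ^ 6 + kumT 13 ^ 7 + kumT 13 ^ 8 + kumT 13 ^ 9 + kumT 13 ^ 10 + kumT 13 ^ 11) * kum13_charR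

private lemma kum13_log_1 {K : Type*} [Field K] [NumberField K] [Fact (Nat.Prime 13)]
    [IsCyclotomicExtension {13} ℚ K] {ζ : K} (hζ : IsPrimitiveRoot ζ 13) :
    Multiplicative.toAdd (kumLog hζ (kumEps hζ 2 (by norm_num))) =
      7 * kumT 13 + 3 * kumT 13 ^ 2 + 5 * kumT 13 ^ 3 + 4 * kumT 13 ^ 4 + 11 * kumT 13 ^ 5 + kumT 13 ^ 6 + 6 * kumT 13 ^ 7 + 10 * kumT 13 ^ 8 + 8 * kumT 13 ^ 9 + 9 * kumT 13 ^ 10 + 2 * kumT 13 ^ 11 := by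
  apply kumLog_eps
  simp only [Finset.sum_range_succ, Finset.sum_range_zero]
  push_cast
  linear_combination (2) * kum13_tpow +
    (kumT 13 + kumT 13 ^ 2 + kumT 13 ^ 3 + kumT 13 ^ 4 + 2 * kumT 13 ^ 5 + kumT 13 ^ 6 + kumT 13 ^ 7 + 2 * kumT 13 ^ 8 + 2 * kumT 13 ^ 9 + 2 * kumT 13 ^ 10 + kumT 13 ^ 11) * kum13_charR

private lemma kum13_log_2 {K : Type*} [Field K] [NumberField K] [Fact (Nat.Prime 13)]
    [IsCyclotomicExtension {13} ℚ K] {ζ : K} (hζ : IsPrimitiveRoot ζ 13) :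
    Multiplicative.toAdd (kumLog hζ (kumEps hζ 3 (by norm_num))) =
      kumT 13 + 4 * kumT 13 ^ 2 + 3 * kumT 13 ^ 4 + 10 * kumT 13 ^ 5 + 2 * kumT 13 ^ 6 + 12 * kumT 13 ^ 7 + 9 * kumT 13 ^ 8 + 10 * kumT 13 ^ 10 + 3 * kumT 13 ^ 11 := by
  apply kumLog_eps
  simp only [Finset.sum_range_succ, Finset.sum_range_zero]
  push_cast
  linear_combination (19 + 3 * kumT 13) * kum13_tpow +
    (kumT 13 ^ 2 + kumT 13 ^ 3 + kumT 13 ^ 4 + 3 * kumT 13 ^ 5 + 3 * kumT 13 ^ 6 + 4 * kumT 13 ^ 7 + 5 * kumT 13 ^ 8 + 3 * kumT 13 ^ 9 + 3 * kumT 13 ^ 10 + 3 * kumT 13 ^ 11) * kum13_charR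

private lemma kum13_log_3 {K : Type*} [Field K] [NumberField K] [Fact (Nat.Prime 13)]
    [IsCyclotomicExtension {13} ℚ K] {ζ : K} (hζ : IsPrimitiveRoot ζ 13) :
    Multiplicative.toAdd (kumLog hζ (kumEps hζ 4 (by norm_num))) =
      8 * kumT 13 + 3 * kumT 13 ^ 2 + 11 * kumT 13 ^ 3 + 11 * kumT 13 ^ 4 + kumT 13 ^ 5 + kumT 13 ^ 6 + 11 * kumT 13 ^ 7 + 5 * kumT 13 ^ 8 + 4 * kumT 13 ^ 9 + 9 * kumT 13 ^ 10 + 4 * kumT 13 ^ 11 := by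
  apply kumLog_eps
  simp only [Finset.sum_range_succ, Finset.sum_range_zero]
  push_cast
  linear_combination (64 + 25 * kumT 13 + 4 * kumT 13 ^ 2) * kum13_tpow +
    (2 * kumT 13 + 4 * kumT 13 ^ 2 + 7 * kumT 13 ^ 3 + 10 * kumT 13 ^ 4 + 9 * kumT 13 ^ 5 + 5 * kumT 13 ^ 6 + 5 * kumT 13 ^ 7 + 7 * kumT 13 ^ 8 + 7 * kumT 13 ^ 9 + 7 * kumT 13 ^ 10 + 7 * kumT 13 ^ 11) * kum13_charR

private lemma kum13_log_4 {K : Type*} [Field K] [NumberField K] [Fact (Nat.Prime 13)]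
    [IsCyclotomicExtension {13} ℚ K] {ζ : K} (hζ : IsPrimitiveRoot ζ 13) :
    Multiplicative.toAdd (kumLog hζ (kumEps hζ 5 (by norm_num))) =
      2 * kumT 13 + 12 * kumT 13 ^ 3 + 6 * kumT 13 ^ 4 + 2 * kumT 13 ^ 6 + 11 * kumT 13 ^ 7 + 4 * kumT 13 ^ 8 + 7 * kumT 13 ^ 9 + 3 * kumT 13 ^ 10 + 5 * kumT 13 ^ 11 := by
  apply kumLog_eps
  simp only [Finset.sum_range_succ, Finset.sum_range_zero]
  push_cast
  linear_combination (119 + 72 * kumT 13 + 28 * kumT 13 ^ 2 + 5 * kumT 13 ^ 3) * kum13_tpow +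
    (5 * kumT 13 ^ 3 + 12 * kumT 13 ^ 4 + 14 * kumT 13 ^ 5 + 10 * kumT 13 ^ 6 + 9 * kumT 13 ^ 7 + 12 * kumT 13 ^ 8 + 15 * kumT 13 ^ 9 + 14 * kumT 13 ^ 10 + 12 * kumT 13 ^ 11) * kum13_charR

private lemma kum13_log_5 {K : Type*} [Field K] [NumberField K] [Fact (Nat.Prime 13)]
    [IsCyclotomicExtension {13} ℚ K] {ζ : K} (hζ : IsPrimitiveRoot ζ 13) :
    Multiplicative.toAdd (kumLog hζ (kumEps hζ 6 (by norm_num))) =
      9 * kumT 13 + 8 * kumT 13 ^ 2 + 3 * kumT 13 ^ 3 + 8 * kumT 13 ^ 4 + 9 * kumT 13 ^ 5 + kumT 13 ^ 6 + 6 * kumT 13 ^ 7 + 7 * kumT 13 ^ 8 + 6 * kumT 13 ^ 9 + 7 * kumT 13 ^ 10 + 6 * kumT 13 ^ 11 := by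
  apply kumLog_eps
  simp only [Finset.sum_range_succ, Finset.sum_range_zero]
  push_cast
  linear_combination (368 + 268 * kumT 13 + 138 * kumT 13 ^ 2 + 43 * kumT 13 ^ 3 + 6 * kumT 13 ^ 4) * kum13_tpow +
    (3 * kumT 13 + 11 * kumT 13 ^ 2 + 21 * kumT 13 ^ 3 + 28 * kumT 13 ^ 4 + 31 * kumT 13 ^ 5 + 31 * kumT 13 ^ 6 + 29 * kumT 13 ^ 7 + 26 * kumT 13 ^ 8 + 26 * kumT 13 ^ 9 + 29 * kumT 13 ^ 10 + 31 * kumT 13 ^ 11) * kum13_charR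

/-- **Kummer's lemma** for `p = 13`. -/
theorem kummer_lemma_thirteen (K : Type*) [Field K] [NumberField K]
    [IsCyclotomicExtension {13} ℚ K]
    (x : (𝓞 K)ˣ) (hx : ∃ n : ℤ, ((13 : ℕ) : 𝓞 K) ∣ ((x : 𝓞 K) - n)) :
    ∃ v : (𝓞 K)ˣ, x = v ^ 13 := by
  have h13 := kum13_char
  have : Fact (Nat.Prime 13) := ⟨by norm_num⟩
  have hζ := IsCyclotomicExtension.zeta_spec 13 ℚ K
  refine kummer_of_indep (by norm_num) hζ (ι := Fin 6) (by simp)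
    ![kumZetaUnit hζ, kumEps hζ 2 (by norm_num), kumEps hζ 3 (by norm_num), kumEps hζ 4 (by norm_num), kumEps hζ 5 (by norm_num), kumEps hζ 6 (by norm_num)] ?_ x hx
  rw [Fintype.linearIndependent_iff]
  intro b hb
  simp only [Fin.sum_univ_six, Matrix.cons_val, kum13_log_0 hζ, kum13_log_1 hζ, kum13_log_2 hζ, kum13_log_3 hζ, kum13_log_4 hζ, kum13_log_5 hζ,
    kumC_smul] at hb
  have hc := kumT_coeff_eq_zero 13
    (fun i => [0, b 0 + 7 * b 1 + b 2 + 8 * b 3 + 2 * b 4 + 9 * b 5, 12 * b 0 + 3 * b 1 + 4 * b 2 + 3 * b 3 + 8 * b 5, b 0 + 5 * b 1 + 11 * b 3 + 12 * b 4 + 3 * b 5, 12 * b 0 + 4 * b 1 + 3 * b 2 + 11 * b 3 + 6 * b 4 + 8 * b 5, b 0 + 11 * b 1 + 10 * b 2 + b 3 + 9 * b 5, 12 * b 0 + b 1 + 2 * b 2 + b 3 + 2 * b 4 + b 5, b 0 + 6 * b 1 + 12 * b 2 + 11 * b 3 + 11 * b 4 + 6 * b 5, 12 * b 0 + 10 * b 1 + 9 * b 2 + 5 * b 3 + 4 * b 4 + 7 * b 5, b 0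 + 8 * b 1 + 4 * b 3 + 7 * b 4 + 6 * b 5, 12 * b 0 + 9 * b 1 + 10 * b 2 + 9 * b 3 + 3 * b 4 + 7 * b 5, b 0 + 2 * b 1 + 3 * b 2 + 4 * b 3 + 5 * b 4 + 6 * b 5].getD i 0) (by
    simp only [Finset.sum_range_succ, Finset.sum_range_zero, List.getD_cons_zero,
      List.getD_cons_succ, map_add, map_mul, map_zero, map_ofNat]
    linear_combination hb)
  have e1 := hc 1 (by norm_num)
  have e2 := hc 2 (by norm_num)
  have e4 := hc 4 (by norm_num)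
  have e6 := hc 6 (by norm_num)
  have e8 := hc 8 (by norm_num)
  have e10 := hc 10 (by norm_num)
  simp only [List.getD_cons_zero, List.getD_cons_succ] at e1 e2 e4 e6 e8 e10
  intro i
  fin_cases i
  · show b 0 = 0
    linear_combination (1 : ZMod 13) * e1 + (3 : ZMod 13) * e2 + (3 : ZMod 13) * e4 + (-4 : ZMod 13) * e6 + (-6 : ZMod 13) * e8 + (4 : ZMod 13) * e10 + (-4 * b 3 - 3 * b 5) * h13
  · show b 1 = 0
    linear_combination (-3 : ZMod 13) * e1 + (2 : ZMod 13) * e2 + (-3 : ZMod 13) * e4 + (-6 : ZMod 13) * e6 + (-2 : ZMod 13) * e8 + (6 : ZMod 13) * e10 + (3 * b 0 - 2 * b 2 + b 3 + 2 * b 4 + b 5) * h13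
  · show b 2 = 0
    linear_combination (-1 : ZMod 13) * e1 + (-1 : ZMod 13) * e2 + (2 : ZMod 13) * e4 + (4 : ZMod 13) * e6 + (-6 : ZMod 13) * e10 + (b 0 + 4 * b 1 + 4 * b 2 + 3 * b 3 + 3 * b 5) * h13
  · show b 3 = 0
    linear_combination (-6 : ZMod 13) * e1 + (-2 : ZMod 13) * e2 + (-4 : ZMod 13) * e4 + (-4 : ZMod 13) * e6 + (6 : ZMod 13) * e8 + (-2 : ZMod 13) * e10 + (6 * b 0 + 2 * b 1 + 7 * b 3 + 2 * b 4 + 6 * b 5) * h13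
  · show b 4 = 0
    linear_combination (4 : ZMod 13) * e1 + (2 : ZMod 13) * e2 + (2 : ZMod 13) * e4 + (-6 : ZMod 13) * e6 + (1 : ZMod 13) * e8 + (5 : ZMod 13) * e10 + (-4 * b 0 - 7 * b 1 - 5 * b 2 - 8 * b 3 - 2 * b 4 - 8 * b 5) * h13
  · show b 5 = 0
    linear_combination (4 : ZMod 13) * e1 + (1 : ZMod 13) * e2 + (2 : ZMod 13) * e4 + (-2 : ZMod 13) * e6 + (1 : ZMod 13) * e8 + (2 : ZMod 13) * e10 + (-4 * b 0 - 5 * b 1 - 3 * b 2 - 6 * b 3 - 2 * b 4 - 6 * b 5) * h13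

/-- **Kummer's lemma** for `p = 13`, in the packaged form `KummerLemmaHolds`. -/
theorem kummerLemma_thirteen (K : Type*) [Field K] [NumberField K]
    [IsCyclotomicExtension {13} ℚ K] : KummerLemmaHolds 13 K :=
  fun u n h => kummer_lemma_thirteen K u ⟨n, h⟩

end Fermat.Agent.S11
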