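import Fermat.Agent.S11.KummerUnits
import Fermat.Agent.S11.Defs

/-!
# Kummer's lemma for `p = 5`

A unit of `ℤ[ζ_5]` congruent to a rational integer modulo `5` is a `5`-th power.
The proof is a finite computation: the logarithmic derivatives of the cyclotomic units
`ζ, 1 + ζ, …` in `𝔽_5[t]/(t^4)` are linearly independent over `𝔽_5`.
This file is generated from explicit certificates.
-/

set_option autoImplicit false

open NumberField

namespace Fermat.Agent.S11

private lemma kum5_char : (5 : ZMod 5) = 0 := by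
  have := ZMod.natCast_self 5
  exact_mod_cast this

private lemma kum5_charR : (5 : KumR 5) = 0 := by
  exact_mod_cast kumR_natCast_self 5

private lemma kum5_tpow : kumT 5 ^ 4 = 0 := kumT_pow 5

private lemma kum5_log_0 {K : Type*} [Field K] [NumberField K] [Fact (Nat.Prime 5)]
    [IsCyclotomicExtension {5} ℚ K] {ζ : K} (hζ : IsPrimitiveRoot ζ 5) :
    Multiplicative.toAdd (kumLog hζ (kumZetaUnit hζ)) =
      kumT 5 + 4 * kumT 5 ^ 2 + kumT 5 ^ 3 := by
  apply kumLog_zeta
  linear_combination (1) * kum5_tpow +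
    (kumT 5 ^ 2 + kumT 5 ^ 3) * kum5_charR

private lemma kum5_log_1 {K : Type*} [Field K] [NumberField K] [Fact (Nat.Prime 5)]
    [IsCyclotomicExtension {5} ℚ K] {ζ : K} (hζ : IsPrimitiveRoot ζ 5) :
    Multiplicative.toAdd (kumLog hζ (kumEps hζ 2 (by norm_num))) =
      3 * kumT 5 + kumT 5 ^ 2 + 2 * kumT 5 ^ 3 := by
  apply kumLog_eps
  simp only [Finset.sum_range_succ, Finset.sum_range_zero]
  push_cast
  linear_combination (2) * kum5_tpow +
    (kumT 5 + kumT 5 ^ 2 + kumT 5 ^ 3) * kum5_charR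

/-- **Kummer's lemma** for `p = 5`. -/
theorem kummer_lemma_five (K : Type*) [Field K] [NumberField K]
    [IsCyclotomicExtension {5} ℚ K]
    (x : (𝓞 K)ˣ) (hx : ∃ n : ℤ, ((5 : ℕ) : 𝓞 K) ∣ ((x : 𝓞 K) - n)) :
    ∃ v : (𝓞 K)ˣ, x = v ^ 5 := by
  have h5 := kum5_char
  have : Fact (Nat.Prime 5) := ⟨by norm_num⟩
  have hζ := IsCyclotomicExtension.zeta_spec 5 ℚ K
  refine kummer_of_indep (by norm_num) hζ (ι := Fin 2) (by simp)
    ![kumZetaUnit hζ, kumEps hζ 2 (by norm_num)] ?_ x hx
  rw [Fintype.linearIndependent_iff]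
  intro b hb
  simp only [Fin.sum_univ_two, Matrix.cons_val, kum5_log_0 hζ, kum5_log_1 hζ,
    kumC_smul] at hb
  have hc := kumT_coeff_eq_zero 5
    (fun i => [0, b 0 + 3 * b 1, 4 * b 0 + b 1, b 0 + 2 * b 1].getD i 0) (by
    simp only [Finset.sum_range_succ, Finset.sum_range_zero, List.getD_cons_zero,
      List.getD_cons_succ, map_add, map_mul, map_zero, map_ofNat]
    linear_combination hb)
  have e1 := hc 1 (by norm_num)
  have e2 := hc 2 (by norm_num)
  simp only [List.getD_cons_zero, List.getD_cons_succ] at e1 e2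
  intro i
  fin_cases i
  · show b 0 = 0
    linear_combination (-1 : ZMod 5) * e1 + (-2 : ZMod 5) * e2 + (2 * b 0 + b 1) * h5
  · show b 1 = 0
    linear_combination (-1 : ZMod 5) * e1 + (-1 : ZMod 5) * e2 + (b 0 + b 1) * h5

/-- **Kummer's lemma** for `p = 5`, in the packaged form `KummerLemmaHolds`. -/
theorem kummerLemma_five (K : Type*) [Field K] [NumberField K]
    [IsCyclotomicExtension {5} ℚ K] : KummerLemmaHolds 5 K :=
  fun u n h => kummer_lemma_five K u ⟨n, h⟩

end Fermat.Agent.S11
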