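import Fermat.Agent.S11.KummerUnits
import Fermat.Agent.S11.Defs

/-!
# Kummer's lemma for `p = 7`

A unit of `ℤ[ζ_7]` congruent to a rational integer modulo `7` is a `7`-th power.
The proof is a finite computation: the logarithmic derivatives of the cyclotomic units
`ζ, 1 + ζ, …` in `𝔽_7[t]/(t^6)` are linearly independent over `𝔽_7`.
This file is generated from explicit certificates.
-/

set_option autoImplicit false

open NumberField

namespace Fermat.Agent.S11

private lemma kum7_char : (7 : ZMod 7) = 0 := by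
  have := ZMod.natCast_self 7
  exact_mod_cast this

private lemma kum7_charR : (7 : KumR 7) = 0 := by
  exact_mod_cast kumR_natCast_self 7

private lemma kum7_tpow : kumT 7 ^ 6 = 0 := kumT_pow 7

private lemma kum7_log_0 {K : Type*} [Field K] [NumberField K] [Fact (Nat.Prime 7)]
    [IsCyclotomicExtension {7} ℚ K] {ζ : K} (hζ : IsPrimitiveRoot ζ 7) :
    Multiplicative.toAdd (kumLog hζ (kumZetaUnit hζ)) =
      kumT 7 + 6 * kumT 7 ^ 2 + kumT 7 ^ 3 + 6 * kumT 7 ^ 4 + kumT 7 ^ 5 := by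
  apply kumLog_zeta
  linear_combination (1) * kum7_tpow +
    (kumT 7 ^ 2 + kumT 7 ^ 3 + kumT 7 ^ 4 + kumT 7 ^ 5) * kum7_charR

private lemma kum7_log_1 {K : Type*} [Field K] [NumberField K] [Fact (Nat.Prime 7)]
    [IsCyclotomicExtension {7} ℚ K] {ζ : K} (hζ : IsPrimitiveRoot ζ 7) :
    Multiplicative.toAdd (kumLog hζ (kumEps hζ 2 (by norm_num))) =
      4 * kumT 7 + 5 * kumT 7 ^ 2 + kumT 7 ^ 3 + 3 * kumT 7 ^ 4 + 2 * kumT 7 ^ 5 := by
  apply kumLog_eps
  simp only [Finset.sum_range_succ, Finset.sum_range_zero]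
  push_cast
  linear_combination (2) * kum7_tpow +
    (kumT 7 + 2 * kumT 7 ^ 2 + kumT 7 ^ 3 + kumT 7 ^ 4 + kumT 7 ^ 5) * kum7_charR

private lemma kum7_log_2 {K : Type*} [Field K] [NumberField K] [Fact (Nat.Prime 7)]
    [IsCyclotomicExtension {7} ℚ K] {ζ : K} (hζ : IsPrimitiveRoot ζ 7) :
    Multiplicative.toAdd (kumLog hζ (kumEps hζ 3 (by norm_num))) =
      kumT 7 + 2 * kumT 7 ^ 2 + 4 * kumT 7 ^ 4 + 3 * kumT 7 ^ 5 := by
  apply kumLog_eps
  simp only [Finset.sum_range_succ, Finset.sum_range_zero]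
  push_cast
  linear_combination (13 + 3 * kumT 7) * kum7_tpow +
    (kumT 7 ^ 2 + kumT 7 ^ 3 + 2 * kumT 7 ^ 4 + 3 * kumT 7 ^ 5) * kum7_charR

/-- **Kummer's lemma** for `p = 7`. -/
theorem kummer_lemma_seven (K : Type*) [Field K] [NumberField K]
    [IsCyclotomicExtension {7} ℚ K]
    (x : (𝓞 K)ˣ) (hx : ∃ n : ℤ, ((7 : ℕ) : 𝓞 K) ∣ ((x : 𝓞 K) - n)) :
    ∃ v : (𝓞 K)ˣ, x = v ^ 7 := by
  have h7 := kum7_char
  have : Fact (Nat.Prime 7) := ⟨by norm_num⟩
  have hζ := IsCyclotomicExtension.zeta_spec 7 ℚ K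
  refine kummer_of_indep (by norm_num) hζ (ι := Fin 3) (by simp)
    ![kumZetaUnit hζ, kumEps hζ 2 (by norm_num), kumEps hζ 3 (by norm_num)] ?_ x hx
  rw [Fintype.linearIndependent_iff]
  intro b hb
  simp only [Fin.sum_univ_three, Matrix.cons_val, kum7_log_0 hζ, kum7_log_1 hζ, kum7_log_2 hζ,
    kumC_smul] at hb
  have hc := kumT_coeff_eq_zero 7
    (fun i => [0, b 0 + 4 * b 1 + b 2, 6 * b 0 + 5 * b 1 + 2 * b 2, b 0 + b 1, 6 * b 0 + 3 * b 1 + 4 * b 2, b 0 + 2 * b 1 + 3 * b 2].getD i 0) (by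
    simp only [Finset.sum_range_succ, Finset.sum_range_zero, List.getD_cons_zero,
      List.getD_cons_succ, map_add, map_mul, map_zero, map_ofNat]
    linear_combination hb)
  have e1 := hc 1 (by norm_num)
  have e2 := hc 2 (by norm_num)
  have e4 := hc 4 (by norm_num)
  simp only [List.getD_cons_zero, List.getD_cons_succ] at e1 e2 e4
  intro i
  fin_cases i
  · show b 0 = 0
    linear_combination (-2 : ZMod 7) * e2 + (1 : ZMod 7) * e4 + (b 0 + b 1) * h7
  · show b 1 = 0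
    linear_combination (3 : ZMod 7) * e1 + (-3 : ZMod 7) * e2 + (-1 : ZMod 7) * e4 + (3 * b 0 + b 1 + b 2) * h7
  · show b 2 = 0
    linear_combination (3 : ZMod 7) * e1 + (3 : ZMod 7) * e4 + (-3 * b 0 - 3 * b 1 - 2 * b 2) * h7

/-- **Kummer's lemma** for `p = 7`, in the packaged form `KummerLemmaHolds`. -/
theorem kummerLemma_seven (K : Type*) [Field K] [NumberField K]
    [IsCyclotomicExtension {7} ℚ K] : KummerLemmaHolds 7 K :=
  fun u n h => kummer_lemma_seven K u ⟨n, h⟩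

end Fermat.Agent.S11
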