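import Mathlib

/-!
# Kummer's lemma, abstract part

If `Φ : (𝓞 K)ˣ →* Multiplicative V` is a homomorphism to an `𝔽_p`-vector space and
`rank K + 1` units have linearly independent images, then every unit killed by `Φ` is a
`p`-th power.
-/

set_option autoImplicit false

open NumberField NumberField.Units

namespace Fermat.Agent.S11

variable {K : Type*} [Field K]

/-- Additive version of a hom to `Multiplicative V`. -/
lemma kummerAbs_map_zpow {V : Type*} [AddCommGroup V] (Φ : (𝓞 K)ˣ →* Multiplicative V)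
    (x : (𝓞 K)ˣ) (n : ℤ) :
    Multiplicative.toAdd (Φ (x ^ n)) = n • Multiplicative.toAdd (Φ x) := by
  rw [map_zpow]; rfl

lemma kummerAbs_map_mul {V : Type*} [AddCommGroup V] (Φ : (𝓞 K)ˣ →* Multiplicative V)
    (x y : (𝓞 K)ˣ) :
    Multiplicative.toAdd (Φ (x * y)) =
      Multiplicative.toAdd (Φ x) + Multiplicative.toAdd (Φ y) := by
  rw [map_mul]; rfl

lemma kummerAbs_map_prod {V : Type*} [AddCommGroup V] (Φ : (𝓞 K)ˣ →* Multiplicative V)
    {ι : Type*} (s : Finset ι) (f : ι → (𝓞 K)ˣ) :
    Multiplicative.toAdd (Φ (∏ i ∈ s, f i)) =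
      ∑ i ∈ s, Multiplicative.toAdd (Φ (f i)) := by
  rw [map_prod]; rfl

/-- **Kummer's lemma, abstract form.** -/
theorem kummerAbs_exists_pow [NumberField K] (p : ℕ) [Fact p.Prime]
    {V : Type*} [AddCommGroup V] [Module (ZMod p) V]
    (Φ : (𝓞 K)ˣ →* Multiplicative V)
    {ι : Type*} [Fintype ι] (hι : Fintype.card ι = rank K + 1)
    (u : ι → (𝓞 K)ˣ)
    (hind : LinearIndependent (ZMod p) (fun i => Multiplicative.toAdd (Φ (u i))))
    (x : (𝓞 K)ˣ) (hx : Φ x = 1) : ∃ v : (𝓞 K)ˣ, x = v ^ p := by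
  classical
  -- generator of the torsion subgroup
  obtain ⟨τ, hτ⟩ := IsCyclic.exists_generator (α := torsion K)
  -- the generating family
  let g : Fin (rank K + 1) → (𝓞 K)ˣ := Fin.cons (τ : (𝓞 K)ˣ) (fundSystem K)
  let w : Fin (rank K + 1) → V := fun i => Multiplicative.toAdd (Φ (g i))
  -- every unit is a product of integer powers of the `g i`
  have hgen : ∀ y : (𝓞 K)ˣ, ∃ c : Fin (rank K + 1) → ℤ, y = ∏ i, g i ^ c i := by
    intro y
    obtain ⟨⟨ζ, e⟩, hy, -⟩ := exist_unique_eq_mul_prod K y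
    obtain ⟨k, hk⟩ : ∃ k : ℤ, τ ^ k = ζ := by
      have := hτ ζ
      rwa [Subgroup.mem_zpowers_iff] at this
    refine ⟨Fin.cons k e, ?_⟩
    rw [Fin.prod_univ_succ]
    simp only [g, Fin.cons_zero, Fin.cons_succ]
    rw [hy]
    congr 1
    rw [← hk]
    simp
  -- hence all images lie in the span of the `w i`
  have hspan : ∀ y : (𝓞 K)ˣ, Multiplicative.toAdd (Φ y) ∈
      Submodule.span (ZMod p) (Set.range w) := by
    intro y
    obtain ⟨c, rfl⟩ := hgen y
    rw [kummerAbs_map_prod]
    refine Submodule.sum_mem _ fun i _ => ?_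
    rw [kummerAbs_map_zpow]
    rw [← Int.cast_smul_eq_zsmul (ZMod p)]
    exact Submodule.smul_mem _ _ (Submodule.subset_span ⟨i, rfl⟩)
  -- so the `w i` are linearly independent
  have hw : LinearIndependent (ZMod p) w := by
    rw [linearIndependent_iff_card_eq_finrank_span]
    apply le_antisymm
    · -- the independent family `Φ ∘ u` lives in the span
      let W := Submodule.span (ZMod p) (Set.range w)
      have hfin : Module.Finite (ZMod p) W := FiniteDimensional.span_of_finite _ (Set.finite_range w)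
      let u' : ι → W := fun i => ⟨Multiplicative.toAdd (Φ (u i)), hspan (u i)⟩
      have hu' : LinearIndependent (ZMod p) u' := by
        apply LinearIndependent.of_comp W.subtype
        exact hind
      have := hu'.fintype_card_le_finrank
      rw [hι] at this
      simpa [Set.finrank] using this
    · exact finrank_range_le_card w
  -- decompose `x`
  obtain ⟨c, hc⟩ := hgen x
  have hsum : ∑ i, ((c i : ℤ) : ZMod p) • w i = 0 := by
    have h1 : Multiplicative.toAdd (Φ x) = 0 := by rw [hx]; rfl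
    rw [hc, kummerAbs_map_prod] at h1
    rw [← h1]
    refine Finset.sum_congr rfl fun i _ => ?_
    rw [kummerAbs_map_zpow, Int.cast_smul_eq_zsmul]
  have hzero := Fintype.linearIndependent_iff.mp hw (fun i => ((c i : ℤ) : ZMod p)) hsum
  have hdvd : ∀ i, (p : ℤ) ∣ c i := fun i =>
    (ZMod.intCast_zmod_eq_zero_iff_dvd (c i) p).mp (hzero i)
  choose d hd using hdvd
  refine ⟨∏ i, g i ^ d i, ?_⟩
  rw [hc, ← Finset.prod_pow]
  refine Finset.prod_congr rfl fun i _ => ?_
  rw [hd i, mul_comm, zpow_mul, zpow_natCast]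

end Fermat.Agent.S11
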