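import Mathlib

/-!
# Units of a number field modulo `n`-th powers are generated by `rank + 1` elements

Consequence of Mathlib's Dirichlet unit theorem (`NumberField.Units.exist_unique_eq_mul_prod`) and
the cyclicity of the torsion subgroup.

* `Fermat.Agent.S11.units_gen_mod_pow_general`: any number field, `m = rank K + 1` generators.
* `Fermat.Agent.S11.units_gen_mod_pow_cyclotomic`: `K = ℚ(ζ_p)`, `p` an odd prime,
  `(p - 1) / 2` generators.
* `Fermat.Agent.S11.units_gen_mod_pow_eleven` (and `_five`, `_seven`, `_thirteen`).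
-/

set_option autoImplicit false

open NumberField NumberField.Units

namespace Fermat.Agent.S11

/-- splitting an integer power into a small natural power times an `n`-th power. -/
theorem zpow_eq_pow_emod_mul_pow {G : Type*} [CommGroup G] (x : G) (a : ℤ) {n : ℕ} (hn : 0 < n) :
    x ^ a = x ^ (a % (n : ℤ)).toNat * (x ^ (a / (n : ℤ))) ^ n := by
  have hn' : (n : ℤ) ≠ 0 := by exact_mod_cast hn.ne'
  have h1 : 0 ≤ a % (n : ℤ) := Int.emod_nonneg a hn'
  have h2 : a = ((a % (n : ℤ)).toNat : ℤ) + (a / (n : ℤ)) * (n : ℤ) := by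
    rw [Int.toNat_of_nonneg h1]
    have := Int.emod_add_mul_ediv a (n : ℤ)
    rw [mul_comm] at this
    exact this.symm
  conv_lhs => rw [h2]
  rw [zpow_add, zpow_natCast, zpow_mul, zpow_natCast]

theorem units_gen_mod_pow_general (K : Type*) [Field K] [NumberField K] (m : ℕ)
    (hm : m = NumberField.Units.rank K + 1) (n : ℕ) (hn : 0 < n) :
    ∃ s : Fin m → (𝓞 K)ˣ, ∀ u : (𝓞 K)ˣ, ∃ (e : Fin m → ℕ) (v : (𝓞 K)ˣ),
      u = (∏ i, s i ^ e i) * v ^ n := by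
  subst hm
  obtain ⟨ω, hω⟩ := (inferInstance : IsCyclic (torsion K)).exists_generator
  refine ⟨Fin.cons (ω : (𝓞 K)ˣ) (fundSystem K), fun u => ?_⟩
  obtain ⟨⟨ζ, f⟩, hu, -⟩ := exist_unique_eq_mul_prod K u
  obtain ⟨a, ha⟩ := Subgroup.mem_zpowers_iff.mp (hω ζ)
  have hζ : (ζ : (𝓞 K)ˣ) = (ω : (𝓞 K)ˣ) ^ a := by
    rw [← ha]; simp
  refine ⟨Fin.cons (a % (n : ℤ)).toNat (fun i => (f i % (n : ℤ)).toNat),
    (ω : (𝓞 K)ˣ) ^ (a / (n : ℤ)) * ∏ i, (fundSystem K i) ^ (f i / (n : ℤ)), ?_⟩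
  rw [Fin.prod_univ_succ]
  simp only [Fin.cons_zero, Fin.cons_succ]
  rw [hu]
  simp only
  rw [hζ, zpow_eq_pow_emod_mul_pow (ω : (𝓞 K)ˣ) a hn, mul_pow, ← Finset.prod_pow]
  have hprod : ∏ i, (fundSystem K i) ^ (f i) =
      (∏ i, (fundSystem K i) ^ (f i % (n : ℤ)).toNat) *
        ∏ i, ((fundSystem K i) ^ (f i / (n : ℤ))) ^ n := by
    rw [← Finset.prod_mul_distrib]
    exact Finset.prod_congr rfl fun i _ => zpow_eq_pow_emod_mul_pow _ _ hn
  rw [hprod]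
  -- commutative monoid rearrangement
  simp only [mul_assoc, mul_left_comm]

theorem rank_cyclotomic (p : ℕ) [Fact p.Prime] (hp2 : p ≠ 2) (K : Type*) [Field K]
    [NumberField K] [IsCyclotomicExtension {p} ℚ K] :
    NumberField.Units.rank K + 1 = (p - 1) / 2 := by
  have hp : p.Prime := Fact.out
  have hp3 : 2 < p := lt_of_le_of_ne hp.two_le (Ne.symm hp2)
  have : NeZero p := ⟨hp.ne_zero⟩
  have h1 : InfinitePlace.nrRealPlaces K = 0 :=
    IsCyclotomicExtension.Rat.nrRealPlaces_eq_zero (n := p) K hp3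
  have h2 : InfinitePlace.nrComplexPlaces K = p.totient / 2 :=
    IsCyclotomicExtension.Rat.nrComplexPlaces_eq_totient_div_two (n := p) K
  have h3 : Fintype.card (InfinitePlace K) = (p - 1) / 2 := by
    rw [InfinitePlace.card_eq_nrRealPlaces_add_nrComplexPlaces, h1, h2, zero_add,
      Nat.totient_prime hp]
  have h4 : 0 < (p - 1) / 2 := by omega
  rw [NumberField.Units.rank, h3]
  omega

/-- For an odd prime `p`, the units of `ℚ(ζ_p)` are generated modulo `n`-th powers by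
`(p - 1) / 2` elements. -/
theorem units_gen_mod_pow_cyclotomic (p : ℕ) [Fact p.Prime] (hp2 : p ≠ 2) (K : Type*) [Field K]
    [NumberField K] [IsCyclotomicExtension {p} ℚ K] (n : ℕ) (hn : 0 < n) :
    ∃ s : Fin ((p - 1) / 2) → (𝓞 K)ˣ, ∀ u : (𝓞 K)ˣ, ∃ (e : Fin ((p - 1) / 2) → ℕ) (v : (𝓞 K)ˣ),
      u = (∏ i, s i ^ e i) * v ^ n :=
  units_gen_mod_pow_general K _ (rank_cyclotomic p hp2 K).symm n hn

theorem units_gen_mod_pow_five (K : Type*) [Field K] [NumberField K]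
    [IsCyclotomicExtension {5} ℚ K] :
    ∃ s : Fin 2 → (𝓞 K)ˣ, ∀ u : (𝓞 K)ˣ, ∃ (e : Fin 2 → ℕ) (v : (𝓞 K)ˣ),
      u = (∏ i, s i ^ e i) * v ^ 5 := by
  have : Fact (Nat.Prime 5) := ⟨by norm_num⟩
  exact units_gen_mod_pow_cyclotomic 5 (by norm_num) K 5 (by norm_num)

theorem units_gen_mod_pow_seven (K : Type*) [Field K] [NumberField K]
    [IsCyclotomicExtension {7} ℚ K] :
    ∃ s : Fin 3 → (𝓞 K)ˣ, ∀ u : (𝓞 K)ˣ, ∃ (e : Fin 3 → ℕ) (v : (𝓞 K)ˣ),
      u = (∏ i, s i ^ e i) * v ^ 7 := by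
  have : Fact (Nat.Prime 7) := ⟨by norm_num⟩
  exact units_gen_mod_pow_cyclotomic 7 (by norm_num) K 7 (by norm_num)

theorem units_gen_mod_pow_eleven (K : Type*) [Field K] [NumberField K]
    [IsCyclotomicExtension {11} ℚ K] :
    ∃ s : Fin 5 → (𝓞 K)ˣ, ∀ u : (𝓞 K)ˣ, ∃ (e : Fin 5 → ℕ) (v : (𝓞 K)ˣ),
      u = (∏ i, s i ^ e i) * v ^ 11 := by
  have : Fact (Nat.Prime 11) := ⟨by norm_num⟩
  exact units_gen_mod_pow_cyclotomic 11 (by norm_num) K 11 (by norm_num)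

theorem units_gen_mod_pow_thirteen (K : Type*) [Field K] [NumberField K]
    [IsCyclotomicExtension {13} ℚ K] :
    ∃ s : Fin 6 → (𝓞 K)ˣ, ∀ u : (𝓞 K)ˣ, ∃ (e : Fin 6 → ℕ) (v : (𝓞 K)ˣ),
      u = (∏ i, s i ^ e i) * v ^ 13 := by
  have : Fact (Nat.Prime 13) := ⟨by norm_num⟩
  exact units_gen_mod_pow_cyclotomic 13 (by norm_num) K 13 (by norm_num)

end Fermat.Agent.S11
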