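import Mathlib
import Fermat.Agent.S11.Defs
import Fermat.Agent.S11.UnitsGen

/-!
# Kummer's lemma from generation and independence of units modulo `p`-th powers (module C3)

Let `K` be the `p`-th cyclotomic field and `E = (𝓞 K)ˣ`.  Suppose that

* (C1) `E` is generated modulo `p`-th powers by `r` units, and
* (C2) there are `r` units `c i` such that `∏ i, c i ^ e i ≡ n (mod p)` for a rational integer
  `n` forces `p ∣ e i` for all `i`.

Then Kummer's lemma holds: a unit congruent to a rational integer modulo `p` is a `p`-th power.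

The proof is an index count: the units congruent to a rational integer modulo `p` form a subgroup
`R` containing the subgroup `E ^ p` of `p`-th powers; (C1) gives `[E : E ^ p] ≤ p ^ r` and (C2)
gives `[E : R] ≥ p ^ r`, hence `R = E ^ p`.

Main results:

* `exists_eq_pow_of_gen_of_indep`: the abstract group-theoretic index count;
* `isIntCongr_pow_prime`: in `𝓞 K` every `p`-th power is congruent to a rational integer mod `p`;
* `intCongrUnits`: the subgroup `R`;
* `kummerLemmaHolds_of_gen_of_indep`: Kummer's lemma from (C1) + (C2), arbitrary units `c i`;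
* `kummerLemmaHolds_of_cyclotomicUnits`: the same with `c = (ζ, 1 + ζ, 1 + ζ + ζ ^ 2, …)`;
* `kummerLemma_eleven_of_gen_of_indep`: the case `p = 11`, `r = 5` in the form of the interfaces
  of modules C1 and C2.
-/

set_option autoImplicit false

open NumberField

namespace Fermat.Agent.S11

section AbstractIndex

variable {E : Type*} [CommGroup E]

/-- Index counting: if `E` is generated modulo `p`-th powers by `r` elements, `R` is a subgroup
containing all `p`-th powers, and there are `r` elements of `E` which are independent modulo `R`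
(with exponents taken modulo `p`), then `R` consists of `p`-th powers. -/
theorem exists_eq_pow_of_gen_of_indep (p : ℕ) (hp : p.Prime) (r : ℕ)
    (R : Subgroup E) (hR : ∀ v : E, v ^ p ∈ R)
    (s : Fin r → E) (hs : ∀ u : E, ∃ (e : Fin r → ℕ) (v : E), u = (∏ i, s i ^ e i) * v ^ p)
    (c : Fin r → E) (hc : ∀ e : Fin r → ℕ, (∏ i, c i ^ e i) ∈ R → ∀ i, p ∣ e i)
    {u : E} (hu : u ∈ R) : ∃ v : E, u = v ^ p := by
  classical
  have : NeZero p := ⟨hp.ne_zero⟩
  set P : Subgroup E := (powMonoidHom p : E →* E).range with hP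
  have hPR : P ≤ R := by
    rintro _ ⟨v, rfl⟩
    exact hR v
  -- a surjection `(Fin r → Fin p) → E ⧸ P`
  let f : (Fin r → Fin p) → E ⧸ P := fun e => QuotientGroup.mk (∏ i, s i ^ (e i : ℕ))
  have hf : Function.Surjective f := by
    intro x
    obtain ⟨u, rfl⟩ := QuotientGroup.mk_surjective x
    obtain ⟨e, v, rfl⟩ := hs u
    refine ⟨fun i => ⟨e i % p, Nat.mod_lt _ hp.pos⟩, ?_⟩
    show (QuotientGroup.mk (∏ i, s i ^ (e i % p)) : E ⧸ P) = _
    rw [QuotientGroup.eq]
    refine ⟨(∏ i, s i ^ (e i / p)) * v, ?_⟩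
    have h1 : ∏ i, s i ^ e i = (∏ i, s i ^ (e i % p)) * (∏ i, s i ^ (e i / p)) ^ p := by
      rw [← Finset.prod_pow, ← Finset.prod_mul_distrib]
      refine Finset.prod_congr rfl fun i _ => ?_
      rw [← pow_mul, ← pow_add, mul_comm, Nat.mod_add_div]
    rw [h1, powMonoidHom_apply, mul_pow]
    group
  have hfinP : Finite (E ⧸ P) := Finite.of_surjective f hf
  have hPidx : P.index ≤ p ^ r := by
    rw [Subgroup.index_eq_card]
    refine (Nat.card_le_card_of_surjective f hf).trans ?_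
    simp
  have hPidx0 : P.index ≠ 0 := Subgroup.index_ne_zero_of_finite
  have : P.FiniteIndex := ⟨hPidx0⟩
  have : R.FiniteIndex := Subgroup.finiteIndex_of_le hPR
  -- an injection `(Fin r → Fin p) → E ⧸ R`
  let g : (Fin r → Fin p) → E ⧸ R := fun e => QuotientGroup.mk (∏ i, c i ^ (e i : ℕ))
  have hg : Function.Injective g := by
    intro e e' hee'
    have h1 : (∏ i, c i ^ (e i : ℕ))⁻¹ * (∏ i, c i ^ (e' i : ℕ)) ∈ R := QuotientGroup.eq.1 hee'
    have h2 : ∏ i, c i ^ ((e' i : ℕ) + (p - (e i : ℕ))) ∈ R := by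
      have h3 : ∏ i, c i ^ ((e' i : ℕ) + (p - (e i : ℕ)))
          = ((∏ i, c i ^ (e i : ℕ))⁻¹ * (∏ i, c i ^ (e' i : ℕ))) * (∏ i, c i) ^ p := by
        rw [← Finset.prod_pow, ← Finset.prod_inv_distrib, ← Finset.prod_mul_distrib,
          ← Finset.prod_mul_distrib]
        refine Finset.prod_congr rfl fun i _ => ?_
        rw [pow_add, pow_sub _ (e i).2.le]
        group
      rw [h3]
      exact R.mul_mem h1 (hR _)
    have h4 := hc _ h2
    funext i
    have h5 : ((e' i : ℕ) + (p - (e i : ℕ))) + (e i : ℕ) ≡ 0 + (e i : ℕ) [MOD p] :=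
      ((Nat.modEq_zero_iff_dvd).2 (h4 i)).add_right _
    have h6 : ((e' i : ℕ) + (p - (e i : ℕ))) + (e i : ℕ) = (e' i : ℕ) + p := by
      have := (e i).2
      omega
    rw [h6, zero_add] at h5
    have h7 : (e' i : ℕ) + p ≡ (e' i : ℕ) [MOD p] := Nat.add_mod_right _ _
    exact Fin.ext ((h7.symm.trans h5).eq_of_lt_of_lt (e' i).2 (e i).2).symm
  have hRidx : p ^ r ≤ R.index := by
    rw [Subgroup.index_eq_card]
    refine le_trans ?_ (Nat.card_le_card_of_injective g hg)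
    simp
  have hrel := Subgroup.relIndex_mul_index hPR
  have hrel1 : P.relIndex R = 1 := by
    have hpos : 0 < p ^ r := pow_pos hp.pos r
    have h0 : P.relIndex R ≠ 0 := fun h => hPidx0 (by rw [← hrel, h, zero_mul])
    have h1 : P.relIndex R * p ^ r ≤ 1 * p ^ r := by
      calc P.relIndex R * p ^ r ≤ P.relIndex R * R.index := Nat.mul_le_mul_left _ hRidx
        _ = P.index := hrel
        _ ≤ p ^ r := hPidx
        _ = 1 * p ^ r := (one_mul _).symm
    have h2 := Nat.le_of_mul_le_mul_right h1 hpos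
    omega
  obtain ⟨v, hv⟩ := Subgroup.relIndex_eq_one.1 hrel1 hu
  exact ⟨v, hv.symm⟩

end AbstractIndex

section IntCongr

variable (p : ℕ) (K : Type*) [Field K]

/-- The predicate "congruent to a rational integer modulo `p`" on `𝓞 K`. -/
def IsIntCongr (x : 𝓞 K) : Prop := ∃ n : ℤ, (p : 𝓞 K) ∣ x - (n : 𝓞 K)

variable {p K}

theorem IsIntCongr.one : IsIntCongr p K 1 := ⟨1, by simp⟩

theorem isIntCongr_intCast (m : ℤ) : IsIntCongr p K (m : 𝓞 K) := ⟨m, by simp⟩

theorem IsIntCongr.mul {x y : 𝓞 K} (hx : IsIntCongr p K x) (hy : IsIntCongr p K y) :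
    IsIntCongr p K (x * y) := by
  obtain ⟨n, hn⟩ := hx
  obtain ⟨m, hm⟩ := hy
  refine ⟨n * m, ?_⟩
  have : x * y - ((n * m : ℤ) : 𝓞 K) = (x - n) * y + n * (y - m) := by push_cast; ring
  rw [this]
  exact dvd_add (hn.mul_right _) (hm.mul_left _)

theorem IsIntCongr.add {x y : 𝓞 K} (hx : IsIntCongr p K x) (hy : IsIntCongr p K y) :
    IsIntCongr p K (x + y) := by
  obtain ⟨n, hn⟩ := hx
  obtain ⟨m, hm⟩ := hy
  refine ⟨n + m, ?_⟩
  have : x + y - ((n + m : ℤ) : 𝓞 K) = (x - n) + (y - m) := by push_cast; ring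
  rw [this]
  exact dvd_add hn hm

theorem IsIntCongr.pow {x : 𝓞 K} (hx : IsIntCongr p K x) (k : ℕ) :
    IsIntCongr p K (x ^ k) := by
  induction k with
  | zero => simpa using IsIntCongr.one
  | succ k ih => rw [pow_succ]; exact ih.mul hx

theorem IsIntCongr.of_dvd_sub {x y : 𝓞 K} (hx : IsIntCongr p K x) (h : (p : 𝓞 K) ∣ y - x) :
    IsIntCongr p K y := by
  obtain ⟨n, hn⟩ := hx
  refine ⟨n, ?_⟩
  have : y - (n : 𝓞 K) = (y - x) + (x - n) := by ring
  rw [this]
  exact dvd_add h hn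

end IntCongr

section NumberFieldPart

variable {p : ℕ} [hp : Fact p.Prime] {K : Type*} [Field K] [NumberField K]
  [IsCyclotomicExtension {p} ℚ K]

/-- In the ring of integers of the `p`-th cyclotomic field, every `p`-th power is congruent to a
rational integer modulo `p`. -/
theorem isIntCongr_pow_prime (x : 𝓞 K) : IsIntCongr p K (x ^ p) := by
  have : NeZero p := ⟨hp.out.ne_zero⟩
  have hζ := IsCyclotomicExtension.zeta_spec p ℚ K
  have htop := IsCyclotomicExtension.Rat.adjoin_singleton_eq_top hζ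
  have hx : x ∈ Algebra.adjoin ℤ {hζ.toInteger} := by rw [htop]; trivial
  induction hx using Algebra.adjoin_induction with
  | mem y hy =>
    rw [Set.mem_singleton_iff] at hy
    subst hy
    refine ⟨1, ?_⟩
    have : hζ.toInteger ^ p = 1 := hζ.toInteger_isPrimitiveRoot.pow_eq_one
    simp [this]
  | algebraMap m =>
    refine ⟨m ^ p, ?_⟩
    simp
  | add y z _ _ hy hz =>
    obtain ⟨r, hr⟩ := exists_add_pow_prime_eq hp.out y z
    refine (hy.add hz).of_dvd_sub ⟨y * z * r, ?_⟩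
    rw [hr]; ring
  | mul y z _ _ hy hz =>
    rw [mul_pow]
    exact hy.mul hz

/-- `p`-th powers in `𝓞 K` are congruent to rational integers modulo `p` (unfolded form). -/
theorem exists_int_dvd_pow_prime_sub (x : 𝓞 K) : ∃ n : ℤ, (p : 𝓞 K) ∣ x ^ p - (n : 𝓞 K) :=
  isIntCongr_pow_prime x

variable (p K)

/-- The subgroup of units congruent to a rational integer modulo `p`. -/
def intCongrUnits : Subgroup (𝓞 K)ˣ where
  carrier := {u | IsIntCongr p K (u : 𝓞 K)}
  one_mem' := IsIntCongr.one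
  mul_mem' := fun {a b} ha hb => by
    show IsIntCongr p K ((a * b : (𝓞 K)ˣ) : 𝓞 K)
    rw [Units.val_mul]
    exact IsIntCongr.mul ha hb
  inv_mem' := fun {a} ha => by
    show IsIntCongr p K ((a⁻¹ : (𝓞 K)ˣ) : 𝓞 K)
    have h1 : a⁻¹ = a ^ (p - 1) * (a⁻¹) ^ p := by
      have hp1 : p = (p - 1) + 1 := by have := hp.out.pos; omega
      have : (a⁻¹) ^ p = (a ^ (p - 1))⁻¹ * a⁻¹ := by
        conv_lhs => rw [hp1, pow_succ, inv_pow]
      rw [this, mul_inv_cancel_left]
    rw [h1, Units.val_mul, Units.val_pow_eq_pow_val, Units.val_pow_eq_pow_val]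
    exact (IsIntCongr.pow ha _).mul (isIntCongr_pow_prime _)

variable {p K}

theorem mem_intCongrUnits {u : (𝓞 K)ˣ} :
    u ∈ intCongrUnits p K ↔ ∃ n : ℤ, (p : 𝓞 K) ∣ (u : 𝓞 K) - (n : 𝓞 K) := Iff.rfl

theorem pow_prime_mem_intCongrUnits (v : (𝓞 K)ˣ) : v ^ p ∈ intCongrUnits p K := by
  show IsIntCongr p K ((v ^ p : (𝓞 K)ˣ) : 𝓞 K)
  rw [Units.val_pow_eq_pow_val]
  exact isIntCongr_pow_prime _

variable (p K)

/-- **Kummer's lemma from generation and independence.**  If the units of the `p`-th cyclotomic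
field are generated modulo `p`-th powers by `r` elements and there are `r` units that are
independent modulo the units congruent to a rational integer mod `p`, then every unit congruent to
a rational integer mod `p` is a `p`-th power. -/
theorem kummerLemmaHolds_of_gen_of_indep (r : ℕ)
    (C1 : ∃ s : Fin r → (𝓞 K)ˣ,
      ∀ u : (𝓞 K)ˣ, ∃ (e : Fin r → ℕ) (v : (𝓞 K)ˣ), u = (∏ i, s i ^ e i) * v ^ p)
    (c : Fin r → (𝓞 K)ˣ)
    (C2 : ∀ (e : Fin r → ℕ) (n : ℤ),
      (p : 𝓞 K) ∣ (((∏ i, c i ^ e i : (𝓞 K)ˣ)) : 𝓞 K) - (n : 𝓞 K) → ∀ i, p ∣ e i) :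
    KummerLemmaHolds p K := by
  obtain ⟨s, hs⟩ := C1
  intro u n hun
  exact exists_eq_pow_of_gen_of_indep p hp.out r (intCongrUnits p K)
    pow_prime_mem_intCongrUnits s hs c (fun e ⟨n, hn⟩ => C2 e n hn) ⟨n, hun⟩

/-- The cyclotomic units `ζ, 1 + ζ, 1 + ζ + ζ ^ 2, …, 1 + ζ + ⋯ + ζ ^ r`, as units of `𝓞 K`
(indexed by `Fin (r + 1)`, for `r + 1 < p`). -/
noncomputable def cyclotomicUnit {ζ : K} (hζ : IsPrimitiveRoot ζ p) (r : ℕ) (hr : r + 1 < p) :
    Fin (r + 1) → (𝓞 K)ˣ :=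
  have : NeZero p := ⟨hp.out.ne_zero⟩
  Fin.cons (hζ.toInteger_isPrimitiveRoot.isUnit hp.out.ne_zero).unit
    (fun k : Fin r => (hζ.toInteger_isPrimitiveRoot.geom_sum_isUnit hp.out.two_le
      (j := k.val + 2) (Nat.coprime_of_lt_prime (by omega) (by have := k.2; omega)
        hp.out).symm).unit)

omit [NumberField K] [IsCyclotomicExtension {p} ℚ K] in
theorem cyclotomicUnit_zero {ζ : K} (hζ : IsPrimitiveRoot ζ p) (r : ℕ) (hr : r + 1 < p) :
    ((cyclotomicUnit p K hζ r hr 0 : (𝓞 K)ˣ) : 𝓞 K) = hζ.toInteger := rfl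

omit [NumberField K] [IsCyclotomicExtension {p} ℚ K] in
theorem cyclotomicUnit_succ {ζ : K} (hζ : IsPrimitiveRoot ζ p) (r : ℕ) (hr : r + 1 < p)
    (k : Fin r) :
    ((cyclotomicUnit p K hζ r hr k.succ : (𝓞 K)ˣ) : 𝓞 K)
      = ∑ j ∈ Finset.range (k.val + 2), hζ.toInteger ^ j := rfl

omit [NumberField K] [IsCyclotomicExtension {p} ℚ K] in
theorem val_prod_cyclotomicUnit_pow {ζ : K} (hζ : IsPrimitiveRoot ζ p) (r : ℕ) (hr : r + 1 < p)
    (e : Fin (r + 1) → ℕ) :
    (((∏ i, cyclotomicUnit p K hζ r hr i ^ e i : (𝓞 K)ˣ)) : 𝓞 K)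
      = hζ.toInteger ^ e 0 *
        ∏ k : Fin r, (∑ j ∈ Finset.range (k.val + 2), hζ.toInteger ^ j) ^ e k.succ := by
  rw [Fin.prod_univ_succ, Units.val_mul, Units.val_pow_eq_pow_val, cyclotomicUnit_zero,
    Units.coe_prod]
  exact congrArg _ (Finset.prod_congr rfl fun k _ => by
    rw [Units.val_pow_eq_pow_val, cyclotomicUnit_succ])

/-- **Kummer's lemma from generation and independence of the cyclotomic units.**  Generic form of
the glue between modules C1 and C2 (with `r + 1 = (p - 1) / 2` in the application). -/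
theorem kummerLemmaHolds_of_cyclotomicUnits (r : ℕ) (hr : r + 1 < p)
    (C1 : ∃ s : Fin (r + 1) → (𝓞 K)ˣ,
      ∀ u : (𝓞 K)ˣ, ∃ (e : Fin (r + 1) → ℕ) (v : (𝓞 K)ˣ), u = (∏ i, s i ^ e i) * v ^ p)
    {ζ : K} (hζ : IsPrimitiveRoot ζ p)
    (C2 : ∀ (e : Fin (r + 1) → ℕ) (n : ℤ),
      (p : 𝓞 K) ∣ hζ.toInteger ^ e 0 *
        (∏ k : Fin r, (∑ j ∈ Finset.range (k.val + 2), hζ.toInteger ^ j) ^ e k.succ)
          - (n : 𝓞 K) → ∀ i, p ∣ e i) :
    KummerLemmaHolds p K :=
  kummerLemmaHolds_of_gen_of_indep p K (r + 1) C1 (cyclotomicUnit p K hζ r hr)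
    (fun e n h => C2 e n (by rwa [val_prod_cyclotomicUnit_pow] at h))

end NumberFieldPart

section Eleven

/-- **Kummer's lemma for `p = 11`** from the statements of modules C1 (the units are generated
modulo `11`-th powers by `5` elements) and C2 (independence of the cyclotomic units modulo `11`),
in exactly the form of their interfaces. -/
theorem kummerLemma_eleven_of_gen_of_indep (K : Type*) [Field K] [NumberField K]
    [IsCyclotomicExtension {11} ℚ K]
    (C1 : ∃ s : Fin 5 → (𝓞 K)ˣ,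
      ∀ u : (𝓞 K)ˣ, ∃ (e : Fin 5 → ℕ) (v : (𝓞 K)ˣ), u = (∏ i, s i ^ e i) * v ^ 11)
    (C2 : ∀ {ζ : K} (hζ : IsPrimitiveRoot ζ 11) (e : Fin 5 → ℕ) (n : ℤ),
      (11 : 𝓞 K) ∣ hζ.toInteger ^ e 0 *
        (∏ k : Fin 4, (∑ j ∈ Finset.range (k.val + 2), hζ.toInteger ^ j) ^ e k.succ)
          - (n : 𝓞 K) → ∀ i, 11 ∣ e i) :
    KummerLemmaHolds 11 K := by
  have : Fact (Nat.Prime 11) := ⟨by norm_num⟩
  have hζ := IsCyclotomicExtension.zeta_spec 11 ℚ K
  refine kummerLemmaHolds_of_cyclotomicUnits 11 K 4 (by norm_num) C1 hζ (fun e n h => ?_)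
  refine C2 hζ e n ?_
  rwa [Nat.cast_ofNat] at h

/-- **Kummer's lemma for `p = 11`**, assuming only the independence of the cyclotomic units
modulo `11` (module C2); the generation statement (module C1) is `units_gen_mod_pow_eleven`. -/
theorem kummerLemma_eleven_of_indep (K : Type*) [Field K] [NumberField K]
    [IsCyclotomicExtension {11} ℚ K]
    (C2 : ∀ {ζ : K} (hζ : IsPrimitiveRoot ζ 11) (e : Fin 5 → ℕ) (n : ℤ),
      (11 : 𝓞 K) ∣ hζ.toInteger ^ e 0 *
        (∏ k : Fin 4, (∑ j ∈ Finset.range (k.val + 2), hζ.toInteger ^ j) ^ e k.succ)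
          - (n : 𝓞 K) → ∀ i, 11 ∣ e i) :
    KummerLemmaHolds 11 K :=
  kummerLemma_eleven_of_gen_of_indep K (units_gen_mod_pow_eleven K) C2

end Eleven

section OtherPrimes

/-- Kummer's lemma for an odd prime `p` with `(p - 1) / 2 = r + 1`, assuming only the
independence of the cyclotomic units `ζ, 1 + ζ, …, 1 + ζ + ⋯ + ζ ^ r` modulo `p`. -/
theorem kummerLemmaHolds_of_cyclotomicUnits_indep (p : ℕ) [hp : Fact p.Prime] (hp2 : p ≠ 2)
    (K : Type*) [Field K] [NumberField K] [IsCyclotomicExtension {p} ℚ K]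
    (r : ℕ) (hr : (p - 1) / 2 = r + 1)
    {ζ : K} (hζ : IsPrimitiveRoot ζ p)
    (C2 : ∀ (e : Fin (r + 1) → ℕ) (n : ℤ),
      (p : 𝓞 K) ∣ hζ.toInteger ^ e 0 *
        (∏ k : Fin r, (∑ j ∈ Finset.range (k.val + 2), hζ.toInteger ^ j) ^ e k.succ)
          - (n : 𝓞 K) → ∀ i, p ∣ e i) :
    KummerLemmaHolds p K := by
  have hC1 := units_gen_mod_pow_cyclotomic p hp2 K p hp.out.pos
  rw [hr] at hC1
  exact kummerLemmaHolds_of_cyclotomicUnits p K r (by omega) hC1 hζ C2

/-- Kummer's lemma for `p = 5` from independence of `ζ, 1 + ζ` modulo `5`. -/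
theorem kummerLemma_five_of_indep (K : Type*) [Field K] [NumberField K]
    [IsCyclotomicExtension {5} ℚ K]
    (C2 : ∀ {ζ : K} (hζ : IsPrimitiveRoot ζ 5) (e : Fin 2 → ℕ) (n : ℤ),
      (5 : 𝓞 K) ∣ hζ.toInteger ^ e 0 *
        (∏ k : Fin 1, (∑ j ∈ Finset.range (k.val + 2), hζ.toInteger ^ j) ^ e k.succ)
          - (n : 𝓞 K) → ∀ i, 5 ∣ e i) :
    KummerLemmaHolds 5 K := by
  have : Fact (Nat.Prime 5) := ⟨by norm_num⟩
  have hζ := IsCyclotomicExtension.zeta_spec 5 ℚ K
  refine kummerLemmaHolds_of_cyclotomicUnits_indep 5 (by norm_num) K 1 (by norm_num) hζ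
    (fun e n h => C2 hζ e n ?_)
  rwa [Nat.cast_ofNat] at h

/-- Kummer's lemma for `p = 7` from independence of `ζ, 1 + ζ, 1 + ζ + ζ ^ 2` modulo `7`. -/
theorem kummerLemma_seven_of_indep (K : Type*) [Field K] [NumberField K]
    [IsCyclotomicExtension {7} ℚ K]
    (C2 : ∀ {ζ : K} (hζ : IsPrimitiveRoot ζ 7) (e : Fin 3 → ℕ) (n : ℤ),
      (7 : 𝓞 K) ∣ hζ.toInteger ^ e 0 *
        (∏ k : Fin 2, (∑ j ∈ Finset.range (k.val + 2), hζ.toInteger ^ j) ^ e k.succ)
          - (n : 𝓞 K) → ∀ i, 7 ∣ e i) :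
    KummerLemmaHolds 7 K := by
  have : Fact (Nat.Prime 7) := ⟨by norm_num⟩
  have hζ := IsCyclotomicExtension.zeta_spec 7 ℚ K
  refine kummerLemmaHolds_of_cyclotomicUnits_indep 7 (by norm_num) K 2 (by norm_num) hζ
    (fun e n h => C2 hζ e n ?_)
  rwa [Nat.cast_ofNat] at h

/-- Kummer's lemma for `p = 13` from independence of `ζ, 1 + ζ, …, 1 + ζ + ⋯ + ζ ^ 5`
modulo `13`. -/
theorem kummerLemma_thirteen_of_indep (K : Type*) [Field K] [NumberField K]
    [IsCyclotomicExtension {13} ℚ K]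
    (C2 : ∀ {ζ : K} (hζ : IsPrimitiveRoot ζ 13) (e : Fin 6 → ℕ) (n : ℤ),
      (13 : 𝓞 K) ∣ hζ.toInteger ^ e 0 *
        (∏ k : Fin 5, (∑ j ∈ Finset.range (k.val + 2), hζ.toInteger ^ j) ^ e k.succ)
          - (n : 𝓞 K) → ∀ i, 13 ∣ e i) :
    KummerLemmaHolds 13 K := by
  have : Fact (Nat.Prime 13) := ⟨by norm_num⟩
  have hζ := IsCyclotomicExtension.zeta_spec 13 ℚ K
  refine kummerLemmaHolds_of_cyclotomicUnits_indep 13 (by norm_num) K 5 (by norm_num) hζ
    (fun e n h => C2 hζ e n ?_)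
  rwa [Nat.cast_ofNat] at h

end OtherPrimes

end Fermat.Agent.S11
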