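import Mathlib

/-!
# Kummer's logarithmic derivative

For a prime `p` and a `p`-th cyclotomic field `K` we construct a group homomorphism
`kumLog : (𝓞 K)ˣ →* Multiplicative (𝔽_p[t]/(t^(p-1)))` which kills every unit congruent to a
rational integer modulo `p`.  It is the logarithmic derivative `u ↦ t u'(t) / u(t)` of the
reduction of `u` modulo `p`, where `ζ ↦ 1 + t`.
-/

set_option autoImplicit false

open Polynomial NumberField

noncomputable section

namespace Fermat.Agent.S11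

/-- The truncated polynomial ring `𝔽_p[t]/(t^(p-1))`. -/
abbrev KumR (p : ℕ) : Type := AdjoinRoot ((X : (ZMod p)[X]) ^ (p - 1))

/-- The variable `t` of `KumR p`. -/
def kumT (p : ℕ) : KumR p := AdjoinRoot.root _

lemma kumT_pow (p : ℕ) : kumT p ^ (p - 1) = 0 := by
  have h := AdjoinRoot.eval₂_root ((X : (ZMod p)[X]) ^ (p - 1))
  simpa [kumT] using h

lemma kumR_natCast_self (p : ℕ) : ((p : ℕ) : KumR p) = 0 := by
  have h : ((p : ℕ) : KumR p) = algebraMap (ZMod p) (KumR p) ((p : ℕ) : ZMod p) :=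
    (map_natCast (algebraMap (ZMod p) (KumR p)) p).symm
  rw [h, ZMod.natCast_self, map_zero]

/-- The powers `1, t, …, t^(p-2)` are linearly independent over `𝔽_p`. -/
lemma kumT_linearIndependent (p : ℕ) [Fact p.Prime] :
    LinearIndependent (ZMod p) (fun i : Fin (p - 1) => kumT p ^ (i : ℕ)) := by
  have hf : ((X : (ZMod p)[X]) ^ (p - 1)) ≠ 0 := pow_ne_zero _ X_ne_zero
  have hdeg : ((X : (ZMod p)[X]) ^ (p - 1)).natDegree = p - 1 := natDegree_X_pow _
  have hli := (AdjoinRoot.powerBasis hf).basis.linearIndependent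
  have hcomp : (fun i : Fin (p - 1) => kumT p ^ (i : ℕ)) =
      (fun i => (AdjoinRoot.powerBasis hf).basis i) ∘ (finCongr (by
        rw [AdjoinRoot.powerBasis_dim, hdeg] : p - 1 = (AdjoinRoot.powerBasis hf).dim)) := by
    funext i
    simp [kumT, PowerBasis.coe_basis, AdjoinRoot.powerBasis_gen]
  rw [hcomp]
  exact hli.comp _ (finCongr _).injective

/-- The structure map `𝔽_p → 𝔽_p[t]/(t^(p-1))`. -/
def kumC (p : ℕ) : ZMod p →+* KumR p := algebraMap (ZMod p) (KumR p)

lemma kumC_smul (p : ℕ) (b : ZMod p) (x : KumR p) : b • x = kumC p b * x :=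
  Algebra.smul_def b x

/-- Coefficient extraction: a vanishing `𝔽_p`-combination of `1, t, …, t^(p-2)` has zero
coefficients. -/
lemma kumT_coeff_eq_zero (p : ℕ) [Fact p.Prime] (c : ℕ → ZMod p)
    (h : ∑ i ∈ Finset.range (p - 1), kumC p (c i) * kumT p ^ i = 0) :
    ∀ i, i < p - 1 → c i = 0 := by
  have h' : ∑ i : Fin (p - 1), c (i : ℕ) • kumT p ^ (i : ℕ) = 0 := by
    rw [← h, Finset.sum_range fun i => kumC p (c i) * kumT p ^ i]
    refine Finset.sum_congr rfl fun i _ => ?_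
    rw [kumC_smul]
  intro i hi
  exact Fintype.linearIndependent_iff.mp (kumT_linearIndependent p) (fun i => c (i : ℕ)) h'
    ⟨i, hi⟩

/-- The ring of dual numbers over `KumR p`. -/
abbrev KumS (p : ℕ) : Type := DualNumber (KumR p)

/-- The image of `ζ`: `y = (1 + t) + t ε`. -/
def kumY (p : ℕ) : KumS p := TrivSqZeroExt.inl (1 + kumT p) + TrivSqZeroExt.inr (kumT p)

@[simp] lemma kumY_fst (p : ℕ) : (kumY p).fst = 1 + kumT p := by
  simp [kumY]

@[simp] lemma kumY_snd (p : ℕ) : (kumY p).snd = kumT p := by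
  simp [kumY]

/-- In characteristic `p`, `1 + y + ⋯ + y^(p-1) = (y - 1)^(p-1)`. -/
lemma kum_geom_sum_eq (p : ℕ) [Fact p.Prime] {S : Type*} [CommRing S] [Algebra (ZMod p) S]
    (y : S) : ∑ i ∈ Finset.range p, y ^ i = (y - 1) ^ (p - 1) := by
  have hp : p.Prime := Fact.out
  have key : (∑ i ∈ Finset.range p, (X : (ZMod p)[X]) ^ i) = (X - 1) ^ (p - 1) := by
    have h1 : (X - 1 : (ZMod p)[X]) ≠ 0 := by
      have := X_sub_C_ne_zero (1 : ZMod p)
      simpa using this
    apply mul_left_cancel₀ h1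
    rw [mul_comm, geom_sum_mul, ← pow_succ', Nat.sub_add_cancel hp.one_le, sub_pow_char, one_pow]
  have := congrArg (aeval y) key
  simpa using this

lemma kumY_geom_sum (p : ℕ) [Fact p.Prime] : ∑ i ∈ Finset.range p, kumY p ^ i = 0 := by
  have hp : p.Prime := Fact.out
  rw [kum_geom_sum_eq p (kumY p)]
  have h2 : 2 ≤ p := hp.two_le
  apply TrivSqZeroExt.ext
  · rw [TrivSqZeroExt.fst_pow]
    simp [kumT_pow]
  · rw [TrivSqZeroExt.snd_pow]
    have : (kumY p - 1).fst = kumT p := by simp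
    have h3 : (kumY p - 1).snd = kumT p := by simp
    rw [this, h3]
    have h4 : kumT p ^ (p - 1).pred • kumT p = kumT p ^ (p - 1) := by
      rw [smul_eq_mul, ← pow_succ]
      congr 1
      have : 1 ≤ p - 1 := by omega
      simp only [Nat.pred_eq_sub_one]
      omega
    rw [h4, kumT_pow]
    simp

variable {K : Type*} [Field K] [NumberField K]

lemma kum_minpoly_toInteger {p : ℕ} [Fact p.Prime] {ζ : K} (hζ : IsPrimitiveRoot ζ p) :
    minpoly ℤ hζ.toInteger = cyclotomic p ℤ := by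
  have hp : p.Prime := Fact.out
  have h1 : minpoly ℤ ((hζ.toInteger : 𝓞 K) : K) = minpoly ℤ hζ.toInteger :=
    RingOfIntegers.minpoly_coe _
  rw [← h1]
  exact (cyclotomic_eq_minpoly hζ hp.pos).symm

lemma kumY_aeval_minpoly {p : ℕ} [Fact p.Prime] [IsCyclotomicExtension {p} ℚ K] {ζ : K}
    (hζ : IsPrimitiveRoot ζ p) :
    aeval (kumY p) (minpoly ℤ hζ.integralPowerBasis.gen) = 0 := by
  rw [IsPrimitiveRoot.integralPowerBasis_gen, kum_minpoly_toInteger hζ,
    cyclotomic_prime ℤ p]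
  simp only [map_sum, map_pow, aeval_X]
  exact kumY_geom_sum p

/-- The reduction homomorphism `𝓞 K → 𝔽_p[t]/(t^(p-1))[ε]`, `ζ ↦ (1 + t) + t ε`. -/
def kumLift {p : ℕ} [Fact p.Prime] [IsCyclotomicExtension {p} ℚ K] {ζ : K}
    (hζ : IsPrimitiveRoot ζ p) : 𝓞 K →ₐ[ℤ] KumS p :=
  hζ.integralPowerBasis.lift (kumY p) (kumY_aeval_minpoly hζ)

lemma kumLift_zeta {p : ℕ} [Fact p.Prime] [IsCyclotomicExtension {p} ℚ K] {ζ : K}
    (hζ : IsPrimitiveRoot ζ p) : kumLift hζ hζ.toInteger = kumY p := by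
  have h := hζ.integralPowerBasis.lift_gen (kumY p) (kumY_aeval_minpoly hζ)
  have h2 : kumLift hζ hζ.toInteger = kumLift hζ hζ.integralPowerBasis.gen := by
    rw [IsPrimitiveRoot.integralPowerBasis_gen]
  rw [h2]
  exact h

lemma kumS_natCast_self (p : ℕ) : ((p : ℕ) : KumS p) = 0 := by
  have h : ((p : ℕ) : KumS p) = TrivSqZeroExt.inl ((p : ℕ) : KumR p) := by
    simp
  rw [h, kumR_natCast_self, TrivSqZeroExt.inl_zero]

/-- The logarithmic derivative on units of dual numbers. -/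
def kumDLog (R : Type*) [CommRing R] : (DualNumber R)ˣ →* Multiplicative R where
  toFun u := Multiplicative.ofAdd (((↑u⁻¹ : DualNumber R)).fst * ((u : DualNumber R)).snd)
  map_one' := by simp
  map_mul' u v := by
    have hu : ((↑u⁻¹ : DualNumber R)).fst * ((u : DualNumber R)).fst = 1 := by
      rw [← TrivSqZeroExt.fst_mul, Units.inv_mul, TrivSqZeroExt.fst_one]
    have hv : ((↑v⁻¹ : DualNumber R)).fst * ((v : DualNumber R)).fst = 1 := by
      rw [← TrivSqZeroExt.fst_mul, Units.inv_mul, TrivSqZeroExt.fst_one]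
    rw [← ofAdd_add]
    congr 1
    simp only [mul_inv_rev, Units.val_mul, TrivSqZeroExt.fst_mul, TrivSqZeroExt.snd_mul,
      smul_eq_mul, MulOpposite.smul_eq_mul_unop, MulOpposite.unop_op]
    linear_combination
      ((↑v⁻¹ : DualNumber R)).fst * ((v : DualNumber R)).snd * hu +
      ((↑u⁻¹ : DualNumber R)).fst * ((u : DualNumber R)).snd * hv

lemma kumDLog_apply (R : Type*) [CommRing R] (u : (DualNumber R)ˣ) :
    Multiplicative.toAdd (kumDLog R u) =
      ((↑u⁻¹ : DualNumber R)).fst * ((u : DualNumber R)).snd := rfl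

/-- If `r * w = m` where `r, m` are the components of the unit `u`, then `w` is the logarithmic
derivative of `u`. -/
lemma kumDLog_eq_of_mul_eq (R : Type*) [CommRing R] (u : (DualNumber R)ˣ) (w : R)
    (h : ((u : DualNumber R)).fst * w = ((u : DualNumber R)).snd) :
    Multiplicative.toAdd (kumDLog R u) = w := by
  have hu : ((↑u⁻¹ : DualNumber R)).fst * ((u : DualNumber R)).fst = 1 := by
    rw [← TrivSqZeroExt.fst_mul, Units.inv_mul, TrivSqZeroExt.fst_one]
  rw [kumDLog_apply, ← h, ← mul_assoc, hu, one_mul]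

/-- **Kummer's logarithmic derivative** on the units of `𝓞 K`. -/
def kumLog {p : ℕ} [Fact p.Prime] [IsCyclotomicExtension {p} ℚ K] {ζ : K}
    (hζ : IsPrimitiveRoot ζ p) : (𝓞 K)ˣ →* Multiplicative (KumR p) :=
  (kumDLog (KumR p)).comp (Units.map ((kumLift hζ : 𝓞 K →ₐ[ℤ] KumS p) : 𝓞 K →* KumS p))

lemma kumLog_eq_of_mul_eq {p : ℕ} [Fact p.Prime] [IsCyclotomicExtension {p} ℚ K] {ζ : K}
    (hζ : IsPrimitiveRoot ζ p) (u : (𝓞 K)ˣ) (w : KumR p)
    (h : (kumLift hζ (u : 𝓞 K)).fst * w = (kumLift hζ (u : 𝓞 K)).snd) :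
    Multiplicative.toAdd (kumLog hζ u) = w :=
  kumDLog_eq_of_mul_eq (KumR p) _ w h

/-- Units congruent to a rational integer modulo `p` are killed by `kumLog`. -/
lemma kumLog_eq_one_of_congr {p : ℕ} [Fact p.Prime] [IsCyclotomicExtension {p} ℚ K] {ζ : K}
    (hζ : IsPrimitiveRoot ζ p) (u : (𝓞 K)ˣ)
    (hu : ∃ n : ℤ, (p : 𝓞 K) ∣ ((u : 𝓞 K) - n)) : kumLog hζ u = 1 := by
  obtain ⟨n, w, hw⟩ := hu
  have hu' : (u : 𝓞 K) = n + p * w := by rw [← hw]; ring
  have h0 : (kumLift hζ (u : 𝓞 K)).snd = 0 := by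
    rw [hu', map_add, map_mul, map_natCast, map_intCast, kumS_natCast_self, zero_mul, add_zero]
    have : ((n : ℤ) : KumS p) = TrivSqZeroExt.inl ((n : ℤ) : KumR p) := by simp
    rw [this, TrivSqZeroExt.snd_inl]
  have : Multiplicative.toAdd (kumLog hζ u) = 0 :=
    kumLog_eq_of_mul_eq hζ u 0 (by rw [mul_zero, h0])
  exact this

end Fermat.Agent.S11
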