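import Mathlib

/-!
# Kummer's lemma for small primes: polynomial part

Working in `(ZMod p)[X]`: the logarithmic-derivative criterion.
If a product `∏ G i ^ a i` is congruent to a constant modulo `X ^ (p - 1)`, then
`X ^ (p - 2)` divides `∑ a i • (G i)' * ∏_{j ≠ i} G j`.
-/

set_option autoImplicit false

namespace Fermat.Agent.S11

open Polynomial

variable {p : ℕ} [hp : Fact p.Prime]

/-- Leibniz identity for the logarithmic derivative of a product of powers. -/
theorem kp_derivative_prod_pow_mul {R : Type} [CommRing R] {ι : Type} [Fintype ι] [DecidableEq ι]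
    (G : ι → R[X]) (a : ι → ℕ) :
    derivative (∏ i, G i ^ a i) * ∏ j, G j =
      (∏ i, G i ^ a i) *
        ∑ i, C (a i : R) * (derivative (G i) * ∏ j ∈ Finset.univ.erase i, G j) := by
  rw [derivative_prod_finset, Finset.sum_mul, Finset.mul_sum]
  refine Finset.sum_congr rfl fun i _ => ?_
  have h1 : ∏ j, G j = G i * ∏ j ∈ Finset.univ.erase i, G j :=
    (Finset.mul_prod_erase Finset.univ G (Finset.mem_univ i)).symm
  have h2 : ∏ j, G j ^ a j = G i ^ a i * ∏ j ∈ Finset.univ.erase i, G j ^ a j :=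
    (Finset.mul_prod_erase Finset.univ (fun j => G j ^ a j) (Finset.mem_univ i)).symm
  have h3 : C (a i : R) * G i ^ (a i - 1) * G i = C (a i : R) * G i ^ a i := by
    rcases Nat.eq_zero_or_pos (a i) with h0 | hpos
    · simp [h0]
    · rw [mul_assoc, ← pow_succ, Nat.sub_add_cancel hpos]
  rw [derivative_pow, h1, h2]
  have : (∏ j ∈ Finset.univ.erase i, G j ^ a j) *
      (C (a i : R) * G i ^ (a i - 1) * derivative (G i)) *
      (G i * ∏ j ∈ Finset.univ.erase i, G j) =
      (∏ j ∈ Finset.univ.erase i, G j ^ a j) * (C (a i : R) * G i ^ (a i - 1) * G i) *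
        (derivative (G i) * ∏ j ∈ Finset.univ.erase i, G j) := by ring
  rw [this, h3]
  ring

/-- If `f ≡ const mod X^(n+1)` then `X^n ∣ f'`. -/
theorem kp_X_pow_dvd_derivative {R : Type} [CommRing R] {f : R[X]} {c : R} {n : ℕ}
    (h : (X : R[X]) ^ (n + 1) ∣ f - C c) : (X : R[X]) ^ n ∣ derivative f := by
  obtain ⟨q, hq⟩ := h
  have hf : f = X ^ (n + 1) * q + C c := by rw [← hq]; ring
  rw [hf, derivative_add, derivative_C, add_zero, derivative_mul, derivative_X_pow]
  refine dvd_add ?_ ?_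
  · simp only [Nat.add_sub_cancel]
    exact Dvd.intro _ (by ring : X ^ n * (C ((n + 1 : ℕ) : R) * q) = C ((n + 1 : ℕ) : R) * X ^ n * q)
  · exact Dvd.intro (X * derivative q) (by ring)

/-- **Log-derivative criterion.** -/
theorem kp_X_pow_dvd_sum_of_prod_sub_const {ι : Type} [Fintype ι] [DecidableEq ι]
    (G : ι → (ZMod p)[X]) (hG : ∀ i, (G i).coeff 0 ≠ 0) (a : ι → ℕ) (c : ZMod p) (n : ℕ)
    (h : (X : (ZMod p)[X]) ^ (n + 1) ∣ ∏ i, G i ^ a i - C c) :
    (X : (ZMod p)[X]) ^ n ∣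
      ∑ i, C (a i : ZMod p) * (derivative (G i) * ∏ j ∈ Finset.univ.erase i, G j) := by
  have h1 : (X : (ZMod p)[X]) ^ n ∣ derivative (∏ i, G i ^ a i) := kp_X_pow_dvd_derivative h
  have h2 : (X : (ZMod p)[X]) ^ n ∣ (∏ i, G i ^ a i) *
      ∑ i, C (a i : ZMod p) * (derivative (G i) * ∏ j ∈ Finset.univ.erase i, G j) := by
    rw [← kp_derivative_prod_pow_mul]
    exact Dvd.dvd.mul_right h1 _
  have hF0 : (∏ i, G i ^ a i).coeff 0 ≠ 0 := by
    rw [coeff_zero_eq_eval_zero, eval_prod]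
    refine Finset.prod_ne_zero_iff.mpr fun i _ => ?_
    rw [eval_pow]
    refine pow_ne_zero _ ?_
    rw [← coeff_zero_eq_eval_zero]
    exact hG i
  have hcop : IsCoprime ((X : (ZMod p)[X]) ^ n) (∏ i, G i ^ a i) := by
    refine IsCoprime.pow_left ?_
    refine (Polynomial.irreducible_X.coprime_iff_not_dvd).mpr ?_
    rw [X_dvd_iff]
    exact hF0
  exact hcop.dvd_of_dvd_mul_left h2

end Fermat.Agent.S11
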