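import Mathlib
import Fermat.Agent.S11.KummerPoly

/-!
# Kummer's lemma for small primes: the reduction map `𝓞 K → 𝔽_p[X]/(X^(p-1))`

For `K = ℚ(ζ_p)` the ring `𝓞 K / p` is `𝔽_p[X]/(X^(p-1))` via `ζ ↦ X + 1`.  We construct the
reduction map `kred` and show that a congruence `∏ uᵢ^eᵢ ≡ n (mod p)` between cyclotomic units
becomes a divisibility statement in `𝔽_p[X]`.
-/

set_option autoImplicit false

namespace Fermat.Agent.S11

open Polynomial NumberField

section KA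

variable (p : ℕ) [hp : Fact p.Prime]

/-- The truncated polynomial ring `𝔽_p[X]/(X^(p-1))`, isomorphic to `ℤ[ζ_p]/(p)`. -/
abbrev KA : Type := (ZMod p)[X] ⧸ Ideal.span {(X : (ZMod p)[X]) ^ (p - 1)}

/-- The quotient map `𝔽_p[X] → 𝔽_p[X]/(X^(p-1))`. -/
noncomputable def kmk : (ZMod p)[X] →+* KA p := Ideal.Quotient.mk _

theorem kmk_eq_iff (f g : (ZMod p)[X]) :
    kmk p f = kmk p g ↔ (X : (ZMod p)[X]) ^ (p - 1) ∣ f - g := by
  unfold kmk
  rw [Ideal.Quotient.eq, Ideal.mem_span_singleton]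

theorem kmk_surjective : Function.Surjective (kmk p) := Ideal.Quotient.mk_surjective

/-- `Φ_p(X + 1) = X^(p-1)` in characteristic `p`. -/
theorem cyclotomic_comp_X_add_one_zmod :
    (cyclotomic p (ZMod p)).comp (X + 1) = X ^ (p - 1) := by
  have h1 : (cyclotomic p (ZMod p)).comp (X + 1) * X = X ^ (p - 1) * X := by
    have h2 : cyclotomic p (ZMod p) * (X - 1) = X ^ p - 1 := cyclotomic_prime_mul_X_sub_one _ p
    have h3 := congrArg (fun f => f.comp (X + 1 : (ZMod p)[X])) h2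
    simp only [mul_comp, sub_comp, X_comp, one_comp, pow_comp, add_sub_cancel_right] at h3
    rw [h3, add_pow_char, one_pow, add_sub_cancel_right, ← pow_succ,
      Nat.sub_add_cancel hp.out.one_le]
  exact mul_right_cancel₀ X_ne_zero h1

/-- The ring hom `ℤ[X] → 𝔽_p[X]/(X^(p-1))`, `f ↦ f(X + 1) mod p`. -/
noncomputable def kθ : ℤ[X] →+* KA p :=
  (kmk p).comp ((compRingHom (X + 1)).comp (mapRingHom (Int.castRingHom (ZMod p))))

theorem kθ_apply (f : ℤ[X]) :
    kθ p f = kmk p ((f.map (Int.castRingHom (ZMod p))).comp (X + 1)) := rfl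

theorem kθ_X : kθ p X = kmk p (X + 1) := by
  rw [kθ_apply, map_X, X_comp]

theorem aeval_kθ_X (f : ℤ[X]) : aeval (kθ p X) f = kθ p f := by
  have h : (aeval (kθ p X) : ℤ[X] →ₐ[ℤ] KA p).toRingHom = kθ p := by
    refine Polynomial.ringHom_ext (fun a => ?_) ?_
    · simp
    · simp
  exact congrArg (fun g : ℤ[X] →+* KA p => g f) h

theorem kθ_cyclotomic : kθ p (cyclotomic p ℤ) = 0 := by
  rw [kθ_apply, map_cyclotomic, cyclotomic_comp_X_add_one_zmod]
  have : kmk p (X ^ (p - 1)) = kmk p 0 := by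
    rw [kmk_eq_iff, sub_zero]
  rw [this, map_zero]

end KA

section Red

variable {p : ℕ} [hp : Fact p.Prime] {K : Type*} [Field K] [NumberField K]
  [IsCyclotomicExtension {p} ℚ K] {ζ : K}

theorem kred_hy [NeZero p] (hζ : IsPrimitiveRoot ζ p) :
    aeval (kθ p X) (minpoly ℤ hζ.integralPowerBasis.gen) = 0 := by
  have h1 : minpoly ℤ hζ.toInteger = cyclotomic p ℤ := by
    rw [cyclotomic_eq_minpoly hζ hp.out.pos, ← RingOfIntegers.minpoly_coe]
    rfl
  rw [IsPrimitiveRoot.integralPowerBasis_gen, aeval_kθ_X, h1]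
  exact kθ_cyclotomic p

/-- The reduction map `𝓞 K → 𝔽_p[X]/(X^(p-1))` sending `ζ ↦ X + 1`. -/
noncomputable def kred [NeZero p] (hζ : IsPrimitiveRoot ζ p) : 𝓞 K →ₐ[ℤ] KA p :=
  hζ.integralPowerBasis.lift (kθ p X) (kred_hy hζ)

theorem kred_aeval [NeZero p] (hζ : IsPrimitiveRoot ζ p) (f : ℤ[X]) :
    kred hζ (aeval hζ.toInteger f) = kθ p f := by
  have hgen : hζ.integralPowerBasis.gen = hζ.toInteger :=
    IsPrimitiveRoot.integralPowerBasis_gen _
  have h := hζ.integralPowerBasis.lift_aeval (kθ p X) (kred_hy hζ) f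
  rw [← hgen, ← aeval_kθ_X]
  exact h

theorem kred_zeta [NeZero p] (hζ : IsPrimitiveRoot ζ p) :
    kred hζ hζ.toInteger = kmk p (X + 1) := by
  have h := kred_aeval hζ X
  rw [aeval_X, kθ_X] at h
  exact h

theorem kred_natCast_p [NeZero p] (hζ : IsPrimitiveRoot ζ p) : kred hζ (p : 𝓞 K) = 0 := by
  have h0 : ((p : ℕ) : (ZMod p)[X]) = 0 := by
    rw [← C_eq_natCast, ZMod.natCast_self, C_0]
  rw [map_natCast, ← map_natCast (kmk p), h0, map_zero]

/-- If `p ∣ x - n` in `𝓞 K` then the reduction of `x` is the constant `n`. -/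
theorem kred_eq_of_dvd_sub [NeZero p] (hζ : IsPrimitiveRoot ζ p) {x : 𝓞 K} {n : ℤ}
    (h : (p : 𝓞 K) ∣ x - n) :
    kred hζ x = kmk p (C (n : ZMod p)) := by
  obtain ⟨y, hy⟩ := h
  have hx : x = n + p * y := by rw [← hy]; ring
  rw [hx, map_add, map_mul, kred_natCast_p, zero_mul, add_zero, map_intCast]
  simp

/-- **Reduction of a unit congruence to a polynomial divisibility.** -/
theorem kummer_dvd_of_dvd [NeZero p] (hζ : IsPrimitiveRoot ζ p) {r : ℕ} (e : Fin (r + 1) → ℕ)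
    (n : ℤ)
    (h : (p : 𝓞 K) ∣ hζ.toInteger ^ e 0 *
      (∏ k : Fin r, (∑ j ∈ Finset.range (k.val + 2), hζ.toInteger ^ j) ^ e k.succ) - (n : 𝓞 K)) :
    (X : (ZMod p)[X]) ^ (p - 1) ∣ (X + 1) ^ e 0 *
      (∏ k : Fin r, (∑ j ∈ Finset.range (k.val + 2), (X + 1) ^ j) ^ e k.succ) -
        C (n : ZMod p) := by
  have h1 := kred_eq_of_dvd_sub hζ h
  rw [← kmk_eq_iff, ← h1]
  simp only [map_mul, map_pow, map_prod, map_sum, kred_zeta, map_add, map_one]

end Red

end Fermat.Agent.S11
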