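import Fermat.Agent.S11.KummerAbstract
import Fermat.Agent.S11.KummerLog

/-!
# Kummer's lemma: cyclotomic units and assembly

Reduction of Kummer's lemma for a prime `p` to the linear independence over `𝔽_p` of the
logarithmic derivatives of `ζ, 1 + ζ, 1 + ζ + ζ², …`.
-/

set_option autoImplicit false

open Polynomial NumberField NumberField.Units

noncomputable section

namespace Fermat.Agent.S11

variable {K : Type*} [Field K] [NumberField K]

lemma kum_rank (p : ℕ) [Fact p.Prime] (hp2 : 2 < p) [IsCyclotomicExtension {p} ℚ K] :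
    rank K + 1 = (p - 1) / 2 := by
  have hp : p.Prime := Fact.out
  have h1 := InfinitePlace.card_eq_nrRealPlaces_add_nrComplexPlaces K
  rw [IsCyclotomicExtension.Rat.nrRealPlaces_eq_zero K hp2,
    IsCyclotomicExtension.Rat.nrComplexPlaces_eq_totient_div_two p K,
    Nat.totient_prime hp, zero_add] at h1
  rw [rank, h1]
  have : 1 ≤ (p - 1) / 2 := by omega
  omega

/-- `ζ` as a unit of `𝓞 K`. -/
def kumZetaUnit {p : ℕ} [Fact p.Prime] {ζ : K} (hζ : IsPrimitiveRoot ζ p) : (𝓞 K)ˣ :=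
  (hζ.toInteger_isPrimitiveRoot.isUnit (Fact.out : p.Prime).ne_zero).unit

@[simp] lemma kumZetaUnit_coe {p : ℕ} [Fact p.Prime] {ζ : K} (hζ : IsPrimitiveRoot ζ p) :
    ((kumZetaUnit hζ : (𝓞 K)ˣ) : 𝓞 K) = hζ.toInteger := rfl

/-- The cyclotomic unit `1 + ζ + ⋯ + ζ^(j-1)`, `0 < j < p`. -/
def kumEps {p : ℕ} [Fact p.Prime] {ζ : K} (hζ : IsPrimitiveRoot ζ p) (j : ℕ)
    (hj : j.Coprime p) : (𝓞 K)ˣ :=
  (hζ.toInteger_isPrimitiveRoot.geom_sum_isUnit (Fact.out : p.Prime).two_le hj).unit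

@[simp] lemma kumEps_coe {p : ℕ} [Fact p.Prime] {ζ : K} (hζ : IsPrimitiveRoot ζ p) (j : ℕ)
    (hj : j.Coprime p) :
    ((kumEps hζ j hj : (𝓞 K)ˣ) : 𝓞 K) = ∑ i ∈ Finset.range j, hζ.toInteger ^ i := rfl

lemma kumLift_eps {p : ℕ} [Fact p.Prime] [IsCyclotomicExtension {p} ℚ K] {ζ : K}
    (hζ : IsPrimitiveRoot ζ p) (j : ℕ) (hj : j.Coprime p) :
    kumLift hζ ((kumEps hζ j hj : (𝓞 K)ˣ) : 𝓞 K) = ∑ i ∈ Finset.range j, kumY p ^ i := by
  rw [kumEps_coe, map_sum]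
  refine Finset.sum_congr rfl fun i _ => ?_
  rw [map_pow, kumLift_zeta]

lemma kumY_pow_fst (p : ℕ) (i : ℕ) : (kumY p ^ i).fst = (1 + kumT p) ^ i := by
  rw [TrivSqZeroExt.fst_pow, kumY_fst]

lemma kumY_pow_snd (p : ℕ) (i : ℕ) :
    (kumY p ^ i).snd = (i : KumR p) * ((1 + kumT p) ^ (i - 1) * kumT p) := by
  rw [TrivSqZeroExt.snd_pow, kumY_fst, kumY_snd, Nat.pred_eq_sub_one, smul_eq_mul,
    nsmul_eq_mul]

lemma kumY_geom_fst (p : ℕ) (j : ℕ) :
    (∑ i ∈ Finset.range j, kumY p ^ i).fst = ∑ i ∈ Finset.range j, (1 + kumT p) ^ i := by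
  rw [TrivSqZeroExt.fst_sum]
  exact Finset.sum_congr rfl fun i _ => kumY_pow_fst p i

lemma kumY_geom_snd (p : ℕ) (j : ℕ) :
    (∑ i ∈ Finset.range j, kumY p ^ i).snd =
      ∑ i ∈ Finset.range j, (i : KumR p) * ((1 + kumT p) ^ (i - 1) * kumT p) := by
  rw [TrivSqZeroExt.snd_sum]
  exact Finset.sum_congr rfl fun i _ => kumY_pow_snd p i

/-- Certificate form for the logarithmic derivative of `ζ`. -/
lemma kumLog_zeta {p : ℕ} [Fact p.Prime] [IsCyclotomicExtension {p} ℚ K] {ζ : K}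
    (hζ : IsPrimitiveRoot ζ p) (w : KumR p)
    (h : (1 + kumT p) * w = kumT p) :
    Multiplicative.toAdd (kumLog hζ (kumZetaUnit hζ)) = w := by
  apply kumLog_eq_of_mul_eq
  rw [kumZetaUnit_coe, kumLift_zeta, kumY_fst, kumY_snd]
  exact h

/-- Certificate form for the logarithmic derivative of a cyclotomic unit. -/
lemma kumLog_eps {p : ℕ} [Fact p.Prime] [IsCyclotomicExtension {p} ℚ K] {ζ : K}
    (hζ : IsPrimitiveRoot ζ p) (j : ℕ) (hj : j.Coprime p) (w : KumR p)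
    (h : (∑ i ∈ Finset.range j, (1 + kumT p) ^ i) * w =
      ∑ i ∈ Finset.range j, (i : KumR p) * ((1 + kumT p) ^ (i - 1) * kumT p)) :
    Multiplicative.toAdd (kumLog hζ (kumEps hζ j hj)) = w := by
  apply kumLog_eq_of_mul_eq
  rw [kumLift_eps, kumY_geom_fst, kumY_geom_snd]
  exact h

/-- **Kummer's lemma** from linear independence of logarithmic derivatives. -/
theorem kummer_of_indep {p : ℕ} [Fact p.Prime] (hp2 : 2 < p) [IsCyclotomicExtension {p} ℚ K]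
    {ζ : K} (hζ : IsPrimitiveRoot ζ p)
    {ι : Type*} [Fintype ι] (hι : Fintype.card ι = (p - 1) / 2) (u : ι → (𝓞 K)ˣ)
    (hind : LinearIndependent (ZMod p) (fun i => Multiplicative.toAdd (kumLog hζ (u i))))
    (x : (𝓞 K)ˣ) (hx : ∃ n : ℤ, (p : 𝓞 K) ∣ ((x : 𝓞 K) - n)) : ∃ v : (𝓞 K)ˣ, x = v ^ p :=
  kummerAbs_exists_pow p (kumLog hζ) (hι.trans (kum_rank p hp2).symm) u hind x
    (kumLog_eq_one_of_congr hζ x hx)

end Fermat.Agent.S11
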