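import Mathlib
import Fermat.Agent.S11.KummerRed

/-!
# Independence of the cyclotomic units modulo `11` (module C2 of the FLT small exponent project)

If a product `ζ^e₀ * ∏ (1 + ζ + ⋯ + ζ^(k+1))^e_(k+1)` of cyclotomic units of `ℚ(ζ_11)` is
congruent to a rational integer modulo `11`, then `11` divides every exponent.
-/

set_option autoImplicit false

namespace Fermat.Agent.S11

open Polynomial NumberField

/-- The reductions of the cyclotomic units `ζ, 1 + ζ, …` in `𝔽_11[X]`, with `ζ ↦ X + 1`. -/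
noncomputable def kG_eleven : Fin 5 → (ZMod 11)[X] :=
  ![X + 1, X + 2, X ^ 2 + 3 * X + 3, X ^ 3 + 4 * X ^ 2 + 6 * X + 4, X ^ 4 + 5 * X ^ 3 + 10 * X ^ 2 + 10 * X + 5]

/-- The polynomials `Gᵢ' * ∏_(j ≠ i) Gⱼ`, expanded. -/
noncomputable def kg_eleven : Fin 5 → (ZMod 11)[X] :=
  ![X ^ 10 + 14 * X ^ 9 + 90 * X ^ 8 + 351 * X ^ 7 + 923 * X ^ 6 + 1717 * X ^ 5 + 2299 * X ^ 4 + 2200 * X ^ 3 + 1450 * X ^ 2 + 600 * X + 120,
    X ^ 10 + 13 * X ^ 9 + 78 * X ^ 8 + 285 * X ^ 7 + 704 * X ^ 6 + 1232 * X ^ 5 + 1552 * X ^ 4 + 1395 * X ^ 3 + 860 * X ^ 2 + 330 * X + 60,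
    2 * X ^ 10 + 27 * X ^ 9 + 166 * X ^ 8 + 615 * X ^ 7 + 1528 * X ^ 6 + 2673 * X ^ 5 + 3349 * X ^ 4 + 2980 * X ^ 3 + 1810 * X ^ 2 + 680 * X + 120,
    3 * X ^ 10 + 41 * X ^ 9 + 256 * X ^ 8 + 963 * X ^ 7 + 2422 * X ^ 6 + 4268 * X ^ 5 + 5356 * X ^ 4 + 4745 * X ^ 3 + 2850 * X ^ 2 + 1050 * X + 180,
    4 * X ^ 10 + 55 * X ^ 9 + 346 * X ^ 8 + 1314 * X ^ 7 + 3341 * X ^ 6 + 5950 * X ^ 5 + 7524 * X ^ 4 + 6676 * X ^ 3 + 3980 * X ^ 2 + 1440 * X + 240]

set_option linter.unusedSimpArgs false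
set_option linter.unnecessarySeqFocus false
set_option linter.unreachableTactic false
set_option linter.unusedTactic false

theorem kG_eleven_succ (k : Fin 4) :
    ∑ j ∈ Finset.range (k.val + 2), ((X : (ZMod 11)[X]) + 1) ^ j = kG_eleven k.succ := by
  fin_cases k <;> simp [kG_eleven, Finset.sum_range_succ] <;> ring

theorem kG_eleven_coeff_zero (i : Fin 5) : (kG_eleven i).coeff 0 ≠ 0 := by
  fin_cases i <;> simp [kG_eleven] <;> decide

theorem kg_eleven_0 : derivative (kG_eleven 0) * ∏ j ∈ Finset.univ.erase 0, kG_eleven j =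
    kg_eleven 0 := by
  have h : (Finset.univ.erase (0 : Fin 5)) = {1, 2, 3, 4} := by decide
  rw [h]
  simp [kG_eleven, kg_eleven, C_ofNat] <;> ring

theorem kg_eleven_1 : derivative (kG_eleven 1) * ∏ j ∈ Finset.univ.erase 1, kG_eleven j =
    kg_eleven 1 := by
  have h : (Finset.univ.erase (1 : Fin 5)) = {0, 2, 3, 4} := by decide
  rw [h]
  simp [kG_eleven, kg_eleven, C_ofNat] <;> ring

theorem kg_eleven_2 : derivative (kG_eleven 2) * ∏ j ∈ Finset.univ.erase 2, kG_eleven j =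
    kg_eleven 2 := by
  have h : (Finset.univ.erase (2 : Fin 5)) = {0, 1, 3, 4} := by decide
  rw [h]
  simp [kG_eleven, kg_eleven, C_ofNat] <;> ring

theorem kg_eleven_3 : derivative (kG_eleven 3) * ∏ j ∈ Finset.univ.erase 3, kG_eleven j =
    kg_eleven 3 := by
  have h : (Finset.univ.erase (3 : Fin 5)) = {0, 1, 2, 4} := by decide
  rw [h]
  simp [kG_eleven, kg_eleven, C_ofNat] <;> ring

theorem kg_eleven_4 : derivative (kG_eleven 4) * ∏ j ∈ Finset.univ.erase 4, kG_eleven j =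
    kg_eleven 4 := by
  have h : (Finset.univ.erase (4 : Fin 5)) = {0, 1, 2, 3} := by decide
  rw [h]
  simp [kG_eleven, kg_eleven, C_ofNat] <;> ring

theorem kg_eleven_0_coeff_0 : (kg_eleven 0).coeff 0 = 120 := by
  simp [kg_eleven, coeff_X, coeff_one, coeff_X_pow]

theorem kg_eleven_0_coeff_1 : (kg_eleven 0).coeff 1 = 600 := by
  simp [kg_eleven, coeff_X, coeff_one, coeff_X_pow]

theorem kg_eleven_0_coeff_3 : (kg_eleven 0).coeff 3 = 2200 := by
  simp [kg_eleven, coeff_X, coeff_one, coeff_X_pow]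

theorem kg_eleven_0_coeff_5 : (kg_eleven 0).coeff 5 = 1717 := by
  simp [kg_eleven, coeff_X, coeff_one, coeff_X_pow]

theorem kg_eleven_0_coeff_7 : (kg_eleven 0).coeff 7 = 351 := by
  simp [kg_eleven, coeff_X, coeff_one, coeff_X_pow]

theorem kg_eleven_1_coeff_0 : (kg_eleven 1).coeff 0 = 60 := by
  simp [kg_eleven, coeff_X, coeff_one, coeff_X_pow]

theorem kg_eleven_1_coeff_1 : (kg_eleven 1).coeff 1 = 330 := by
  simp [kg_eleven, coeff_X, coeff_one, coeff_X_pow]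

theorem kg_eleven_1_coeff_3 : (kg_eleven 1).coeff 3 = 1395 := by
  simp [kg_eleven, coeff_X, coeff_one, coeff_X_pow]

theorem kg_eleven_1_coeff_5 : (kg_eleven 1).coeff 5 = 1232 := by
  simp [kg_eleven, coeff_X, coeff_one, coeff_X_pow]

theorem kg_eleven_1_coeff_7 : (kg_eleven 1).coeff 7 = 285 := by
  simp [kg_eleven, coeff_X, coeff_one, coeff_X_pow]

theorem kg_eleven_2_coeff_0 : (kg_eleven 2).coeff 0 = 120 := by
  simp [kg_eleven, coeff_X, coeff_one, coeff_X_pow]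

theorem kg_eleven_2_coeff_1 : (kg_eleven 2).coeff 1 = 680 := by
  simp [kg_eleven, coeff_X, coeff_one, coeff_X_pow]

theorem kg_eleven_2_coeff_3 : (kg_eleven 2).coeff 3 = 2980 := by
  simp [kg_eleven, coeff_X, coeff_one, coeff_X_pow]

theorem kg_eleven_2_coeff_5 : (kg_eleven 2).coeff 5 = 2673 := by
  simp [kg_eleven, coeff_X, coeff_one, coeff_X_pow]

theorem kg_eleven_2_coeff_7 : (kg_eleven 2).coeff 7 = 615 := by
  simp [kg_eleven, coeff_X, coeff_one, coeff_X_pow]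

theorem kg_eleven_3_coeff_0 : (kg_eleven 3).coeff 0 = 180 := by
  simp [kg_eleven, coeff_X, coeff_one, coeff_X_pow]

theorem kg_eleven_3_coeff_1 : (kg_eleven 3).coeff 1 = 1050 := by
  simp [kg_eleven, coeff_X, coeff_one, coeff_X_pow]

theorem kg_eleven_3_coeff_3 : (kg_eleven 3).coeff 3 = 4745 := by
  simp [kg_eleven, coeff_X, coeff_one, coeff_X_pow]

theorem kg_eleven_3_coeff_5 : (kg_eleven 3).coeff 5 = 4268 := by
  simp [kg_eleven, coeff_X, coeff_one, coeff_X_pow]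

theorem kg_eleven_3_coeff_7 : (kg_eleven 3).coeff 7 = 963 := by
  simp [kg_eleven, coeff_X, coeff_one, coeff_X_pow]

theorem kg_eleven_4_coeff_0 : (kg_eleven 4).coeff 0 = 240 := by
  simp [kg_eleven, coeff_X, coeff_one, coeff_X_pow]

theorem kg_eleven_4_coeff_1 : (kg_eleven 4).coeff 1 = 1440 := by
  simp [kg_eleven, coeff_X, coeff_one, coeff_X_pow]

theorem kg_eleven_4_coeff_3 : (kg_eleven 4).coeff 3 = 6676 := by
  simp [kg_eleven, coeff_X, coeff_one, coeff_X_pow]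

theorem kg_eleven_4_coeff_5 : (kg_eleven 4).coeff 5 = 5950 := by
  simp [kg_eleven, coeff_X, coeff_one, coeff_X_pow]

theorem kg_eleven_4_coeff_7 : (kg_eleven 4).coeff 7 = 1314 := by
  simp [kg_eleven, coeff_X, coeff_one, coeff_X_pow]

theorem k_eleven_eq_zero : (11 : ZMod 11) = 0 := by decide

/-- The polynomial computation behind the independence of the cyclotomic units mod `11`. -/
theorem kummer_indep_poly_eleven (e : Fin 5 → ℕ) (c : ZMod 11)
    (h : (X : (ZMod 11)[X]) ^ 10 ∣ (X + 1) ^ e 0 *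
      (∏ k : Fin 4, (∑ j ∈ Finset.range (k.val + 2), (X + 1) ^ j) ^ e k.succ) - C c) :
    ∀ i, 11 ∣ e i := by
  have hpr : Fact (Nat.Prime 11) := ⟨by norm_num⟩
  have hprod : ((X : (ZMod 11)[X]) + 1) ^ e 0 *
      (∏ k : Fin 4, (∑ j ∈ Finset.range (k.val + 2), ((X : (ZMod 11)[X]) + 1) ^ j) ^ e k.succ) =
      ∏ i, kG_eleven i ^ e i := by
    rw [Fin.prod_univ_succ]
    simp only [kG_eleven_succ]
    rfl
  rw [hprod] at h
  have h1 := kp_X_pow_dvd_sum_of_prod_sub_const kG_eleven kG_eleven_coeff_zero e c 9 h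
  rw [Fin.sum_univ_five, kg_eleven_0, kg_eleven_1, kg_eleven_2, kg_eleven_3, kg_eleven_4, X_pow_dvd_iff] at h1
  have hp0 : (11 : ZMod 11) = 0 := k_eleven_eq_zero
  have hc0 := h1 0 (by norm_num)
  simp only [coeff_add, coeff_C_mul, kg_eleven_0_coeff_0, kg_eleven_1_coeff_0, kg_eleven_2_coeff_0, kg_eleven_3_coeff_0, kg_eleven_4_coeff_0] at hc0
  have hc1 := h1 1 (by norm_num)
  simp only [coeff_add, coeff_C_mul, kg_eleven_0_coeff_1, kg_eleven_1_coeff_1, kg_eleven_2_coeff_1, kg_eleven_3_coeff_1, kg_eleven_4_coeff_1] at hc1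
  have hc3 := h1 3 (by norm_num)
  simp only [coeff_add, coeff_C_mul, kg_eleven_0_coeff_3, kg_eleven_1_coeff_3, kg_eleven_2_coeff_3, kg_eleven_3_coeff_3, kg_eleven_4_coeff_3] at hc3
  have hc5 := h1 5 (by norm_num)
  simp only [coeff_add, coeff_C_mul, kg_eleven_0_coeff_5, kg_eleven_1_coeff_5, kg_eleven_2_coeff_5, kg_eleven_3_coeff_5, kg_eleven_4_coeff_5] at hc5
  have hc7 := h1 7 (by norm_num)
  simp only [coeff_add, coeff_C_mul, kg_eleven_0_coeff_7, kg_eleven_1_coeff_7, kg_eleven_2_coeff_7, kg_eleven_3_coeff_7, kg_eleven_4_coeff_7] at hc7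
  have he0 : (e 0 : ZMod 11) = 0 := by
    linear_combination (5) * hc1 + (10) * hc3 + (6) * hc5 + (2) * hc7 - (3273 * (e 0 : ZMod 11) + 2142 * (e 1 : ZMod 11) + 4588 * (e 2 : ZMod 11) + 7294 * (e 3 : ZMod 11) + 10208 * (e 4 : ZMod 11)) * hp0
  have he1 : (e 1 : ZMod 11) = 0 := by
    linear_combination (8) * hc0 + (3) * hc1 + (9) * hc3 + (10) * hc7 - (2370 * (e 0 : ZMod 11) + 1534 * (e 1 : ZMod 11) + 3270 * (e 2 : ZMod 11) + 5175 * (e 3 : ZMod 11) + 7224 * (e 4 : ZMod 11)) * hp0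
  have he2 : (e 2 : ZMod 11) = 0 := by
    linear_combination (1) * hc0 + (10) * hc1 + (5) * hc3 + (2) * hc5 + (6) * hc7 - (2060 * (e 0 : ZMod 11) + 1319 * (e 1 : ZMod 11) + 2805 * (e 2 : ZMod 11) + 4429 * (e 3 : ZMod 11) + 6164 * (e 4 : ZMod 11)) * hp0
  have he3 : (e 3 : ZMod 11) = 0 := by
    linear_combination (7) * hc0 + (8) * hc1 + (3) * hc3 + (10) * hc5 + (7) * hc7 - (2897 * (e 0 : ZMod 11) + 1960 * (e 1 : ZMod 11) + 4205 * (e 2 : ZMod 11) + 6665 * (e 3 : ZMod 11) + 9266 * (e 4 : ZMod 11)) * hp0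
  have he4 : (e 4 : ZMod 11) = 0 := by
    linear_combination (5) * hc1 + (10) * hc3 + (5) * hc5 + (2) * hc7 - (3117 * (e 0 : ZMod 11) + 2030 * (e 1 : ZMod 11) + 4345 * (e 2 : ZMod 11) + 6906 * (e 3 : ZMod 11) + 9667 * (e 4 : ZMod 11)) * hp0
  intro i
  rw [← ZMod.natCast_eq_zero_iff]
  fin_cases i
  · exact he0
  · exact he1
  · exact he2
  · exact he3
  · exact he4

/-- **Independence of the cyclotomic units modulo `11`** (module C2). -/
theorem cyclotomic_units_indep_eleven (K : Type*) [Field K] [NumberField K]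
    [IsCyclotomicExtension {11} ℚ K] {ζ : K} (hζ : IsPrimitiveRoot ζ 11) (e : Fin 5 → ℕ) (n : ℤ)
    (h : (11 : 𝓞 K) ∣ hζ.toInteger ^ e 0 *
      (∏ k : Fin 4, (∑ j ∈ Finset.range (k.val + 2), hζ.toInteger ^ j) ^ e k.succ) - (n : 𝓞 K)) :
    ∀ i, 11 ∣ e i := by
  have hpr : Fact (Nat.Prime 11) := ⟨by norm_num⟩
  have hcast : ((11 : ℕ) : 𝓞 K) = (11 : 𝓞 K) := by norm_num
  rw [← hcast] at h
  exact kummer_indep_poly_eleven e (n : ZMod 11) (kummer_dvd_of_dvd hζ e n h)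

end Fermat.Agent.S11
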