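import Mathlib
import Fermat.Agent.S11.KummerRed

/-!
# Independence of the cyclotomic units modulo `13` (module C2 of the FLT small exponent project)

If a product `ζ^e₀ * ∏ (1 + ζ + ⋯ + ζ^(k+1))^e_(k+1)` of cyclotomic units of `ℚ(ζ_13)` is
congruent to a rational integer modulo `13`, then `13` divides every exponent.
-/

set_option autoImplicit false

namespace Fermat.Agent.S11

open Polynomial NumberField

/-- The reductions of the cyclotomic units `ζ, 1 + ζ, …` in `𝔽_13[X]`, with `ζ ↦ X + 1`. -/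
noncomputable def kG_thirteen : Fin 6 → (ZMod 13)[X] :=
  ![X + 1, X + 2, X ^ 2 + 3 * X + 3, X ^ 3 + 4 * X ^ 2 + 6 * X + 4, X ^ 4 + 5 * X ^ 3 + 10 * X ^ 2 + 10 * X + 5, X ^ 5 + 6 * X ^ 4 + 15 * X ^ 3 + 20 * X ^ 2 + 15 * X + 6]

/-- The polynomials `Gᵢ' * ∏_(j ≠ i) Gⱼ`, expanded. -/
noncomputable def kg_thirteen : Fin 6 → (ZMod 13)[X] :=
  ![X ^ 15 + 20 * X ^ 14 + 189 * X ^ 13 + 1121 * X ^ 12 + 4674 * X ^ 11 + 14536 * X ^ 10 + 34900 * X ^ 9 + 66014 * X ^ 8 + 99426 * X ^ 7 + 119573 * X ^ 6 + 114257 * X ^ 5 + 85514 * X ^ 4 + 48750 * X ^ 3 + 20100 * X ^ 2 + 5400 * X + 720,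
    X ^ 15 + 19 * X ^ 14 + 171 * X ^ 13 + 968 * X ^ 12 + 3859 * X ^ 11 + 11492 * X ^ 10 + 26452 * X ^ 9 + 48010 * X ^ 8 + 69420 * X ^ 7 + 80159 * X ^ 6 + 73512 * X ^ 5 + 52747 * X ^ 4 + 28770 * X ^ 3 + 11310 * X ^ 2 + 2880 * X + 360,
    2 * X ^ 15 + 39 * X ^ 14 + 358 * X ^ 13 + 2056 * X ^ 12 + 8278 * X ^ 11 + 24803 * X ^ 10 + 57259 * X ^ 9 + 103950 * X ^ 8 + 149995 * X ^ 7 + 172483 * X ^ 6 + 157223 * X ^ 5 + 111914 * X ^ 4 + 60430 * X ^ 3 + 23460 * X ^ 2 + 5880 * X + 720,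
    3 * X ^ 15 + 59 * X ^ 14 + 547 * X ^ 13 + 3174 * X ^ 12 + 12905 * X ^ 11 + 38998 * X ^ 10 + 90640 * X ^ 9 + 165322 * X ^ 8 + 239128 * X ^ 7 + 274997 * X ^ 6 + 250078 * X ^ 5 + 177141 * X ^ 4 + 94920 * X ^ 3 + 36450 * X ^ 2 + 9000 * X + 1080,
    4 * X ^ 15 + 79 * X ^ 14 + 736 * X ^ 13 + 4295 * X ^ 12 + 17575 * X ^ 11 + 53475 * X ^ 10 + 125139 * X ^ 9 + 229676 * X ^ 8 + 333895 * X ^ 7 + 385236 * X ^ 6 + 350660 * X ^ 5 + 247924 * X ^ 4 + 132156 * X ^ 3 + 50280 * X ^ 2 + 12240 * X + 1440,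
    5 * X ^ 15 + 99 * X ^ 14 + 925 * X ^ 13 + 5416 * X ^ 12 + 22249 * X ^ 11 + 68006 * X ^ 10 + 159970 * X ^ 9 + 295254 * X ^ 8 + 431656 * X ^ 7 + 500545 * X ^ 6 + 457250 * X ^ 5 + 323615 * X ^ 4 + 172030 * X ^ 3 + 64950 * X ^ 2 + 15600 * X + 1800]

set_option linter.unusedSimpArgs false
set_option linter.unnecessarySeqFocus false
set_option linter.unreachableTactic false
set_option linter.unusedTactic false

theorem kG_thirteen_succ (k : Fin 5) :
    ∑ j ∈ Finset.range (k.val + 2), ((X : (ZMod 13)[X]) + 1) ^ j = kG_thirteen k.succ := by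
  fin_cases k <;> simp [kG_thirteen, Finset.sum_range_succ] <;> ring

theorem kG_thirteen_coeff_zero (i : Fin 6) : (kG_thirteen i).coeff 0 ≠ 0 := by
  fin_cases i <;> simp [kG_thirteen] <;> decide

theorem kg_thirteen_0 : derivative (kG_thirteen 0) * ∏ j ∈ Finset.univ.erase 0, kG_thirteen j =
    kg_thirteen 0 := by
  have h : (Finset.univ.erase (0 : Fin 6)) = {1, 2, 3, 4, 5} := by decide
  rw [h]
  simp [kG_thirteen, kg_thirteen, C_ofNat] <;> ring

theorem kg_thirteen_1 : derivative (kG_thirteen 1) * ∏ j ∈ Finset.univ.erase 1, kG_thirteen j =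
    kg_thirteen 1 := by
  have h : (Finset.univ.erase (1 : Fin 6)) = {0, 2, 3, 4, 5} := by decide
  rw [h]
  simp [kG_thirteen, kg_thirteen, C_ofNat] <;> ring

theorem kg_thirteen_2 : derivative (kG_thirteen 2) * ∏ j ∈ Finset.univ.erase 2, kG_thirteen j =
    kg_thirteen 2 := by
  have h : (Finset.univ.erase (2 : Fin 6)) = {0, 1, 3, 4, 5} := by decide
  rw [h]
  simp [kG_thirteen, kg_thirteen, C_ofNat] <;> ring

theorem kg_thirteen_3 : derivative (kG_thirteen 3) * ∏ j ∈ Finset.univ.erase 3, kG_thirteen j =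
    kg_thirteen 3 := by
  have h : (Finset.univ.erase (3 : Fin 6)) = {0, 1, 2, 4, 5} := by decide
  rw [h]
  simp [kG_thirteen, kg_thirteen, C_ofNat] <;> ring

theorem kg_thirteen_4 : derivative (kG_thirteen 4) * ∏ j ∈ Finset.univ.erase 4, kG_thirteen j =
    kg_thirteen 4 := by
  have h : (Finset.univ.erase (4 : Fin 6)) = {0, 1, 2, 3, 5} := by decide
  rw [h]
  simp [kG_thirteen, kg_thirteen, C_ofNat] <;> ring

theorem kg_thirteen_5 : derivative (kG_thirteen 5) * ∏ j ∈ Finset.univ.erase 5, kG_thirteen j =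
    kg_thirteen 5 := by
  have h : (Finset.univ.erase (5 : Fin 6)) = {0, 1, 2, 3, 4} := by decide
  rw [h]
  simp [kG_thirteen, kg_thirteen, C_ofNat] <;> ring

theorem kg_thirteen_0_coeff_0 : (kg_thirteen 0).coeff 0 = 720 := by
  simp [kg_thirteen, coeff_X, coeff_one, coeff_X_pow]

theorem kg_thirteen_0_coeff_1 : (kg_thirteen 0).coeff 1 = 5400 := by
  simp [kg_thirteen, coeff_X, coeff_one, coeff_X_pow]

theorem kg_thirteen_0_coeff_3 : (kg_thirteen 0).coeff 3 = 48750 := by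
  simp [kg_thirteen, coeff_X, coeff_one, coeff_X_pow]

theorem kg_thirteen_0_coeff_5 : (kg_thirteen 0).coeff 5 = 114257 := by
  simp [kg_thirteen, coeff_X, coeff_one, coeff_X_pow]

theorem kg_thirteen_0_coeff_7 : (kg_thirteen 0).coeff 7 = 99426 := by
  simp [kg_thirteen, coeff_X, coeff_one, coeff_X_pow]

theorem kg_thirteen_0_coeff_9 : (kg_thirteen 0).coeff 9 = 34900 := by
  simp [kg_thirteen, coeff_X, coeff_one, coeff_X_pow]

theorem kg_thirteen_1_coeff_0 : (kg_thirteen 1).coeff 0 = 360 := by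
  simp [kg_thirteen, coeff_X, coeff_one, coeff_X_pow]

theorem kg_thirteen_1_coeff_1 : (kg_thirteen 1).coeff 1 = 2880 := by
  simp [kg_thirteen, coeff_X, coeff_one, coeff_X_pow]

theorem kg_thirteen_1_coeff_3 : (kg_thirteen 1).coeff 3 = 28770 := by
  simp [kg_thirteen, coeff_X, coeff_one, coeff_X_pow]

theorem kg_thirteen_1_coeff_5 : (kg_thirteen 1).coeff 5 = 73512 := by
  simp [kg_thirteen, coeff_X, coeff_one, coeff_X_pow]

theorem kg_thirteen_1_coeff_7 : (kg_thirteen 1).coeff 7 = 69420 := by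
  simp [kg_thirteen, coeff_X, coeff_one, coeff_X_pow]

theorem kg_thirteen_1_coeff_9 : (kg_thirteen 1).coeff 9 = 26452 := by
  simp [kg_thirteen, coeff_X, coeff_one, coeff_X_pow]

theorem kg_thirteen_2_coeff_0 : (kg_thirteen 2).coeff 0 = 720 := by
  simp [kg_thirteen, coeff_X, coeff_one, coeff_X_pow]

theorem kg_thirteen_2_coeff_1 : (kg_thirteen 2).coeff 1 = 5880 := by
  simp [kg_thirteen, coeff_X, coeff_one, coeff_X_pow]

theorem kg_thirteen_2_coeff_3 : (kg_thirteen 2).coeff 3 = 60430 := by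
  simp [kg_thirteen, coeff_X, coeff_one, coeff_X_pow]

theorem kg_thirteen_2_coeff_5 : (kg_thirteen 2).coeff 5 = 157223 := by
  simp [kg_thirteen, coeff_X, coeff_one, coeff_X_pow]

theorem kg_thirteen_2_coeff_7 : (kg_thirteen 2).coeff 7 = 149995 := by
  simp [kg_thirteen, coeff_X, coeff_one, coeff_X_pow]

theorem kg_thirteen_2_coeff_9 : (kg_thirteen 2).coeff 9 = 57259 := by
  simp [kg_thirteen, coeff_X, coeff_one, coeff_X_pow]

theorem kg_thirteen_3_coeff_0 : (kg_thirteen 3).coeff 0 = 1080 := by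
  simp [kg_thirteen, coeff_X, coeff_one, coeff_X_pow]

theorem kg_thirteen_3_coeff_1 : (kg_thirteen 3).coeff 1 = 9000 := by
  simp [kg_thirteen, coeff_X, coeff_one, coeff_X_pow]

theorem kg_thirteen_3_coeff_3 : (kg_thirteen 3).coeff 3 = 94920 := by
  simp [kg_thirteen, coeff_X, coeff_one, coeff_X_pow]

theorem kg_thirteen_3_coeff_5 : (kg_thirteen 3).coeff 5 = 250078 := by
  simp [kg_thirteen, coeff_X, coeff_one, coeff_X_pow]

theorem kg_thirteen_3_coeff_7 : (kg_thirteen 3).coeff 7 = 239128 := by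
  simp [kg_thirteen, coeff_X, coeff_one, coeff_X_pow]

theorem kg_thirteen_3_coeff_9 : (kg_thirteen 3).coeff 9 = 90640 := by
  simp [kg_thirteen, coeff_X, coeff_one, coeff_X_pow]

theorem kg_thirteen_4_coeff_0 : (kg_thirteen 4).coeff 0 = 1440 := by
  simp [kg_thirteen, coeff_X, coeff_one, coeff_X_pow]

theorem kg_thirteen_4_coeff_1 : (kg_thirteen 4).coeff 1 = 12240 := by
  simp [kg_thirteen, coeff_X, coeff_one, coeff_X_pow]

theorem kg_thirteen_4_coeff_3 : (kg_thirteen 4).coeff 3 = 132156 := by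
  simp [kg_thirteen, coeff_X, coeff_one, coeff_X_pow]

theorem kg_thirteen_4_coeff_5 : (kg_thirteen 4).coeff 5 = 350660 := by
  simp [kg_thirteen, coeff_X, coeff_one, coeff_X_pow]

theorem kg_thirteen_4_coeff_7 : (kg_thirteen 4).coeff 7 = 333895 := by
  simp [kg_thirteen, coeff_X, coeff_one, coeff_X_pow]

theorem kg_thirteen_4_coeff_9 : (kg_thirteen 4).coeff 9 = 125139 := by
  simp [kg_thirteen, coeff_X, coeff_one, coeff_X_pow]

theorem kg_thirteen_5_coeff_0 : (kg_thirteen 5).coeff 0 = 1800 := by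
  simp [kg_thirteen, coeff_X, coeff_one, coeff_X_pow]

theorem kg_thirteen_5_coeff_1 : (kg_thirteen 5).coeff 1 = 15600 := by
  simp [kg_thirteen, coeff_X, coeff_one, coeff_X_pow]

theorem kg_thirteen_5_coeff_3 : (kg_thirteen 5).coeff 3 = 172030 := by
  simp [kg_thirteen, coeff_X, coeff_one, coeff_X_pow]

theorem kg_thirteen_5_coeff_5 : (kg_thirteen 5).coeff 5 = 457250 := by
  simp [kg_thirteen, coeff_X, coeff_one, coeff_X_pow]

theorem kg_thirteen_5_coeff_7 : (kg_thirteen 5).coeff 7 = 431656 := by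
  simp [kg_thirteen, coeff_X, coeff_one, coeff_X_pow]

theorem kg_thirteen_5_coeff_9 : (kg_thirteen 5).coeff 9 = 159970 := by
  simp [kg_thirteen, coeff_X, coeff_one, coeff_X_pow]

theorem k_thirteen_eq_zero : (13 : ZMod 13) = 0 := by decide

/-- The polynomial computation behind the independence of the cyclotomic units mod `13`. -/
theorem kummer_indep_poly_thirteen (e : Fin 6 → ℕ) (c : ZMod 13)
    (h : (X : (ZMod 13)[X]) ^ 12 ∣ (X + 1) ^ e 0 *
      (∏ k : Fin 5, (∑ j ∈ Finset.range (k.val + 2), (X + 1) ^ j) ^ e k.succ) - C c) :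
    ∀ i, 13 ∣ e i := by
  have hpr : Fact (Nat.Prime 13) := ⟨by norm_num⟩
  have hprod : ((X : (ZMod 13)[X]) + 1) ^ e 0 *
      (∏ k : Fin 5, (∑ j ∈ Finset.range (k.val + 2), ((X : (ZMod 13)[X]) + 1) ^ j) ^ e k.succ) =
      ∏ i, kG_thirteen i ^ e i := by
    rw [Fin.prod_univ_succ]
    simp only [kG_thirteen_succ]
    rfl
  rw [hprod] at h
  have h1 := kp_X_pow_dvd_sum_of_prod_sub_const kG_thirteen kG_thirteen_coeff_zero e c 11 h
  rw [Fin.sum_univ_six, kg_thirteen_0, kg_thirteen_1, kg_thirteen_2, kg_thirteen_3, kg_thirteen_4, kg_thirteen_5, X_pow_dvd_iff] at h1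
  have hp0 : (13 : ZMod 13) = 0 := k_thirteen_eq_zero
  have hc0 := h1 0 (by norm_num)
  simp only [coeff_add, coeff_C_mul, kg_thirteen_0_coeff_0, kg_thirteen_1_coeff_0, kg_thirteen_2_coeff_0, kg_thirteen_3_coeff_0, kg_thirteen_4_coeff_0, kg_thirteen_5_coeff_0] at hc0
  have hc1 := h1 1 (by norm_num)
  simp only [coeff_add, coeff_C_mul, kg_thirteen_0_coeff_1, kg_thirteen_1_coeff_1, kg_thirteen_2_coeff_1, kg_thirteen_3_coeff_1, kg_thirteen_4_coeff_1, kg_thirteen_5_coeff_1] at hc1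
  have hc3 := h1 3 (by norm_num)
  simp only [coeff_add, coeff_C_mul, kg_thirteen_0_coeff_3, kg_thirteen_1_coeff_3, kg_thirteen_2_coeff_3, kg_thirteen_3_coeff_3, kg_thirteen_4_coeff_3, kg_thirteen_5_coeff_3] at hc3
  have hc5 := h1 5 (by norm_num)
  simp only [coeff_add, coeff_C_mul, kg_thirteen_0_coeff_5, kg_thirteen_1_coeff_5, kg_thirteen_2_coeff_5, kg_thirteen_3_coeff_5, kg_thirteen_4_coeff_5, kg_thirteen_5_coeff_5] at hc5
  have hc7 := h1 7 (by norm_num)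
  simp only [coeff_add, coeff_C_mul, kg_thirteen_0_coeff_7, kg_thirteen_1_coeff_7, kg_thirteen_2_coeff_7, kg_thirteen_3_coeff_7, kg_thirteen_4_coeff_7, kg_thirteen_5_coeff_7] at hc7
  have hc9 := h1 9 (by norm_num)
  simp only [coeff_add, coeff_C_mul, kg_thirteen_0_coeff_9, kg_thirteen_1_coeff_9, kg_thirteen_2_coeff_9, kg_thirteen_3_coeff_9, kg_thirteen_4_coeff_9, kg_thirteen_5_coeff_9] at hc9
  have he0 : (e 0 : ZMod 13) = 0 := by
    linear_combination (10) * hc0 + (6) * hc1 + (10) * hc3 + (11) * hc5 + (8) * hc7 + (6) * hc9 - (214518 * (e 0 : ZMod 13) + 140868 * (e 1 : ZMod 13) + 301519 * (e 2 : ZMod 13) + 478594 * (e 3 : ZMod 13) + 668358 * (e 4 : ZMod 13) + 867286 * (e 5 : ZMod 13)) * hp0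
  have he1 : (e 1 : ZMod 13) = 0 := by
    linear_combination (12) * hc0 + (1) * hc1 + (5) * hc3 + (9) * hc5 + (3) * hc7 + (9) * hc9 - (146037 * (e 0 : ZMod 13) + 96845 * (e 1 : ZMod 13) + 207461 * (e 2 : ZMod 13) + 329262 * (e 3 : ZMod 13) + 459552 * (e 4 : ZMod 13) + 595946 * (e 5 : ZMod 13)) * hp0
  have he2 : (e 2 : ZMod 13) = 0 := by
    linear_combination (12) * hc0 + (10) * hc1 + (5) * hc3 + (5) * hc5 + (7) * hc7 + (4) * hc9 - (131789 * (e 0 : ZMod 13) + 87406 * (e 1 : ZMod 13) + 187285 * (e 2 : ZMod 13) + 297262 * (e 3 : ZMod 13) + 414737 * (e 4 : ZMod 13) + 537344 * (e 5 : ZMod 13)) * hp0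
  have he3 : (e 3 : ZMod 13) = 0 := by
    linear_combination (10) * hc0 + (5) * hc1 + (6) * hc3 + (12) * hc5 + (7) * hc7 + (10) * hc9 - (210982 * (e 0 : ZMod 13) + 140248 * (e 1 : ZMod 13) + 300647 * (e 2 : ZMod 13) + 477427 * (e 3 : ZMod 13) + 666547 * (e 4 : ZMod 13) + 864344 * (e 5 : ZMod 13)) * hp0
  have he4 : (e 4 : ZMod 13) = 0 := by
    linear_combination (11) * hc0 + (3) * hc1 + (2) * hc3 + (5) * hc5 + (1) * hc9 - (55985 * (e 0 : ZMod 13) + 35704 * (e 1 : ZMod 13) + 76138 * (e 2 : ZMod 13) + 120750 * (e 3 : ZMod 13) + 168870 * (e 4 : ZMod 13) + 219760 * (e 5 : ZMod 13)) * hp0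
  have he5 : (e 5 : ZMod 13) = 0 := by
    linear_combination (11) * hc0 + (1) * hc1 + (6) * hc3 + (4) * hc5 + (10) * hc7 + (3) * hc9 - (143216 * (e 0 : ZMod 13) + 95928 * (e 1 : ZMod 13) + 205923 * (e 2 : ZMod 13) + 327224 * (e 3 : ZMod 13) + 456771 * (e 4 : ZMod 13) + 591773 * (e 5 : ZMod 13)) * hp0
  intro i
  rw [← ZMod.natCast_eq_zero_iff]
  fin_cases i
  · exact he0
  · exact he1
  · exact he2
  · exact he3
  · exact he4
  · exact he5

/-- **Independence of the cyclotomic units modulo `13`** (module C2). -/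
theorem cyclotomic_units_indep_thirteen (K : Type*) [Field K] [NumberField K]
    [IsCyclotomicExtension {13} ℚ K] {ζ : K} (hζ : IsPrimitiveRoot ζ 13) (e : Fin 6 → ℕ) (n : ℤ)
    (h : (13 : 𝓞 K) ∣ hζ.toInteger ^ e 0 *
      (∏ k : Fin 5, (∑ j ∈ Finset.range (k.val + 2), hζ.toInteger ^ j) ^ e k.succ) - (n : 𝓞 K)) :
    ∀ i, 13 ∣ e i := by
  have hpr : Fact (Nat.Prime 13) := ⟨by norm_num⟩
  have hcast : ((13 : ℕ) : 𝓞 K) = (13 : 𝓞 K) := by norm_num
  rw [← hcast] at h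
  exact kummer_indep_poly_thirteen e (n : ZMod 13) (kummer_dvd_of_dvd hζ e n h)

end Fermat.Agent.S11
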