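import Mathlib
import Fermat.Agent.S11.KummerRed

/-!
# Independence of the cyclotomic units modulo `5` (module C2 of the FLT small exponent project)

If a product `ζ^e₀ * ∏ (1 + ζ + ⋯ + ζ^(k+1))^e_(k+1)` of cyclotomic units of `ℚ(ζ_5)` is
congruent to a rational integer modulo `5`, then `5` divides every exponent.
-/

set_option autoImplicit false

namespace Fermat.Agent.S11

open Polynomial NumberField

/-- The reductions of the cyclotomic units `ζ, 1 + ζ, …` in `𝔽_5[X]`, with `ζ ↦ X + 1`. -/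
noncomputable def kG_five : Fin 2 → (ZMod 5)[X] :=
  ![X + 1, X + 2]

/-- The polynomials `Gᵢ' * ∏_(j ≠ i) Gⱼ`, expanded. -/
noncomputable def kg_five : Fin 2 → (ZMod 5)[X] :=
  ![X + 2,
    X + 1]

set_option linter.unusedSimpArgs false
set_option linter.unnecessarySeqFocus false
set_option linter.unreachableTactic false
set_option linter.unusedTactic false

theorem kG_five_succ (k : Fin 1) :
    ∑ j ∈ Finset.range (k.val + 2), ((X : (ZMod 5)[X]) + 1) ^ j = kG_five k.succ := by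
  fin_cases k <;> simp [kG_five, Finset.sum_range_succ] <;> ring

theorem kG_five_coeff_zero (i : Fin 2) : (kG_five i).coeff 0 ≠ 0 := by
  fin_cases i <;> simp [kG_five] <;> decide

theorem kg_five_0 : derivative (kG_five 0) * ∏ j ∈ Finset.univ.erase 0, kG_five j =
    kg_five 0 := by
  have h : (Finset.univ.erase (0 : Fin 2)) = {1} := by decide
  rw [h]
  simp [kG_five, kg_five, C_ofNat] <;> ring

theorem kg_five_1 : derivative (kG_five 1) * ∏ j ∈ Finset.univ.erase 1, kG_five j =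
    kg_five 1 := by
  have h : (Finset.univ.erase (1 : Fin 2)) = {0} := by decide
  rw [h]
  simp [kG_five, kg_five, C_ofNat] <;> ring

theorem kg_five_0_coeff_0 : (kg_five 0).coeff 0 = 2 := by
  simp [kg_five, coeff_X, coeff_one, coeff_X_pow]

theorem kg_five_0_coeff_1 : (kg_five 0).coeff 1 = 1 := by
  simp [kg_five, coeff_X, coeff_one, coeff_X_pow]

theorem kg_five_1_coeff_0 : (kg_five 1).coeff 0 = 1 := by
  simp [kg_five, coeff_X, coeff_one, coeff_X_pow]

theorem kg_five_1_coeff_1 : (kg_five 1).coeff 1 = 1 := by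
  simp [kg_five, coeff_X, coeff_one, coeff_X_pow]

theorem k_five_eq_zero : (5 : ZMod 5) = 0 := by decide

/-- The polynomial computation behind the independence of the cyclotomic units mod `5`. -/
theorem kummer_indep_poly_five (e : Fin 2 → ℕ) (c : ZMod 5)
    (h : (X : (ZMod 5)[X]) ^ 4 ∣ (X + 1) ^ e 0 *
      (∏ k : Fin 1, (∑ j ∈ Finset.range (k.val + 2), (X + 1) ^ j) ^ e k.succ) - C c) :
    ∀ i, 5 ∣ e i := by
  have hpr : Fact (Nat.Prime 5) := ⟨by norm_num⟩
  have hprod : ((X : (ZMod 5)[X]) + 1) ^ e 0 *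
      (∏ k : Fin 1, (∑ j ∈ Finset.range (k.val + 2), ((X : (ZMod 5)[X]) + 1) ^ j) ^ e k.succ) =
      ∏ i, kG_five i ^ e i := by
    rw [Fin.prod_univ_succ]
    simp only [kG_five_succ]
    rfl
  rw [hprod] at h
  have h1 := kp_X_pow_dvd_sum_of_prod_sub_const kG_five kG_five_coeff_zero e c 3 h
  rw [Fin.sum_univ_two, kg_five_0, kg_five_1, X_pow_dvd_iff] at h1
  have hp0 : (5 : ZMod 5) = 0 := k_five_eq_zero
  have hc0 := h1 0 (by norm_num)
  simp only [coeff_add, coeff_C_mul, kg_five_0_coeff_0, kg_five_1_coeff_0] at hc0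
  have hc1 := h1 1 (by norm_num)
  simp only [coeff_add, coeff_C_mul, kg_five_0_coeff_1, kg_five_1_coeff_1] at hc1
  have he0 : (e 0 : ZMod 5) = 0 := by
    linear_combination (1) * hc0 + (4) * hc1 - (1 * (e 0 : ZMod 5) + 1 * (e 1 : ZMod 5)) * hp0
  have he1 : (e 1 : ZMod 5) = 0 := by
    linear_combination (4) * hc0 + (2) * hc1 - (2 * (e 0 : ZMod 5) + 1 * (e 1 : ZMod 5)) * hp0
  intro i
  rw [← ZMod.natCast_eq_zero_iff]
  fin_cases i
  · exact he0
  · exact he1

/-- **Independence of the cyclotomic units modulo `5`** (module C2). -/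
theorem cyclotomic_units_indep_five (K : Type*) [Field K] [NumberField K]
    [IsCyclotomicExtension {5} ℚ K] {ζ : K} (hζ : IsPrimitiveRoot ζ 5) (e : Fin 2 → ℕ) (n : ℤ)
    (h : (5 : 𝓞 K) ∣ hζ.toInteger ^ e 0 *
      (∏ k : Fin 1, (∑ j ∈ Finset.range (k.val + 2), hζ.toInteger ^ j) ^ e k.succ) - (n : 𝓞 K)) :
    ∀ i, 5 ∣ e i := by
  have hpr : Fact (Nat.Prime 5) := ⟨by norm_num⟩
  have hcast : ((5 : ℕ) : 𝓞 K) = (5 : 𝓞 K) := by norm_num
  rw [← hcast] at h
  exact kummer_indep_poly_five e (n : ZMod 5) (kummer_dvd_of_dvd hζ e n h)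

end Fermat.Agent.S11
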