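import Mathlib
import Fermat.Agent.S11.KummerRed

/-!
# Independence of the cyclotomic units modulo `7` (module C2 of the FLT small exponent project)

If a product `ζ^e₀ * ∏ (1 + ζ + ⋯ + ζ^(k+1))^e_(k+1)` of cyclotomic units of `ℚ(ζ_7)` is
congruent to a rational integer modulo `7`, then `7` divides every exponent.
-/

set_option autoImplicit false

namespace Fermat.Agent.S11

open Polynomial NumberField

/-- The reductions of the cyclotomic units `ζ, 1 + ζ, …` in `𝔽_7[X]`, with `ζ ↦ X + 1`. -/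
noncomputable def kG_seven : Fin 3 → (ZMod 7)[X] :=
  ![X + 1, X + 2, X ^ 2 + 3 * X + 3]

/-- The polynomials `Gᵢ' * ∏_(j ≠ i) Gⱼ`, expanded. -/
noncomputable def kg_seven : Fin 3 → (ZMod 7)[X] :=
  ![X ^ 3 + 5 * X ^ 2 + 9 * X + 6,
    X ^ 3 + 4 * X ^ 2 + 6 * X + 3,
    2 * X ^ 3 + 9 * X ^ 2 + 13 * X + 6]

set_option linter.unusedSimpArgs false
set_option linter.unnecessarySeqFocus false
set_option linter.unreachableTactic false
set_option linter.unusedTactic false

theorem kG_seven_succ (k : Fin 2) :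
    ∑ j ∈ Finset.range (k.val + 2), ((X : (ZMod 7)[X]) + 1) ^ j = kG_seven k.succ := by
  fin_cases k <;> simp [kG_seven, Finset.sum_range_succ] <;> ring

theorem kG_seven_coeff_zero (i : Fin 3) : (kG_seven i).coeff 0 ≠ 0 := by
  fin_cases i <;> simp [kG_seven] <;> decide

theorem kg_seven_0 : derivative (kG_seven 0) * ∏ j ∈ Finset.univ.erase 0, kG_seven j =
    kg_seven 0 := by
  have h : (Finset.univ.erase (0 : Fin 3)) = {1, 2} := by decide
  rw [h]
  simp [kG_seven, kg_seven, C_ofNat] <;> ring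

theorem kg_seven_1 : derivative (kG_seven 1) * ∏ j ∈ Finset.univ.erase 1, kG_seven j =
    kg_seven 1 := by
  have h : (Finset.univ.erase (1 : Fin 3)) = {0, 2} := by decide
  rw [h]
  simp [kG_seven, kg_seven, C_ofNat] <;> ring

theorem kg_seven_2 : derivative (kG_seven 2) * ∏ j ∈ Finset.univ.erase 2, kG_seven j =
    kg_seven 2 := by
  have h : (Finset.univ.erase (2 : Fin 3)) = {0, 1} := by decide
  rw [h]
  simp [kG_seven, kg_seven, C_ofNat] <;> ring

theorem kg_seven_0_coeff_0 : (kg_seven 0).coeff 0 = 6 := by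
  simp [kg_seven, coeff_X, coeff_one, coeff_X_pow]

theorem kg_seven_0_coeff_1 : (kg_seven 0).coeff 1 = 9 := by
  simp [kg_seven, coeff_X, coeff_one, coeff_X_pow]

theorem kg_seven_0_coeff_3 : (kg_seven 0).coeff 3 = 1 := by
  simp [kg_seven, coeff_X, coeff_one, coeff_X_pow]

theorem kg_seven_1_coeff_0 : (kg_seven 1).coeff 0 = 3 := by
  simp [kg_seven, coeff_X, coeff_one, coeff_X_pow]

theorem kg_seven_1_coeff_1 : (kg_seven 1).coeff 1 = 6 := by
  simp [kg_seven, coeff_X, coeff_one, coeff_X_pow]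

theorem kg_seven_1_coeff_3 : (kg_seven 1).coeff 3 = 1 := by
  simp [kg_seven, coeff_X, coeff_one, coeff_X_pow]

theorem kg_seven_2_coeff_0 : (kg_seven 2).coeff 0 = 6 := by
  simp [kg_seven, coeff_X, coeff_one, coeff_X_pow]

theorem kg_seven_2_coeff_1 : (kg_seven 2).coeff 1 = 13 := by
  simp [kg_seven, coeff_X, coeff_one, coeff_X_pow]

theorem kg_seven_2_coeff_3 : (kg_seven 2).coeff 3 = 2 := by
  simp [kg_seven, coeff_X, coeff_one, coeff_X_pow]

theorem k_seven_eq_zero : (7 : ZMod 7) = 0 := by decide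

/-- The polynomial computation behind the independence of the cyclotomic units mod `7`. -/
theorem kummer_indep_poly_seven (e : Fin 3 → ℕ) (c : ZMod 7)
    (h : (X : (ZMod 7)[X]) ^ 6 ∣ (X + 1) ^ e 0 *
      (∏ k : Fin 2, (∑ j ∈ Finset.range (k.val + 2), (X + 1) ^ j) ^ e k.succ) - C c) :
    ∀ i, 7 ∣ e i := by
  have hpr : Fact (Nat.Prime 7) := ⟨by norm_num⟩
  have hprod : ((X : (ZMod 7)[X]) + 1) ^ e 0 *
      (∏ k : Fin 2, (∑ j ∈ Finset.range (k.val + 2), ((X : (ZMod 7)[X]) + 1) ^ j) ^ e k.succ) =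
      ∏ i, kG_seven i ^ e i := by
    rw [Fin.prod_univ_succ]
    simp only [kG_seven_succ]
    rfl
  rw [hprod] at h
  have h1 := kp_X_pow_dvd_sum_of_prod_sub_const kG_seven kG_seven_coeff_zero e c 5 h
  rw [Fin.sum_univ_three, kg_seven_0, kg_seven_1, kg_seven_2, X_pow_dvd_iff] at h1
  have hp0 : (7 : ZMod 7) = 0 := k_seven_eq_zero
  have hc0 := h1 0 (by norm_num)
  simp only [coeff_add, coeff_C_mul, kg_seven_0_coeff_0, kg_seven_1_coeff_0, kg_seven_2_coeff_0] at hc0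
  have hc1 := h1 1 (by norm_num)
  simp only [coeff_add, coeff_C_mul, kg_seven_0_coeff_1, kg_seven_1_coeff_1, kg_seven_2_coeff_1] at hc1
  have hc3 := h1 3 (by norm_num)
  simp only [coeff_add, coeff_C_mul, kg_seven_0_coeff_3, kg_seven_1_coeff_3, kg_seven_2_coeff_3] at hc3
  have he0 : (e 0 : ZMod 7) = 0 := by
    linear_combination (5) * hc0 + (6) * hc3 - (5 * (e 0 : ZMod 7) + 3 * (e 1 : ZMod 7) + 6 * (e 2 : ZMod 7)) * hp0
  have he1 : (e 1 : ZMod 7) = 0 := by
    linear_combination (4) * hc0 + (5) * hc1 + (1) * hc3 - (10 * (e 0 : ZMod 7) + 6 * (e 1 : ZMod 7) + 13 * (e 2 : ZMod 7)) * hp0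
  have he2 : (e 2 : ZMod 7) = 0 := by
    linear_combination (6) * hc0 + (1) * hc1 + (4) * hc3 - (7 * (e 0 : ZMod 7) + 4 * (e 1 : ZMod 7) + 8 * (e 2 : ZMod 7)) * hp0
  intro i
  rw [← ZMod.natCast_eq_zero_iff]
  fin_cases i
  · exact he0
  · exact he1
  · exact he2

/-- **Independence of the cyclotomic units modulo `7`** (module C2). -/
theorem cyclotomic_units_indep_seven (K : Type*) [Field K] [NumberField K]
    [IsCyclotomicExtension {7} ℚ K] {ζ : K} (hζ : IsPrimitiveRoot ζ 7) (e : Fin 3 → ℕ) (n : ℤ)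
    (h : (7 : 𝓞 K) ∣ hζ.toInteger ^ e 0 *
      (∏ k : Fin 2, (∑ j ∈ Finset.range (k.val + 2), hζ.toInteger ^ j) ^ e k.succ) - (n : 𝓞 K)) :
    ∀ i, 7 ∣ e i := by
  have hpr : Fact (Nat.Prime 7) := ⟨by norm_num⟩
  have hcast : ((7 : ℕ) : 𝓞 K) = (7 : 𝓞 K) := by norm_num
  rw [← hcast] at h
  exact kummer_indep_poly_seven e (n : ZMod 7) (kummer_dvd_of_dvd hζ e n h)

end Fermat.Agent.S11
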